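import Fermat.Agent.EFrob.Skeleton
import Fermat.Agent.S05.XIdentities

/-!
# P-EFROB, task V: Mathlib's `addSubMap` computes `x(P + Q)`, `x(P - Q)`

`WeierstrassCurve.addSubMap` sends the coordinate vector
`sym2x P Q ~ (x(P) x(Q) : x(P) + x(Q) : 1)` to a nonzero multiple of `sym2x (P + Q) (P - Q)`.

* `addSub : IfaceAddSub`.
-/

set_option autoImplicit false

namespace Fermat.Agent.EFrob

open WeierstrassCurve WeierstrassCurve.Affine

noncomputable section

section V

variable {F : Type} [Field F] (W : WeierstrassCurve F)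

/-- the values of `addSubMap`. -/
lemma V_eval (a b c : F) (i : Fin 3) :
    MvPolynomial.eval ![a, b, c] (W.addSubMap i) =
      ![a ^ 2 - W.b₄ * a * c - W.b₆ * b * c - W.b₈ * c ^ 2,
        2 * b * a + W.b₂ * a * c + W.b₄ * b * c + W.b₆ * c ^ 2,
        b ^ 2 - 4 * a * c] i := by
  fin_cases i <;> simp [addSubMap]

omit [Field F] in
lemma V_vec_eq [Mul F] {a0 a1 a2 b0 b1 b2 c : F} (h0 : a0 = c * b0) (h1 : a1 = c * b1)
    (h2 : a2 = c * b2) (i : Fin 3) : ![a0, a1, a2] i = c * ![b0, b1, b2] i := by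
  fin_cases i
  · exact h0
  · exact h1
  · exact h2

/-- Bezout relation between numerator and denominator of the duplication formula. -/
lemma V_bezout (x : F) :
    (-48 * x ^ 2 - 8 * W.b₂ * x + W.b₂ ^ 2 - 32 * W.b₄) *
        (x ^ 4 - W.b₄ * x ^ 2 - 2 * W.b₆ * x - W.b₈) +
      (12 * x ^ 3 - W.b₂ * x ^ 2 - 10 * W.b₄ * x + W.b₂ * W.b₄ - 27 * W.b₆) *
        (4 * x ^ 3 + W.b₂ * x ^ 2 + 2 * W.b₄ * x + W.b₆) = W.Δ := by
  simp only [WeierstrassCurve.Δ]
  linear_combination (12 * x ^ 2 + 2 * W.b₂ * x + 8 * W.b₄) * W.b_relation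

variable [DecidableEq F]

/-- the case `Q = P`. -/
lemma V_double (hΔ : W.Δ ≠ 0) {x y : F} (h : W.toAffine.Nonsingular x y) :
    ∃ c : F, c ≠ 0 ∧ ∀ i : Fin 3,
      MvPolynomial.eval ((Point.some x y h).sym2x (Point.some x y h)) (W.addSubMap i) =
        c * (Point.some x y h + Point.some x y h).sym2x (0 : W.toAffine.Point) i := by
  have hM := Fermat.Agent.S05.XId.twoY_sq W h.1
  by_cases hy : y = W.toAffine.negY x y
  · -- `2P = 0`
    have h2 : Point.some x y h + Point.some x y h = 0 := Point.add_self_of_Y_eq hy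
    have hω : 2 * y + W.a₁ * x + W.a₃ = 0 := by
      have : y - W.toAffine.negY x y = 0 := sub_eq_zero.mpr hy
      rw [Affine.negY] at this
      linear_combination this
    have hM0 : 4 * x ^ 3 + W.b₂ * x ^ 2 + 2 * W.b₄ * x + W.b₆ = 0 := by
      rw [← hM, hω]; ring
    have hN : x ^ 4 - W.b₄ * x ^ 2 - 2 * W.b₆ * x - W.b₈ ≠ 0 := by
      intro hN
      apply hΔ
      rw [← V_bezout W x, hN, hM0, mul_zero, mul_zero, add_zero]
    refine ⟨x ^ 4 - W.b₄ * x ^ 2 - 2 * W.b₆ * x - W.b₈, hN, fun i => ?_⟩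
    rw [h2, Point.sym2x_zero_zero, Point.sym2x_some_some, V_eval]
    exact V_vec_eq (by ring) (by linear_combination hM0) (by ring) i
  · -- `2P ≠ 0`
    obtain ⟨xd, yd, hd, hadd, hxd⟩ := Fermat.Agent.S05.XId.exists_double W h hy
    have hω : 2 * y + W.a₁ * x + W.a₃ ≠ 0 := by
      intro h0
      apply hy
      rw [Affine.negY]
      linear_combination h0
    refine ⟨(2 * y + W.a₁ * x + W.a₃) ^ 2, pow_ne_zero 2 hω, fun i => ?_⟩
    rw [hadd, Point.sym2x_some_zero, Point.sym2x_some_some, V_eval]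
    exact V_vec_eq (by linear_combination -hxd) (by linear_combination -hM) (by ring) i

end V

/-- **(V)** `WeierstrassCurve.addSubMap` computes `x(P + Q)`, `x(P - Q)`. -/
theorem addSub : IfaceAddSub := by
  intro F _ _ W hΔ P Q
  rcases P with _ | ⟨x₁, y₁, h₁⟩
  · -- `P = 0`
    rcases Q with _ | ⟨x₂, y₂, h₂⟩
    · refine ⟨1, one_ne_zero, fun i => ?_⟩
      show MvPolynomial.eval ((0 : W.toAffine.Point).sym2x (0 : W.toAffine.Point))
        (W.addSubMap i) = 1 * ((0 : W.toAffine.Point) + 0).sym2x ((0 : W.toAffine.Point) - 0) i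
      rw [add_zero, sub_zero, Point.sym2x_zero_zero, V_eval]
      exact V_vec_eq (by ring) (by ring) (by ring) i
    · refine ⟨1, one_ne_zero, fun i => ?_⟩
      show MvPolynomial.eval ((0 : W.toAffine.Point).sym2x (Point.some x₂ y₂ h₂))
        (W.addSubMap i) = 1 * ((0 : W.toAffine.Point) + Point.some x₂ y₂ h₂).sym2x
          ((0 : W.toAffine.Point) - Point.some x₂ y₂ h₂) i
      rw [zero_add, zero_sub, Point.sym2x_neg_right, Point.sym2x_some_some,
        Point.sym2x_zero_some, V_eval]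
      exact V_vec_eq (by ring) (by ring) (by ring) i
  · rcases Q with _ | ⟨x₂, y₂, h₂⟩
    · -- `Q = 0`
      refine ⟨1, one_ne_zero, fun i => ?_⟩
      show MvPolynomial.eval ((Point.some x₁ y₁ h₁).sym2x (0 : W.toAffine.Point))
        (W.addSubMap i) = 1 * (Point.some x₁ y₁ h₁ + 0).sym2x (Point.some x₁ y₁ h₁ - 0) i
      rw [add_zero, sub_zero, Point.sym2x_some_some, Point.sym2x_some_zero, V_eval]
      exact V_vec_eq (by ring) (by ring) (by ring) i
    · by_cases hx : x₁ = x₂
      · -- `Q = ± P`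
        subst hx
        have hPQ : Point.some x₁ y₂ h₂ = Point.some x₁ y₁ h₁ ∨
            Point.some x₁ y₂ h₂ = -Point.some x₁ y₁ h₁ := by
          rcases Affine.Y_eq_of_X_eq h₁.1 h₂.1 rfl with hy | hy
          · left
            subst hy
            rfl
          · right
            rw [Point.neg_some]
            have : y₂ = W.toAffine.negY x₁ y₁ := by
              rw [hy, Affine.negY_negY]
            subst this
            rfl
        obtain ⟨c, hc, hcd⟩ := V_double W hΔ h₁
        refine ⟨c, hc, fun i => ?_⟩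
        rcases hPQ with hQ | hQ
        · rw [hQ, sub_self, hcd i]
        · rw [hQ, Point.sym2x_neg_right, hcd i, add_neg_cancel, sub_neg_eq_add,
            Point.sym2x_comm]
      · -- the generic case
        obtain ⟨xp, yp, xm, ym, hp, hm, hadd, hsub, hI1, hI2⟩ :=
          Fermat.Agent.S05.XId.exists_add_sub W h₁ h₂ hx
        refine ⟨(x₁ - x₂) ^ 2, pow_ne_zero 2 (sub_ne_zero.mpr hx), fun i => ?_⟩
        rw [hadd, hsub, Point.sym2x_some_some, Point.sym2x_some_some, V_eval]
        exact V_vec_eq (by linear_combination -hI1) (by linear_combination -hI2) (by ring) i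

end

end Fermat.Agent.EFrob
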