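import Mathlib

set_option autoImplicit false

namespace Fermat.Agent.EFrob

open Polynomial

section LinAlg

variable {F : Type*} [Field F] {V : Type*} [AddCommGroup V] [Module F V] [Module.Finite F V]

/-- A non-scalar endomorphism of a 2-dimensional space killed by a monic quadratic has that
quadratic as characteristic polynomial. -/
theorem L95_charpoly_of_quad (hV : Module.finrank F V = 2) (T : Module.End F V) (a d : F)
    (hrel : T * T - a • T + d • (1 : Module.End F V) = 0)
    (hns : ∀ c : F, T ≠ c • (1 : Module.End F V)) :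
    T.charpoly = X ^ 2 - C a * X + C d := by
  have hnt : Nontrivial V := Module.nontrivial_of_finrank_pos (R := F) (by omega)
  have hq : aeval T (X ^ 2 - C a * X + C d : F[X]) = 0 := by
    simp only [map_add, map_sub, map_mul, aeval_X, aeval_C, pow_two,
      Algebra.algebraMap_eq_smul_one, smul_mul_assoc, one_mul]
    exact hrel
  have hqm : (X ^ 2 - C a * X + C d : F[X]).Monic := by
    have : (X ^ 2 - C a * X + C d : F[X]) = X ^ 2 + (-(C a * X) + C d) := by ring
    rw [this]
    apply monic_X_pow_add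
    compute_degree!
  have hqd : (X ^ 2 - C a * X + C d : F[X]).natDegree = 2 := by
    compute_degree!
  have hint : IsIntegral F T := Algebra.IsIntegral.isIntegral T
  have hmm := minpoly.monic hint
  have hdvd : minpoly F T ∣ (X ^ 2 - C a * X + C d : F[X]) := minpoly.dvd F T hq
  have hdeg : 2 ≤ (minpoly F T).natDegree := by
    by_contra hlt
    have h1 : (minpoly F T).natDegree = 1 := by
      have := minpoly.natDegree_pos hint
      omega
    rw [minpoly.natDegree_eq_one_iff] at h1
    obtain ⟨c, hc⟩ := h1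
    exact hns c (by rw [← hc, Algebra.algebraMap_eq_smul_one])
  have hmq : (X ^ 2 - C a * X + C d : F[X]) = minpoly F T :=
    eq_of_monic_of_dvd_of_natDegree_le hmm hqm hdvd (by rw [hqd]; exact hdeg)
  have hcd : T.charpoly.natDegree = 2 := by rw [LinearMap.charpoly_natDegree, hV]
  have hmc : T.charpoly = minpoly F T :=
    eq_of_monic_of_dvd_of_natDegree_le hmm (LinearMap.charpoly_monic T)
      (LinearMap.minpoly_dvd_charpoly T) (by rw [hcd]; exact hdeg)
  rw [hmc, ← hmq]

/-- Trace and determinant of an endomorphism of a 2-dimensional space from its characteristic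
polynomial. -/
theorem L95_trace_det_of_charpoly (hV : Module.finrank F V = 2) (T : Module.End F V) (a d : F)
    (hc : T.charpoly = X ^ 2 - C a * X + C d) :
    LinearMap.trace F V T = a ∧ LinearMap.det T = d := by
  constructor
  · classical
    let b := Module.finBasisOfFinrankEq F V hV
    rw [LinearMap.trace_eq_matrix_trace F b T, Matrix.trace_eq_neg_charpoly_coeff,
      LinearMap.charpoly_toMatrix, hc]
    simp [coeff_C]
  · rw [LinearMap.det_eq_sign_charpoly_coeff, hV, hc]
    simp [coeff_X, coeff_C]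

/-- **(a)** the non-scalar case. -/
theorem L95_nonscalar (hV : Module.finrank F V = 2) (T : Module.End F V) (a d : F)
    (hrel : T * T - a • T + d • (1 : Module.End F V) = 0)
    (hns : ∀ c : F, T ≠ c • (1 : Module.End F V)) :
    LinearMap.trace F V T = a ∧ LinearMap.det T = d :=
  L95_trace_det_of_charpoly hV T a d (L95_charpoly_of_quad hV T a d hrel hns)

/-- Trace and determinant of a scalar endomorphism of a 2-dimensional space. -/
theorem L95_trace_det_scalar (hV : Module.finrank F V = 2) (c : F) :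
    LinearMap.trace F V (c • (1 : Module.End F V)) = 2 * c ∧
      LinearMap.det (c • (1 : Module.End F V)) = c ^ 2 := by
  constructor
  · rw [map_smul, LinearMap.trace_one, hV]
    simp [mul_comm]
  · rw [LinearMap.det_smul, hV, map_one, mul_one]

end LinAlg

section Abstract

variable (p : ℕ) [hp : Fact p.Prime] {A : Type*} [AddCommGroup A]

/-- An integer killing a nonzero element of order `p` is divisible by `p`. -/
theorem L95_dvd_of_zsmul_eq_zero {x : A} (hx : x ≠ 0) (hpx : p • x = 0) {m : ℤ}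
    (hm : m • x = 0) : (p : ℤ) ∣ m := by
  by_contra hnd
  have hcop : IsCoprime m (p : ℤ) := by
    rw [isCoprime_comm]
    exact (Nat.prime_iff_prime_int.mp hp.out).coprime_iff_not_dvd.mpr hnd
  obtain ⟨u, v, huv⟩ := hcop
  apply hx
  have h1 : (u * m + v * (p : ℤ)) • x = x := by rw [huv, one_smul]
  rw [add_smul, mul_smul, mul_smul, hm, smul_zero, natCast_zsmul, hpx, smul_zero, add_zero] at h1
  exact h1.symm

/-- **(b)** the abstract scalar argument: if `φ` satisfies `φ² - a φ + ℓ = 0`, acts on `A[p]` as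
the integer `c`, and the levels `n` at which `φ` is an integer scalar on `A[p ^ n]` are bounded,
then `a ≡ 2 c` and `ℓ ≡ c ^ 2` modulo `p`. -/
theorem L95_scalar_abs (hx : ∃ x : A, x ≠ 0 ∧ p • x = 0) (φ : A →+ A) (a ℓ : ℤ)
    (hrel : ∀ x : A, φ (φ x) - a • φ x + ℓ • x = 0)
    (c : ℤ) (hc : ∀ x : A, p • x = 0 → φ x = c • x)
    (n₀ : ℕ) (hbound : ∀ (n : ℕ) (c' : ℤ), (∀ x : A, p ^ n • x = 0 → φ x = c' • x) → n ≤ n₀) :
    (p : ℤ) ∣ 2 * c - a ∧ (p : ℤ) ∣ c ^ 2 - ℓ := by
  classical
  obtain ⟨x, hx0, hpx⟩ := hx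
  -- the maximal level
  let P : ℕ → Prop := fun n => 1 ≤ n ∧ ∃ c' : ℤ, ∀ x : A, p ^ n • x = 0 → φ x = c' • x
  have hP1 : P 1 := ⟨le_rfl, c, fun x hx => hc x (by simpa using hx)⟩
  have hle : ∀ m, P m → m ≤ n₀ := fun m hm => by
    obtain ⟨c', hc'⟩ := hm.2
    exact hbound m c' hc'
  have hPn : P (Nat.findGreatest P n₀) := Nat.findGreatest_spec (hle 1 hP1) hP1
  have hmax : ∀ m, P m → m ≤ Nat.findGreatest P n₀ := fun m hm =>
    Nat.le_findGreatest (hle m hm) hm
  set n := Nat.findGreatest P n₀ with hn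
  obtain ⟨hn1, cn, hcn⟩ := hPn
  -- the key relation on `A[p ^ (2 n)]`
  have hμ : ∀ Q : A, p ^ (2 * n) • Q = 0 → p ^ n • (φ Q - cn • Q) = 0 := by
    intro Q hQ
    have h1 : p ^ n • (p ^ n • Q) = 0 := by rw [← mul_smul, ← pow_add, ← two_mul]; exact hQ
    have h2 := hcn _ h1
    rw [map_nsmul] at h2
    rw [smul_sub, h2, smul_comm, sub_self]
  have hE : ∀ Q : A, p ^ (2 * n) • Q = 0 →
      (cn ^ 2 - a * cn + ℓ) • Q + (2 * cn - a) • (φ Q - cn • Q) = 0 := by
    intro Q hQ
    have h1 := hcn _ (hμ Q hQ)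
    have h2 : φ (φ Q) = cn • φ Q + cn • (φ Q - cn • Q) := by
      rw [← h1, map_sub, map_zsmul]; abel
    have h3 := hrel Q
    rw [h2] at h3
    rw [← h3]
    simp only [sub_smul, add_smul, mul_smul, smul_sub, pow_two, two_mul]
    abel
  -- `p ∣ 2 cn - a`
  have hB : (p : ℤ) ∣ 2 * cn - a := by
    by_contra hnd
    have hcop : IsCoprime (2 * cn - a) ((p : ℤ) ^ (2 * n)) := by
      apply IsCoprime.pow_right
      rw [isCoprime_comm]
      exact (Nat.prime_iff_prime_int.mp hp.out).coprime_iff_not_dvd.mpr hnd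
    obtain ⟨u, v, huv⟩ := hcop
    have hsc : P (2 * n) := by
      refine ⟨by omega, cn - u * (cn ^ 2 - a * cn + ℓ), fun Q hQ => ?_⟩
      have h1 : (u * (2 * cn - a) + v * (p : ℤ) ^ (2 * n)) • (φ Q - cn • Q) = φ Q - cn • Q := by
        rw [huv, one_smul]
      have h2 : ((p : ℤ) ^ (2 * n)) • (φ Q - cn • Q) = 0 := by
        rw [← Nat.cast_pow, natCast_zsmul, two_mul, pow_add, mul_smul, hμ Q hQ, smul_zero]
      have h3 : (2 * cn - a) • (φ Q - cn • Q) = -((cn ^ 2 - a * cn + ℓ) • Q) :=
        eq_neg_of_add_eq_zero_right (hE Q hQ)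
      rw [add_smul, mul_smul, mul_smul, h2, smul_zero, add_zero, h3] at h1
      rw [sub_smul, mul_smul]
      have h4 : φ Q = cn • Q + (φ Q - cn • Q) := by abel
      rw [h4, ← h1]
      simp only [smul_neg, sub_eq_add_neg]
    have := hmax _ hsc
    omega
  -- `x` lies in all relevant torsion subgroups
  have hxn : ∀ m, 1 ≤ m → p ^ m • x = 0 := by
    intro m hm
    obtain ⟨j, rfl⟩ := Nat.exists_eq_add_of_le hm
    rw [pow_add, pow_one, mul_comm, mul_smul, hpx, smul_zero]
  have hφx : φ x = cn • x := hcn x (hxn n hn1)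
  -- `p ∣ cn ^ 2 - a cn + ℓ`
  have hA : (p : ℤ) ∣ cn ^ 2 - a * cn + ℓ := by
    apply L95_dvd_of_zsmul_eq_zero p hx0 hpx
    have h1 := hE x (hxn (2 * n) (by omega))
    rw [hφx, sub_self, smul_zero, add_zero] at h1
    exact h1
  -- `p ∣ c - cn`
  have hcc : (p : ℤ) ∣ c - cn := by
    apply L95_dvd_of_zsmul_eq_zero p hx0 hpx
    rw [sub_smul, ← hφx, hc x hpx, sub_self]
  constructor
  · have : 2 * c - a = (2 * cn - a) + 2 * (c - cn) := by ring
    rw [this]
    exact dvd_add hB (Dvd.dvd.mul_left hcc 2)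
  · have : c ^ 2 - ℓ = (c - cn) * (c + cn) + cn * (2 * cn - a) - (cn ^ 2 - a * cn + ℓ) := by ring
    rw [this]
    exact dvd_sub (dvd_add (Dvd.dvd.mul_right hcc _) (Dvd.dvd.mul_left hB _)) hA

end Abstract

end Fermat.Agent.EFrob
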