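import Fermat.Agent.EFrob.Skeleton
import Fermat.Agent.EFrob.CharpolyAlg
import Fermat.Agent.Tors.Qbar

set_option autoImplicit false

namespace Fermat.Agent.EFrob

open WeierstrassCurve WeierstrassCurve.Affine Polynomial

noncomputable section

/-- The geometric input of the scalar case of (L): the levels `n` at which Frobenius acts on
`E[p ^ n]` as multiplication by an integer are bounded. -/
def L95_ScalarBound : Prop :=
  ∀ (ℓ p : ℕ) [Fact ℓ.Prime] [Fact p.Prime], ℓ ≠ p →
    ∀ (k : Type) [Field k] [IsAlgClosed k] [CharP k ℓ] [DecidableEq k]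
      (W : WeierstrassCurve ℤ), Good k W →
      ∃ n₀ : ℕ, ∀ (n : ℕ) (c' : ℤ),
        (∀ Q : (W⁄k).Point, p ^ n • Q = 0 → frob ℓ W Q = c' • Q) → n ≤ n₀

theorem L95_natCast_ne_zero (ℓ p : ℕ) [Fact ℓ.Prime] [Fact p.Prime] (hne : ℓ ≠ p)
    (k : Type) [Field k] [CharP k ℓ] : (p : k) ≠ 0 := by
  intro h
  have h1 : ℓ ∣ p := (CharP.cast_eq_zero_iff k ℓ p).mp h
  have hℓ : ℓ.Prime := Fact.out
  have hp : p.Prime := Fact.out
  rcases (Nat.dvd_prime hp).mp h1 with h2 | h2
  · exact hℓ.one_lt.ne' h2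
  · exact hne h2

theorem L95_finrank (ℓ p : ℕ) [Fact ℓ.Prime] [Fact p.Prime] (hne : ℓ ≠ p)
    (k : Type) [Field k] [IsAlgClosed k] [CharP k ℓ] [DecidableEq k]
    (W : WeierstrassCurve ℤ) (hW : Good k W) :
    Finite (Submodule.torsionBy ℤ (W⁄k).Point p) ∧
      Module.finrank (ZMod p) (Submodule.torsionBy ℤ (W⁄k).Point p) = 2 := by
  have hp : p.Prime := Fact.out
  have hpk := L95_natCast_ne_zero ℓ p hne k
  have hfin := Tors.finite_torsionBy (W⁄k) hW p hpk
  refine ⟨hfin, ?_⟩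
  have h := Module.natCard_eq_pow_finrank (K := ZMod p)
    (V := Submodule.torsionBy ℤ (W⁄k).Point p)
  rw [Tors.card_torsionBy (W⁄k) hW p hpk, Nat.card_zmod] at h
  exact (Nat.pow_right_injective hp.two_le h).symm

/-- **(L)** from the core relation and the geometric bound. -/
theorem L95_charpolyFF_of (hB : L95_ScalarBound) (hCore : IfaceCore) : IfaceCharpolyFF := by
  intro ℓ p _ _ hne k _ _ _ _ W hW T hT
  have hp : p.Prime := Fact.out
  obtain ⟨hfin, hrank⟩ := L95_finrank ℓ p hne k W hW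
  have hmf : Module.Finite (ZMod p) (Submodule.torsionBy ℤ (W⁄k).Point p) :=
    Module.Finite.of_finite
  -- the quadratic relation on `E[p]`
  have hcore : ∀ P : (W⁄k).Point,
      frob ℓ W (frob ℓ W P) - (W.apOfModel ℓ) • frob ℓ W P + (ℓ : ℤ) • P = 0 := by
    intro P
    have h := hCore ℓ k W hW P
    rw [lam_apply, one_smul, neg_smul] at h
    rw [sub_eq_add_neg]
    exact h
  have hrel : T * T - ((W.apOfModel ℓ : ℤ) : ZMod p) • T
      + (ℓ : ZMod p) • (1 : Module.End (ZMod p) (Submodule.torsionBy ℤ (W⁄k).Point p)) = 0 := by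
    apply LinearMap.ext
    intro Q
    apply Subtype.ext
    have h := hcore (Q : (W⁄k).Point)
    have e1 : (((T * T) Q : Submodule.torsionBy ℤ (W⁄k).Point p) : (W⁄k).Point) =
        frob ℓ W (frob ℓ W (Q : (W⁄k).Point)) := by
      rw [Module.End.mul_apply, hT, hT]
    have e2 : (((((W.apOfModel ℓ : ℤ) : ZMod p) • T) Q :
        Submodule.torsionBy ℤ (W⁄k).Point p) : (W⁄k).Point) =
        (W.apOfModel ℓ) • frob ℓ W (Q : (W⁄k).Point) := by
      rw [LinearMap.smul_apply, Int.cast_smul_eq_zsmul, Submodule.coe_smul, hT]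
    have e3 : ((((ℓ : ZMod p) • (1 : Module.End (ZMod p)
        (Submodule.torsionBy ℤ (W⁄k).Point p))) Q :
        Submodule.torsionBy ℤ (W⁄k).Point p) : (W⁄k).Point) = (ℓ : ℤ) • (Q : (W⁄k).Point) := by
      rw [LinearMap.smul_apply, Module.End.one_apply, Nat.cast_smul_eq_nsmul,
        natCast_zsmul]
      rfl
    rw [LinearMap.add_apply, LinearMap.sub_apply, Submodule.coe_add, Submodule.coe_sub,
      e1, e2, e3]
    exact h
  by_cases hsc : ∃ c : ZMod p, T = c • (1 : Module.End (ZMod p)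
      (Submodule.torsionBy ℤ (W⁄k).Point p))
  · -- scalar case
    obtain ⟨cbar, hT'⟩ := hsc
    obtain ⟨c, rfl⟩ := ZMod.intCast_surjective cbar
    have hc : ∀ x : (W⁄k).Point, p • x = 0 → frob ℓ W x = c • x := by
      intro x hx
      have hxm : x ∈ Submodule.torsionBy ℤ (W⁄k).Point p := by
        rw [Submodule.mem_torsionBy_iff, natCast_zsmul]; exact hx
      have h1 := hT ⟨x, hxm⟩
      rw [hT', LinearMap.smul_apply, Module.End.one_apply, Int.cast_smul_eq_zsmul,
        Submodule.coe_smul] at h1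
      exact h1.symm
    have hnt : Nontrivial (Submodule.torsionBy ℤ (W⁄k).Point p) :=
      Tors.nontrivial_torsionBy (W⁄k) hW p (L95_natCast_ne_zero ℓ p hne k) hp.two_le
    obtain ⟨x, hx⟩ := exists_ne (0 : Submodule.torsionBy ℤ (W⁄k).Point p)
    have hx' : ∃ y : (W⁄k).Point, y ≠ 0 ∧ p • y = 0 := by
      refine ⟨x, fun h => hx (Subtype.ext h), ?_⟩
      have := x.2
      rw [Submodule.mem_torsionBy_iff, natCast_zsmul] at this
      exact this
    obtain ⟨n₀, hn₀⟩ := hB ℓ p hne k W hW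
    obtain ⟨h2, h3⟩ := L95_scalar_abs p hx' (frob ℓ W) (W.apOfModel ℓ) (ℓ : ℤ) hcore c hc
      n₀ hn₀
    have h2' : (2 : ZMod p) * (c : ZMod p) = ((W.apOfModel ℓ : ℤ) : ZMod p) := by
      have := (ZMod.intCast_zmod_eq_zero_iff_dvd _ p).mpr h2
      push_cast at this
      exact sub_eq_zero.mp this
    have h3' : (c : ZMod p) ^ 2 = (ℓ : ZMod p) := by
      have := (ZMod.intCast_zmod_eq_zero_iff_dvd _ p).mpr h3
      push_cast at this
      exact sub_eq_zero.mp this
    rw [hT']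
    obtain ⟨t1, t2⟩ := L95_trace_det_scalar (F := ZMod p)
      (V := Submodule.torsionBy ℤ (W⁄k).Point p) hrank (c : ZMod p)
    rw [t1, t2]
    exact ⟨h2', h3'⟩
  · -- non-scalar case
    exact L95_nonscalar hrank T _ _ hrel (fun c hc => hsc ⟨c, hc⟩)

end

end Fermat.Agent.EFrob
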