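import Fermat.Agent.EFrob.Skeleton
import Fermat.Agent.Tors.Qbar
import Fermat.Agent.S13.LadderCount

/-!
# P-EFROB (L): trace and determinant of Frobenius on `E[p]` over an algebraically closed field

`theorem charpolyFF (hCore : IfaceCore) : IfaceCharpolyFF`.

Let `φ` be the `ℓ`-power Frobenius of `E = W⁄k` (`k` algebraically closed of characteristic `ℓ`),
`p ≠ ℓ` a prime and `V = E[p]`, a vector space of dimension `2` over `ZMod p`
(`Fermat.Agent.Tors.card_torsionBy`).  By `IfaceCore`, `φ² - a φ + ℓ = 0` with `a = a_ℓ`.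

* If `φ` is not scalar on `V`, Cayley-Hamilton gives `(tr - a) φ = det - ℓ` on `V`, hence
  `tr = a` and `det = ℓ` (`L_end_trace_det`).
* If `φ = c` on `V` (with `c` an integer), we show `p ∣ 2 c - a` (and `p ∣ c² - a c + ℓ`):
  otherwise the doubling step `L_double` shows by induction that `φ` acts as an integer on
  `E[p ^ (2 ^ j)]` for all `j`; but if `φ` acts as the integer `c` on `E[N]` then, taking
  `n = |c mod N| ≤ N / 2`, the `x`-coordinates of the `N² - 1` nonzero points of `E[N]` are roots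
  of the nonzero polynomial `X ^ ℓ Gₙ - Fₙ` of degree at most `ℓ + n²`
  (`(Fₙ, Gₙ)` the ladder polynomials of `Fermat.Agent.S13`), whence `N² ≤ 4 ℓ + 2` (`L_bound`).
-/

set_option autoImplicit false

namespace Fermat.Agent.EFrob

open WeierstrassCurve WeierstrassCurve.Affine Polynomial
open Fermat.Agent.S13 Fermat.Agent.S51 Fermat.Agent.Tors

/-! ## Linear algebra in dimension two -/

section LinAlg

variable {K : Type*} [Field K]

/-- A `2 × 2` matrix which satisfies `M² - a M + b = 0` and is not scalar has trace `a` and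
determinant `b`. -/
lemma L_matrix_trace_det (M : Matrix (Fin 2) (Fin 2) K) (a b : K)
    (h : M * M - a • M + b • (1 : Matrix (Fin 2) (Fin 2) K) = 0)
    (hns : ∀ c : K, M ≠ c • (1 : Matrix (Fin 2) (Fin 2) K)) : M.trace = a ∧ M.det = b := by
  have hCH : M * M - M.trace • M + M.det • (1 : Matrix (Fin 2) (Fin 2) K) = 0 := by
    have h1 := Matrix.aeval_self_charpoly M
    rw [Matrix.charpoly_fin_two] at h1
    simpa [pow_two, Algebra.smul_def] using h1
  have hsub : (M.trace - a) • M = (M.det - b) • (1 : Matrix (Fin 2) (Fin 2) K) := by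
    have h2 : (M * M - a • M + b • (1 : Matrix (Fin 2) (Fin 2) K)) -
        (M * M - M.trace • M + M.det • (1 : Matrix (Fin 2) (Fin 2) K)) = 0 := by
      rw [h, hCH, sub_zero]
    rw [sub_smul, sub_smul]
    rw [← sub_eq_zero]
    rw [← h2]
    abel
  by_cases ht : M.trace = a
  · refine ⟨ht, ?_⟩
    rw [ht, sub_self, zero_smul] at hsub
    have h00 := congrFun (congrFun hsub 0) 0
    simp only [Matrix.zero_apply, Matrix.smul_apply, Matrix.one_apply_eq, smul_eq_mul,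
      mul_one] at h00
    exact sub_eq_zero.mp h00.symm
  · exfalso
    have ht' : M.trace - a ≠ 0 := sub_ne_zero.mpr ht
    apply hns ((M.trace - a)⁻¹ * (M.det - b))
    rw [mul_smul, ← hsub, smul_smul, inv_mul_cancel₀ ht', one_smul]

variable {V : Type*} [AddCommGroup V] [Module K V]

/-- An endomorphism `T` of a two-dimensional vector space which satisfies `T² - a T + b = 0`
and is not scalar has trace `a` and determinant `b`. -/
lemma L_end_trace_det (hV : Module.finrank K V = 2) (T : Module.End K V) (a b : K)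
    (h : ∀ v : V, T (T v) - a • T v + b • v = 0)
    (hns : ∀ c : K, ∃ v : V, T v ≠ c • v) :
    LinearMap.trace K V T = a ∧ LinearMap.det T = b := by
  have : Module.Finite K V := Module.finite_of_finrank_pos (by rw [hV]; norm_num)
  let bs := Module.finBasisOfFinrankEq K V hV
  have e1 : LinearMap.trace K V T = (LinearMap.toMatrix bs bs T).trace :=
    LinearMap.trace_eq_matrix_trace K bs T
  have e2 : LinearMap.det T = (LinearMap.toMatrix bs bs T).det :=
    (LinearMap.det_toMatrix bs T).symm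
  rw [e1, e2]
  apply L_matrix_trace_det
  · have hT : T * T - a • T + b • (1 : Module.End K V) = 0 := by
      ext v
      simpa using h v
    have := congrArg (LinearMap.toMatrix bs bs) hT
    simpa [LinearMap.toMatrix_mul, LinearMap.toMatrix_one] using this
  · intro c hc
    obtain ⟨v, hv⟩ := hns c
    apply hv
    have h3 : LinearMap.toMatrix bs bs T = LinearMap.toMatrix bs bs (c • (1 : Module.End K V)) := by
      rw [hc, map_smul, LinearMap.toMatrix_one]
    have h4 := (LinearMap.toMatrix bs bs).injective h3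
    rw [h4]
    simp

/-- A scalar endomorphism `c` of a two-dimensional vector space has trace `2 c` and
determinant `c²`. -/
lemma L_scalar_trace_det (hV : Module.finrank K V = 2) (T : Module.End K V) (c : K)
    (h : ∀ v : V, T v = c • v) :
    LinearMap.trace K V T = 2 * c ∧ LinearMap.det T = c ^ 2 := by
  have : Module.Finite K V := Module.finite_of_finrank_pos (by rw [hV]; norm_num)
  have hT : T = c • (1 : Module.End K V) := by
    ext v
    simpa using h v
  constructor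
  · rw [hT, map_smul, LinearMap.trace_one, hV]
    simp [mul_comm]
  · rw [hT, LinearMap.det_smul, hV, Module.End.one_eq_id, LinearMap.det_id, mul_one]

end LinAlg

/-! ## Abstract group theory -/

section Abstract

variable {G : Type*} [AddCommGroup G]

/-- Doubling step: if `φ` satisfies `φ² - a φ + l = 0`, acts as the integer `c` on the
`N`-torsion and `2 c - a` is prime to `N`, then `φ` acts as an integer on the `N²`-torsion. -/
lemma L_double (φ : G →+ G) (a l c N : ℤ)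
    (hrel : ∀ Q : G, φ (φ Q) + (-a) • φ Q + l • Q = 0)
    (hscal : ∀ Q : G, N • Q = 0 → φ Q = c • Q)
    (hcop : IsCoprime (2 * c - a) N) :
    ∃ c' : ℤ, ∀ Q : G, (N * N) • Q = 0 → φ Q = c' • Q := by
  obtain ⟨u, v, huv⟩ := hcop.mul_right hcop
  refine ⟨c - u * (c ^ 2 - a * c + l), fun Q hQ => ?_⟩
  obtain ⟨μ, hμ⟩ : ∃ μ : G, μ = φ Q - c • Q := ⟨_, rfl⟩
  have hNμ : N • μ = 0 := by
    have h1 : N • (N • Q) = 0 := by rw [smul_smul]; exact hQ
    have h2 := hscal (N • Q) h1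
    rw [map_zsmul] at h2
    rw [hμ, smul_sub, h2, smul_comm, sub_self]
  have hφμ : φ μ = c • μ := hscal μ hNμ
  have hφQ : φ Q = μ + c • Q := by rw [hμ]; abel
  have hB : (2 * c - a) • μ = -((c ^ 2 - a * c + l) • Q) := by
    have h := hrel Q
    rw [hφQ, map_add, map_zsmul, hφμ, hφQ] at h
    rw [eq_neg_iff_add_eq_zero, ← h]
    module
  have hμ' : μ = -((u * (c ^ 2 - a * c + l)) • Q) := by
    have h1 : μ = (u * (2 * c - a) + v * (N * N)) • μ := by rw [huv, one_smul]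
    have h2 : (N * N) • μ = 0 := by rw [mul_smul, hNμ, smul_zero]
    rw [add_smul, mul_smul, mul_smul v, h2, smul_zero, add_zero, hB] at h1
    rw [h1, mul_smul, smul_neg]
  rw [hφQ, hμ']
  module

/-- If a nonzero element `Q` is killed by the prime `p` and by `d`, then `p ∣ d`. -/
lemma L_dvd_of_smul_eq_zero (p : ℕ) (hp : p.Prime) (Q : G) (hQ : Q ≠ 0)
    (hpQ : (p : ℤ) • Q = 0) (d : ℤ) (hd : d • Q = 0) : (p : ℤ) ∣ d := by
  by_contra hnd
  have hcop : IsCoprime (p : ℤ) d :=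
    (Nat.prime_iff_prime_int.mp hp).coprime_iff_not_dvd.mpr hnd
  obtain ⟨u, v, huv⟩ := hcop
  apply hQ
  have h1 : Q = (u * (p : ℤ) + v * d) • Q := by rw [huv, one_smul]
  rw [add_smul, mul_smul, mul_smul, hpQ, hd, smul_zero, smul_zero, add_zero] at h1
  exact h1

end Abstract

/-! ## The bound: Frobenius is not an integer on large torsion -/

section Bound

variable {F : Type*} [Field F] [IsAlgClosed F] [DecidableEq F] (E : Affine F)

/-- The polynomial `X ^ ℓ * Gₙ - Fₙ` is not zero (`ℓ` prime, `n ≥ 1`). -/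
lemma L_frobPoly_ne_zero (hΔ : E.Δ ≠ 0) (ℓ : ℕ) (hℓ : ℓ.Prime) (n : ℕ) (hn : 1 ≤ n) :
    X ^ ℓ * (T_ladder E n).2 - (T_ladder E n).1 ≠ 0 := by
  intro h0
  have hFG : (T_ladder E n).1 = X ^ ℓ * (T_ladder E n).2 := (sub_eq_zero.mp h0).symm
  obtain ⟨-, hdeg⟩ := T_ladder_fst_monic E n hn
  -- `Gₙ` has no root
  have hnoroot : ∀ x : F, ¬ (T_ladder E n).2.IsRoot x := by
    intro x hx
    obtain ⟨P, hP, rfl⟩ := A_exists_point E hΔ x
    rcases T_ladder_coprime_at E hΔ hP n with h1 | h2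
    · apply h1
      rw [hFG, eval_mul, hx.eq_zero, mul_zero]
    · exact h2 hx
  have hdeg0 : (T_ladder E n).2.degree = 0 := by
    by_contra hne
    obtain ⟨x, hx⟩ := IsAlgClosed.exists_root _ hne
    exact hnoroot x hx
  have hC := eq_C_of_degree_eq_zero hdeg0
  have hg : (T_ladder E n).2.coeff 0 ≠ 0 := by
    intro h
    rw [h, map_zero] at hC
    rw [hC] at hdeg0
    simp at hdeg0
  have hdeg' : (T_ladder E n).1.natDegree = ℓ := by
    rw [hFG, hC, natDegree_mul_C hg, natDegree_X_pow]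
  rw [hdeg] at hdeg'
  rw [← hdeg', pow_two] at hℓ
  rcases Nat.eq_or_lt_of_le hn with h1 | h1
  · rw [← h1] at hℓ
    exact Nat.not_prime_one hℓ
  · exact Nat.not_prime_mul (by omega) (by omega) hℓ

omit [IsAlgClosed F] [DecidableEq F] in
/-- The degree of `X ^ ℓ * Gₙ - Fₙ` is at most `ℓ + n²`. -/
lemma L_frobPoly_natDegree_le (ℓ : ℕ) (n : ℕ) (hn : 1 ≤ n) :
    (X ^ ℓ * (T_ladder E n).2 - (T_ladder E n).1).natDegree ≤ ℓ + n ^ 2 := by
  obtain ⟨d, hd, h1, h2⟩ := T_ladder_top E n hn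
  refine le_trans (natDegree_sub_le _ _) (max_le ?_ ?_)
  · refine le_trans natDegree_mul_le ?_
    have := h2.1
    have h3 : (X ^ ℓ : F[X]).natDegree ≤ ℓ := natDegree_X_pow_le ℓ
    omega
  · have := h1.1
    omega

/-- **The bound**: if a map `φ` of the points which raises `x`-coordinates to the power `ℓ`
acts on the `N`-torsion as an integer, then `N² ≤ 4 ℓ + 2`. -/
theorem L_bound (hΔ : E.Δ ≠ 0) (ℓ : ℕ) (hℓ : ℓ.Prime) (φ : E.Point → E.Point)
    (hφ0 : ∀ P : E.Point, P ≠ 0 → φ P ≠ 0)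
    (hφx : ∀ P : E.Point, P ≠ 0 → A_x (φ P) = A_x P ^ ℓ)
    (N : ℕ) (hN : (N : F) ≠ 0) (hN2 : 2 ≤ N) (c : ℤ)
    (hscal : ∀ Q : E.Point, (N : ℤ) • Q = 0 → φ Q = c • Q) : N ^ 2 ≤ 4 * ℓ + 2 := by
  have hNpos : 0 < N := by omega
  obtain ⟨r, hr⟩ : ∃ r : ℤ, r = c.bmod N := ⟨_, rfl⟩
  obtain ⟨n, hn⟩ : ∃ n : ℕ, n = r.natAbs := ⟨_, rfl⟩
  have h2n : 2 * n ≤ N := by
    have h1 := Int.bmod_le (x := c) hNpos
    have h2 := Int.le_bmod (x := c) hNpos
    omega
  have hdvd : (N : ℤ) ∣ c - r := by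
    rw [hr]
    exact Int.dvd_self_sub_bmod
  -- `φ Q = ± n • Q` on the `N`-torsion
  have hpm : ∀ Q : E.Point, (N : ℤ) • Q = 0 → φ Q = n • Q ∨ φ Q = -(n • Q) := by
    intro Q hQ
    have h1 : φ Q = r • Q := by
      obtain ⟨t, ht⟩ := hdvd
      have : c = r + t * N := by linarith
      rw [hscal Q hQ, this, add_smul, mul_smul, hQ, smul_zero, add_zero]
    rcases Int.natAbs_eq r with h | h
    · left
      rw [h1, h, ← hn, natCast_zsmul]
    · right
      rw [h1, h, ← hn, neg_smul, natCast_zsmul]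
  have hnQ : ∀ Q : E.Point, Q ≠ 0 → (N : ℤ) • Q = 0 → n • Q ≠ 0 := by
    intro Q hQ0 hQ h0
    apply hφ0 Q hQ0
    rcases hpm Q hQ with h | h
    · rw [h, h0]
    · rw [h, h0, neg_zero]
  have hxn : ∀ Q : E.Point, Q ≠ 0 → (N : ℤ) • Q = 0 → A_x (n • Q) = A_x Q ^ ℓ := by
    intro Q hQ0 hQ
    rw [← hφx Q hQ0]
    rcases hpm Q hQ with h | h
    · rw [h]
    · rw [h, A_x_neg]
  -- `n ≥ 1`
  have hn1 : 1 ≤ n := by
    have := nontrivial_torsionBy E hΔ N hN hN2
    obtain ⟨Q, hQ⟩ := exists_ne (0 : Submodule.torsionBy ℤ E.Point (N : ℤ))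
    have hQ0 : (Q : E.Point) ≠ 0 := fun h => hQ (Subtype.ext h)
    have hQN : (N : ℤ) • (Q : E.Point) = 0 := (Submodule.mem_torsionBy_iff _ _).mp Q.2
    have := hnQ Q hQ0 hQN
    rcases Nat.eq_zero_or_pos n with h | h
    · rw [h, zero_smul] at this
      exact absurd rfl this
    · exact h
  -- the roots
  have hH := L_frobPoly_ne_zero E hΔ ℓ hℓ n hn1
  have hcard := A_card_torsion_le E N
    (X ^ ℓ * (T_ladder E n).2 - (T_ladder E n).1).roots.toFinset (fun Q hQ0 hQ => by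
      rw [Multiset.mem_toFinset, mem_roots hH, IsRoot.def, eval_sub, eval_mul, eval_pow, eval_X]
      obtain ⟨-, h2⟩ := T_ladder_x_nsmul E hΔ hQ0 n (hnQ Q hQ0 hQ)
      rw [← h2, hxn Q hQ0 hQ, sub_self])
  have h1 : (X ^ ℓ * (T_ladder E n).2 - (T_ladder E n).1).roots.toFinset.card ≤ ℓ + n ^ 2 :=
    le_trans (Multiset.toFinset_card_le _) (le_trans (card_roots' _)
      (L_frobPoly_natDegree_le E ℓ n hn1))
  have h2 := card_torsionBy E hΔ N hN
  have h3 : (2 * n) ^ 2 ≤ N ^ 2 := Nat.pow_le_pow_left h2n 2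
  have h4 : (2 * n) ^ 2 = 4 * n ^ 2 := by ring
  have h5 := hcard.2
  rw [h2] at h5
  omega

end Bound

/-! ## Frobenius on points -/

section Frob

variable (ℓ : ℕ) [Fact ℓ.Prime] (k : Type) [Field k] [CharP k ℓ] [DecidableEq k]
  (W : WeierstrassCurve ℤ)

lemma L_frob_ne_zero (P : (W⁄k).Point) (hP : P ≠ 0) : frob ℓ W P ≠ 0 := by
  intro h
  apply hP
  apply Point.map_injective (W' := W) (frobenius k ℓ).toIntAlgHom
  rw [show Point.map (W' := W) (frobenius k ℓ).toIntAlgHom P = frob ℓ W P from rfl, h]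
  rfl

lemma L_A_x_frob (P : (W⁄k).Point) : A_x (frob ℓ W P) = A_x P ^ ℓ := by
  cases P with
  | zero =>
    show (0 : k) = 0 ^ ℓ
    rw [zero_pow (Fact.out : ℓ.Prime).ne_zero]
  | some x y h => rfl

end Frob

/-! ## The scalar case -/

section Scalar

variable (ℓ p : ℕ) [Fact ℓ.Prime] [Fact p.Prime] (k : Type) [Field k] [IsAlgClosed k]
  [CharP k ℓ] [DecidableEq k] (W : WeierstrassCurve ℤ)

omit [IsAlgClosed k] [DecidableEq k] in
lemma L_cast_ne_zero (hℓp : ℓ ≠ p) (m : ℕ) : ((p ^ m : ℕ) : k) ≠ 0 := by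
  have hp : p.Prime := Fact.out
  have hℓ : ℓ.Prime := Fact.out
  rw [Nat.cast_pow]
  apply pow_ne_zero
  intro h
  rw [CharP.cast_eq_zero_iff k ℓ p] at h
  exact hℓp ((Nat.prime_dvd_prime_iff_eq hℓ hp).mp h)

/-- If Frobenius satisfies `φ² - a φ + ℓ = 0` and acts on `E[p]` as the integer `c`, then
`a ≡ 2 c` and `c² - a c + ℓ ≡ 0` modulo `p`. -/
theorem L_scalar_case (hℓp : ℓ ≠ p) (hW : Good k W) (a : ℤ)
    (hrel : ∀ Q : (W⁄k).Point, frob ℓ W (frob ℓ W Q) + (-a) • frob ℓ W Q + (ℓ : ℤ) • Q = 0)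
    (c : ℤ) (hscal : ∀ Q : (W⁄k).Point, (p : ℤ) • Q = 0 → frob ℓ W Q = c • Q) :
    (p : ℤ) ∣ 2 * c - a ∧ (p : ℤ) ∣ c ^ 2 - a * c + ℓ := by
  have hp : p.Prime := Fact.out
  have hℓ : ℓ.Prime := Fact.out
  have hΔ : (W⁄k).Δ ≠ 0 := hW
  -- a nonzero point of order `p`
  obtain ⟨Q₀, hQ₀, hpQ₀⟩ : ∃ Q₀ : (W⁄k).Point, Q₀ ≠ 0 ∧ (p : ℤ) • Q₀ = 0 := by
    have hp1 := L_cast_ne_zero ℓ p k hℓp 1
    rw [pow_one] at hp1
    have := nontrivial_torsionBy (W⁄k) hΔ p hp1 hp.two_le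
    obtain ⟨Q, hQ⟩ := exists_ne (0 : Submodule.torsionBy ℤ (W⁄k).Point (p : ℤ))
    exact ⟨Q, fun h => hQ (Subtype.ext h), (Submodule.mem_torsionBy_iff _ _).mp Q.2⟩
  have hpow : ∀ m : ℕ, 1 ≤ m → ((p ^ m : ℕ) : ℤ) • Q₀ = 0 := by
    intro m hm
    obtain ⟨m', rfl⟩ : ∃ m', m = m' + 1 := ⟨m - 1, by omega⟩
    rw [pow_succ, Nat.cast_mul, mul_smul, hpQ₀, smul_zero]
  constructor
  · by_contra hnd
    -- induction: `φ` is an integer on `E[p^(2^j)]`
    have hind : ∀ j : ℕ, ∃ cj : ℤ, (p : ℤ) ∣ cj - c ∧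
        ∀ Q : (W⁄k).Point, ((p ^ (2 ^ j) : ℕ) : ℤ) • Q = 0 → frob ℓ W Q = cj • Q := by
      intro j
      induction j with
      | zero =>
        refine ⟨c, by simp, fun Q hQ => hscal Q ?_⟩
        simpa using hQ
      | succ j ih =>
        obtain ⟨cj, hcj, hj⟩ := ih
        have hnd' : ¬ (p : ℤ) ∣ 2 * cj - a := by
          intro h
          apply hnd
          have : 2 * c - a = (2 * cj - a) - 2 * (cj - c) := by ring
          rw [this]
          exact dvd_sub h (Dvd.dvd.mul_left hcj 2)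
        have hcop : IsCoprime (2 * cj - a) ((p ^ (2 ^ j) : ℕ) : ℤ) := by
          rw [Nat.cast_pow]
          apply IsCoprime.pow_right
          exact ((Nat.prime_iff_prime_int.mp hp).coprime_iff_not_dvd.mpr hnd').symm
        obtain ⟨c', hc'⟩ := L_double (G := (W⁄k).Point) (frob ℓ W) a (ℓ : ℤ) cj ((p ^ (2 ^ j) : ℕ) : ℤ) hrel hj hcop
        have hc'' : ∀ Q : (W⁄k).Point, ((p ^ (2 ^ (j + 1)) : ℕ) : ℤ) • Q = 0 →
            frob ℓ W Q = c' • Q := by
          intro Q hQ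
          apply hc'
          rw [← Nat.cast_mul, ← pow_add, ← two_mul, ← pow_succ']
          exact hQ
        refine ⟨c', ?_, hc''⟩
        apply L_dvd_of_smul_eq_zero p hp Q₀ hQ₀ hpQ₀
        rw [sub_smul, ← hc'' Q₀ (hpow _ Nat.one_le_two_pow), ← hscal Q₀ hpQ₀, sub_self]
    obtain ⟨cj, -, hj⟩ := hind (4 * ℓ + 2)
    have h1 : 4 * ℓ + 2 < 2 ^ (4 * ℓ + 2) := Nat.lt_two_pow_self
    have h2 : 2 ^ (4 * ℓ + 2) < 2 ^ (2 ^ (4 * ℓ + 2)) := Nat.lt_two_pow_self
    have h3 : 2 ^ (2 ^ (4 * ℓ + 2)) ≤ p ^ (2 ^ (4 * ℓ + 2)) := Nat.pow_le_pow_left hp.two_le _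
    have hb := L_bound (W⁄k) hΔ ℓ hℓ (frob ℓ W) (L_frob_ne_zero ℓ k W) (fun P _ => L_A_x_frob ℓ k W P)
      (p ^ (2 ^ (4 * ℓ + 2))) (L_cast_ne_zero ℓ p k hℓp _) (by omega) cj hj
    have h4 : p ^ (2 ^ (4 * ℓ + 2)) ≤ (p ^ (2 ^ (4 * ℓ + 2))) ^ 2 :=
      Nat.le_self_pow (by norm_num) _
    omega
  · apply L_dvd_of_smul_eq_zero p hp Q₀ hQ₀ hpQ₀
    have h := hrel Q₀
    rw [hscal Q₀ hpQ₀, map_zsmul, hscal Q₀ hpQ₀] at h
    rw [← h]
    module

end Scalar

/-! ## The theorem -/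

/-- **(L)** Trace and determinant of Frobenius on `E[p]` over an algebraically closed field of
characteristic `ℓ ≠ p`, from the characteristic equation `φ² - a_ℓ φ + ℓ = 0`. -/
theorem charpolyFF (hCore : IfaceCore) : IfaceCharpolyFF := by
  intro ℓ p _ _ hℓp k _ _ _ _ W hW T hT
  have hp : p.Prime := Fact.out
  have hΔ : (W⁄k).Δ ≠ 0 := hW
  obtain ⟨a, ha⟩ : ∃ a : ℤ, a = W.apOfModel ℓ := ⟨_, rfl⟩
  have hrel : ∀ Q : (W⁄k).Point,
      frob ℓ W (frob ℓ W Q) + (-a) • frob ℓ W Q + (ℓ : ℤ) • Q = 0 := by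
    intro Q
    have h := hCore ℓ k W hW Q
    rw [lam_apply, one_smul] at h
    rw [ha]
    exact h
  have hp1 : ((p : ℕ) : k) ≠ 0 := by
    have h := L_cast_ne_zero ℓ p k hℓp 1
    rwa [pow_one] at h
  have hfin : Finite (Submodule.torsionBy ℤ (W⁄k).Point (p : ℤ)) :=
    finite_torsionBy (W⁄k) hΔ p hp1
  have hV : Module.finrank (ZMod p) (Submodule.torsionBy ℤ (W⁄k).Point (p : ℤ)) = 2 := by
    have h := Module.natCard_eq_pow_finrank (K := ZMod p)
      (V := Submodule.torsionBy ℤ (W⁄k).Point (p : ℤ))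
    rw [card_torsionBy (W⁄k) hΔ p hp1, Nat.card_zmod] at h
    exact (Nat.pow_right_injective hp.two_le h).symm
  rw [← ha]
  by_cases hsc : ∃ c : ZMod p, ∀ v : Submodule.torsionBy ℤ (W⁄k).Point (p : ℤ), T v = c • v
  · obtain ⟨cbar, hc⟩ := hsc
    obtain ⟨c, rfl⟩ := ZMod.intCast_surjective cbar
    have hscal : ∀ Q : (W⁄k).Point, (p : ℤ) • Q = 0 → frob ℓ W Q = c • Q := by
      intro Q hQ
      have h1 := hc ⟨Q, (Submodule.mem_torsionBy_iff _ _).mpr hQ⟩
      have h2 := congrArg Subtype.val h1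
      rw [hT, Int.cast_smul_eq_zsmul] at h2
      exact h2
    obtain ⟨h1, h2⟩ := L_scalar_case ℓ p k W hℓp hW a hrel c hscal
    obtain ⟨e1, e2⟩ := L_scalar_trace_det hV T (c : ZMod p) hc
    have h1' : ((2 * c - a : ℤ) : ZMod p) = 0 := (ZMod.intCast_zmod_eq_zero_iff_dvd _ p).mpr h1
    have h2' : ((c ^ 2 - a * c + ℓ : ℤ) : ZMod p) = 0 :=
      (ZMod.intCast_zmod_eq_zero_iff_dvd _ p).mpr h2
    push_cast at h1' h2'
    rw [e1, e2]
    constructor
    · linear_combination h1'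
    · linear_combination (c : ZMod p) * h1' - h2'
  · have hsc' : ∀ c : ZMod p, ∃ v : Submodule.torsionBy ℤ (W⁄k).Point (p : ℤ), T v ≠ c • v := by
      intro c
      by_contra h
      exact hsc ⟨c, fun v => by_contra fun hv => h ⟨v, hv⟩⟩
    refine L_end_trace_det hV T (a : ZMod p) (ℓ : ZMod p) (fun v => ?_) hsc'
    apply Subtype.ext
    have h := hrel (v : (W⁄k).Point)
    rw [← Int.cast_natCast (R := ZMod p) ℓ, Int.cast_smul_eq_zsmul, Int.cast_smul_eq_zsmul]
    rw [Submodule.coe_add, Submodule.coe_sub, Submodule.coe_smul, Submodule.coe_smul, hT, hT,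
      Submodule.coe_zero]
    rw [← h]
    module

end Fermat.Agent.EFrob
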