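import Mathlib

/-!
# P-EFROB, task T (step 7, abstract part): transport of trace and determinant

`TC_trace_det`: an injective additive map `r : M → M'` between finite `ZMod p`-modules of the same
cardinality which intertwines `S ∈ End M` and `T ∈ End M'` forces `tr S = tr T`, `det S = det T`.
-/

set_option autoImplicit false

namespace Fermat.Agent.EFrob

noncomputable section

variable {p : ℕ} {M M' : Type*} [AddCommGroup M] [AddCommGroup M'] [Module (ZMod p) M]
  [Module (ZMod p) M']

/-- an injective additive map between finite sets of the same cardinality is bijective. -/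
theorem TC_bijective [Finite M] (r : M →+ M') (hr : Function.Injective r)
    (hcard : Nat.card M = Nat.card M') : Function.Bijective r := by
  have hM' : Finite M' := by
    apply Nat.finite_of_card_ne_zero
    rw [← hcard]
    exact Nat.card_pos.ne'
  exact hr.bijective_of_nat_card_le hcard.symm.le

/-- the linear equivalence induced by a bijective additive map of `ZMod p`-modules. -/
def TC_equiv [Finite M] (r : M →+ M') (hr : Function.Injective r)
    (hcard : Nat.card M = Nat.card M') : M ≃ₗ[ZMod p] M' :=
  LinearEquiv.ofBijective (r.toZModLinearMap p) (TC_bijective r hr hcard)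

theorem TC_equiv_apply [Finite M] (r : M →+ M') (hr : Function.Injective r)
    (hcard : Nat.card M = Nat.card M') (x : M) : TC_equiv (p := p) r hr hcard x = r x := rfl

/-- **transport of trace and determinant.** -/
theorem TC_trace_det [Finite M] (r : M →+ M') (hr : Function.Injective r)
    (hcard : Nat.card M = Nat.card M') (S : Module.End (ZMod p) M)
    (T : Module.End (ZMod p) M') (h : ∀ x, r (S x) = T (r x)) :
    LinearMap.trace (ZMod p) M S = LinearMap.trace (ZMod p) M' T ∧
      LinearMap.det S = LinearMap.det T := by
  set e : M ≃ₗ[ZMod p] M' := TC_equiv r hr hcard with he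
  have hT : T = (e : M →ₗ[ZMod p] M') ∘ₗ S ∘ₗ (e.symm : M' →ₗ[ZMod p] M) := by
    apply LinearMap.ext
    intro y
    obtain ⟨x, rfl⟩ := e.surjective y
    simp only [LinearMap.coe_comp, LinearEquiv.coe_coe, Function.comp_apply,
      LinearEquiv.symm_apply_apply]
    rw [he, TC_equiv_apply, TC_equiv_apply, h]
  constructor
  · rw [hT]
    exact (LinearMap.trace_conj' S e).symm
  · rw [hT]
    exact (LinearMap.det_conj S e).symm

end

end Fermat.Agent.EFrob
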