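import Fermat.Agent.EFrob.Main
import Fermat.Agent.EFrob.TConj
import Fermat.Agent.Tors.Qbar
import Fermat.Agent.S54.Frobenius

/-!
# P-EFROB: Galois-isomorphic `p`-torsion forces congruent point counts

If `W`, `W'` are integral Weierstrass curves (with nonzero discriminants) and there is an injective
additive map `W[p](Qbar) → W'[p](Qbar)` commuting with the Galois action (it is then an
isomorphism), then `a_ℓ(W') ≡ a_ℓ(W) mod p` at every prime `ℓ ≠ p` of good reduction for both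
models: `apOfModel_congr_of_equivariant`.  This is the (T) TRACE step of the `3`–`5` switch.

`apOfModel_congr_of_frob` is the version which only asks for the compatibility with one Frobenius
element at `ℓ`.
-/

set_option autoImplicit false

namespace Fermat.Agent.EFrob

open WeierstrassCurve WeierstrassCurve.Affine WeierstrassCurve.Affine.Point

local notation "Qbar" => AlgebraicClosure ℚ
local notation "Γℚ" => (AlgebraicClosure ℚ ≃ₐ[ℚ] AlgebraicClosure ℚ)

/-- the rational curve attached to an integral model has nonzero discriminant. -/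
lemma CG_Δ_ne_zero (W : WeierstrassCurve ℤ) (hΔ : W.Δ ≠ 0) :
    (W.map (Int.castRingHom ℚ)).Δ ≠ 0 := by
  rw [WeierstrassCurve.map_Δ]
  simpa using hΔ

/-- a model with a good prime has nonzero discriminant. -/
lemma CG_Δ_ne_zero_of_good (W : WeierstrassCurve ℤ) {ℓ : ℕ} (hg : W.IsGoodPrimeFor ℓ) :
    W.Δ ≠ 0 := by
  intro h
  apply hg
  rw [h]
  exact dvd_zero _

/-- **Congruence of point counts from one Frobenius element.**  If an injective additive map
`r : W[p] → W'[p]` commutes with a Frobenius element `σ` at a prime `ℓ ≠ p` which is good for both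
models, then `a_ℓ(W') ≡ a_ℓ(W) mod p`. -/
theorem apOfModel_congr_of_frob (W W' : WeierstrassCurve ℤ) {p ℓ : ℕ} (hp : p.Prime)
    (hℓ : ℓ.Prime) (hne : ℓ ≠ p) (hg : W.IsGoodPrimeFor ℓ) (hg' : W'.IsGoodPrimeFor ℓ)
    (A : ValuationSubring Qbar) (hA : A.LiesOverPrime ℓ) (σ : Γℚ) (hσ : A.IsFrobeniusAt σ ℓ)
    (r : Submodule.torsionBy ℤ ((W.map (Int.castRingHom ℚ)).toAffine⁄Qbar).Point p →+
      Submodule.torsionBy ℤ ((W'.map (Int.castRingHom ℚ)).toAffine⁄Qbar).Point p)
    (hr : Function.Injective r) (hequiv : ∀ Q, r (σ • Q) = σ • r Q) :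
    (p : ℤ) ∣ (W'.apOfModel ℓ - W.apOfModel ℓ) := by
  have hΔ := CG_Δ_ne_zero W (CG_Δ_ne_zero_of_good W hg)
  have hΔ' := CG_Δ_ne_zero W' (CG_Δ_ne_zero_of_good W' hg')
  have := Tors.finite_torsionBy_qbar (W.map (Int.castRingHom ℚ)) hΔ p hp.ne_zero
  have hcard : Nat.card (Submodule.torsionBy ℤ
      ((W.map (Int.castRingHom ℚ)).toAffine⁄Qbar).Point p) =
      Nat.card (Submodule.torsionBy ℤ
      ((W'.map (Int.castRingHom ℚ)).toAffine⁄Qbar).Point p) := by
    rw [Tors.card_torsionBy_qbar (W.map (Int.castRingHom ℚ)) hΔ p hp.ne_zero,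
      Tors.card_torsionBy_qbar (W'.map (Int.castRingHom ℚ)) hΔ' p hp.ne_zero]
  have h := (TC_trace_det (p := p) r hr hcard
    (galoisRepModuleEnd (K := Qbar) ℚ (W.map (Int.castRingHom ℚ)).toAffine p σ)
    (galoisRepModuleEnd (K := Qbar) ℚ (W'.map (Int.castRingHom ℚ)).toAffine p σ)
    (fun Q => hequiv Q)).1
  have h1 := galoisTrace_frobenius W hℓ hp hne hg A hA σ hσ
  have h2 := galoisTrace_frobenius W' hℓ hp hne hg' A hA σ hσ
  rw [galoisTrace_def] at h1 h2
  rw [h1, h2] at h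
  rw [← ZMod.intCast_zmod_eq_zero_iff_dvd, Int.cast_sub, h, sub_self]

/-- **Galois-isomorphic `p`-torsion forces congruent point counts.**  If there is an injective
Galois-equivariant additive map `W[p](Qbar) → W'[p](Qbar)` then `a_ℓ(W') ≡ a_ℓ(W) mod p` for every
prime `ℓ ≠ p` which is good for both models. -/
theorem apOfModel_congr_of_equivariant (W W' : WeierstrassCurve ℤ) {p : ℕ} (hp : p.Prime)
    (r : Submodule.torsionBy ℤ ((W.map (Int.castRingHom ℚ)).toAffine⁄Qbar).Point p →+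
      Submodule.torsionBy ℤ ((W'.map (Int.castRingHom ℚ)).toAffine⁄Qbar).Point p)
    (hr : Function.Injective r) (hequiv : ∀ (σ : Γℚ) Q, r (σ • Q) = σ • r Q) :
    ∀ ℓ : ℕ, ℓ.Prime → W.IsGoodPrimeFor ℓ → W'.IsGoodPrimeFor ℓ → ℓ ≠ p →
      (p : ℤ) ∣ (W'.apOfModel ℓ - W.apOfModel ℓ) := by
  intro ℓ hℓ hg hg' hne
  obtain ⟨A, σ, hA, hσ⟩ := Fermat.Agent.S54.exists_isFrobeniusAt ℓ hℓ
  exact apOfModel_congr_of_frob W W' hp hℓ hne hg hg' A hA σ hσ r hr (hequiv σ)

end Fermat.Agent.EFrob
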