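import Fermat.Agent.EFrob.Main
import Fermat.Agent.Cheb.CompareFinal
import Fermat.Agent.S13.AsmGroups
import Fermat.Agent.Tors.Qbar
import Fermat.Agent.S29.CycChar
import Fermat.Prelude.Def_FreyPackage_DetCyclotomic

/-!
# P-EFROB: the determinant of the mod `p` representation of an elliptic curve is cyclotomic

For an integral Weierstrass curve `W` with `Δ ≠ 0`, a prime `p` and every `τ ∈ Gal(Qbar/ℚ)`:
`det (τ | W[p](Qbar)) = χ_p(τ)`, the mod `p` cyclotomic character.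

* `galoisDet_eq_of_zeta`: if `τ ζ = ζ ^ k` for a primitive `p`-th root of unity `ζ` then
  `det (τ | W[p]) = k`;
* `galoisDet_eq_cycloChar`: `det (τ | W[p]) = ExtCitation.cycloChar p τ`;
* `galoisRepDetEqCyclotomic`: the Prelude's `GaloisRepDetEqCyclotomic`.

Proof: weak Chebotarev (every `τ` is, on the finite extension `ℚ(W[p], ζ)`, a power of a
Frobenius element `σ` at a good prime `ℓ ≠ p`), `det (σ | W[p]) = ℓ` (P-EFROB) and
`σ ζ = ζ ^ ℓ`.
-/

set_option autoImplicit false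

namespace Fermat.Agent.EFrob

open WeierstrassCurve WeierstrassCurve.Affine WeierstrassCurve.Affine.Point

local notation "Qbar" => AlgebraicClosure ℚ
local notation "Γℚ" => (AlgebraicClosure ℚ ≃ₐ[ℚ] AlgebraicClosure ℚ)

/-- A Frobenius element at `ℓ ≠ p` raises the `p`-th roots of unity to the power `ℓ`. -/
theorem DC_frob_zeta {p ℓ : ℕ} (hp : p.Prime) (hℓ : ℓ.Prime) (hne : ℓ ≠ p)
    (A : ValuationSubring Qbar) (hA : A.LiesOverPrime ℓ) (σ : Γℚ) (hσ : A.IsFrobeniusAt σ ℓ)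
    {ζ : Qbar} (hζ : ζ ^ p = 1) : σ ζ = ζ ^ ℓ := by
  have hζint : IsIntegral ℤ ζ := by
    refine ⟨Polynomial.X ^ p - 1, Polynomial.monic_X_pow_sub_C (1 : ℤ) hp.ne_zero, ?_⟩
    simp [hζ]
  have hζA : ζ ∈ A := Fermat.Agent.S54.mem_valuationSubring_of_isIntegral A hζint
  have h1 : σ ζ - ζ ^ ℓ ∈ A.nonunits := S29.CycChar.frobenius_sub_mem A hσ hζA
  have hσp : (σ ζ) ^ p = 1 := by rw [← map_pow, hζ, map_one]
  have hℓp : (ζ ^ ℓ) ^ p = 1 := by rw [← pow_mul, mul_comm, pow_mul, hζ, one_pow]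
  exact S29.CycChar.eq_of_sub_mem_nonunits A hp hℓ hne hA hσp hℓp h1

/-- Powers of a Frobenius element at `ℓ ≠ p` on the `p`-th roots of unity. -/
theorem DC_frob_pow_zeta {p ℓ : ℕ} (hp : p.Prime) (hℓ : ℓ.Prime) (hne : ℓ ≠ p)
    (A : ValuationSubring Qbar) (hA : A.LiesOverPrime ℓ) (σ : Γℚ) (hσ : A.IsFrobeniusAt σ ℓ)
    {ζ : Qbar} (hζ : ζ ^ p = 1) (n : ℕ) : (σ ^ n) ζ = ζ ^ (ℓ ^ n) := by
  induction n with
  | zero => simp
  | succ n ih =>
    rw [pow_succ', AlgEquiv.mul_apply, ih, map_pow, DC_frob_zeta hp hℓ hne A hA σ hσ hζ,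
      ← pow_mul, ← pow_succ']

/-- **The determinant is cyclotomic** (root of unity form): if `τ ζ = ζ ^ k` for a primitive
`p`-th root of unity `ζ`, then the determinant of `τ` on `W[p](Qbar)` is `k`. -/
theorem galoisDet_eq_of_zeta (W : WeierstrassCurve ℤ) (hΔ : W.Δ ≠ 0) {p : ℕ} (hp : p.Prime)
    {ζ : Qbar} (hζ : IsPrimitiveRoot ζ p) (τ : Γℚ) (k : ℕ) (hk : τ ζ = ζ ^ k) :
    LinearMap.det (galoisRepModuleEnd (K := Qbar) ℚ (W.map (Int.castRingHom ℚ)).toAffine p τ) =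
      (k : ZMod p) := by
  classical
  have hΔ' : (W.map (Int.castRingHom ℚ)).Δ ≠ 0 := by
    rw [WeierstrassCurve.map_Δ]
    simpa using hΔ
  have : Finite (S13.Tors (W.map (Int.castRingHom ℚ)) p) :=
    Tors.finite_torsionBy_qbar (W.map (Int.castRingHom ℚ)) hΔ' p hp.ne_zero
  obtain ⟨S₁, hS₁⟩ := S13.Asm.exists_finset_fix (W := W.map (Int.castRingHom ℚ)) (p := p)
  have : Algebra.IsAlgebraic ℚ Qbar := AlgebraicClosure.isAlgebraic ℚ
  have : IsAlgClosure ℚ Qbar := ⟨inferInstance, inferInstance⟩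
  have : Normal ℚ Qbar := IsAlgClosure.normal ℚ Qbar
  let L₂ : IntermediateField ℚ Qbar :=
    IntermediateField.adjoin ℚ ((insert ζ S₁ : Finset Qbar) : Set Qbar)
  have hL₂fin : FiniteDimensional ℚ L₂ :=
    IntermediateField.finiteDimensional_adjoin (fun x _ => (Algebra.IsIntegral.isIntegral x))
  let F : IntermediateField ℚ Qbar := IntermediateField.normalClosure ℚ L₂ Qbar
  have hFfin : FiniteDimensional ℚ F := normalClosure.is_finiteDimensional ℚ L₂ Qbar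
  have hFnormal : Normal ℚ F := normalClosure.normal ℚ L₂ Qbar
  have hFgal : IsGalois ℚ F := ⟨⟩
  have hLF : L₂ ≤ F := IntermediateField.le_normalClosure L₂
  obtain ⟨ℓ, A, σ, n, hℓ, hℓS, hA, hσ, hfixL⟩ :=
    Cheb.exists_frobenius_pow_mod F τ ({p} ∪ W.Δ.natAbs.primeFactors)
  simp only [Finset.mem_union, Finset.mem_singleton, Nat.mem_primeFactors, not_or, not_and,
    ne_eq, Int.natAbs_eq_zero] at hℓS
  obtain ⟨hℓp, hℓΔ⟩ := hℓS
  have hgood : W.IsGoodPrimeFor ℓ := by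
    intro hdvd
    exact hℓΔ hℓ (Int.natCast_dvd.1 hdvd) hΔ
  -- `τ` and `σ ^ n` agree on `W[p]`
  have hfix : ∀ s ∈ (insert ζ S₁ : Finset Qbar), (τ⁻¹ * σ ^ n) s = s := fun s hs =>
    hfixL s (hLF (IntermediateField.subset_adjoin ℚ _ (Finset.mem_coe.2 hs)))
  have hτσ : galoisRepModuleEnd (K := Qbar) ℚ (W.map (Int.castRingHom ℚ)).toAffine p τ =
      (galoisRepModuleEnd (K := Qbar) ℚ (W.map (Int.castRingHom ℚ)).toAffine p σ) ^ n := by
    rw [← map_pow]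
    apply LinearMap.ext
    intro Q
    have h1 : (τ⁻¹ * σ ^ n) • Q = Q :=
      hS₁ _ (fun s hs => hfix s (Finset.mem_insert_of_mem hs)) Q
    rw [galoisRepModuleEnd_apply, galoisRepModuleEnd_apply]
    rw [mul_smul, inv_smul_eq_iff] at h1
    exact h1.symm
  -- `τ` and `σ ^ n` agree on `ζ`
  have hζ1 : (τ⁻¹ * σ ^ n) ζ = ζ := hfix ζ (Finset.mem_insert_self _ _)
  have hζ2 : (σ ^ n) ζ = τ ζ := by
    rw [AlgEquiv.mul_apply] at hζ1
    have := congrArg τ hζ1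
    rwa [← AlgEquiv.mul_apply, mul_inv_cancel, AlgEquiv.one_apply] at this
  rw [DC_frob_pow_zeta hp hℓ hℓp A hA σ hσ hζ.pow_eq_one, hk] at hζ2
  have hmod : ℓ ^ n ≡ k [MOD p] := S29.CycChar.modEq_of_pow_eq hζ hp.pos hζ2
  rw [hτσ, map_pow, galoisDet_frobenius W hℓ hp hℓp hgood A hA σ hσ, ← Nat.cast_pow]
  exact (ZMod.natCast_eq_natCast_iff _ _ _).2 hmod

/-- **The determinant is cyclotomic**: the determinant of `τ` on `W[p](Qbar)` is the value of the
mod `p` cyclotomic character at `τ`. -/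
theorem galoisDet_eq_cycloChar (W : WeierstrassCurve ℤ) (hΔ : W.Δ ≠ 0) (p : ℕ) [Fact p.Prime]
    (τ : Γℚ) :
    LinearMap.det (galoisRepModuleEnd (K := Qbar) ℚ (W.map (Int.castRingHom ℚ)).toAffine p τ) =
      ((ExtCitation.cycloChar p τ : (ZMod p)ˣ) : ZMod p) := by
  have hp : p.Prime := Fact.out
  have : NeZero p := ⟨hp.ne_zero⟩
  have : NeZero (p : Qbar) := ⟨Nat.cast_ne_zero.mpr hp.ne_zero⟩
  obtain ⟨ζ, hζ⟩ := HasEnoughRootsOfUnity.exists_primitiveRoot Qbar p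
  have hζ0 : ζ ≠ 0 := hζ.ne_zero hp.ne_zero
  have hmem : Units.mk0 ζ hζ0 ∈ rootsOfUnity p Qbar := by
    rw [mem_rootsOfUnity]
    ext
    simpa using hζ.pow_eq_one
  have hspec : τ ζ = ζ ^ ((ExtCitation.cycloChar p τ : (ZMod p)ˣ) : ZMod p).val :=
    modularCyclotomicCharacter.spec Qbar (ExtCitation.card_rootsOfUnity_eq_self p)
      (τ : Qbar ≃+* Qbar) hmem
  rw [galoisDet_eq_of_zeta W hΔ hp hζ τ _ hspec, ZMod.natCast_val, ZMod.cast_id]

/-- **The determinant is cyclotomic** (the Prelude's `GaloisRepDetEqCyclotomic`). -/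
theorem galoisRepDetEqCyclotomic (W : WeierstrassCurve ℤ) (hΔ : W.Δ ≠ 0) (p : ℕ)
    [Fact p.Prime] [NeZero p] (hn : Nat.card (rootsOfUnity p Qbar) = p) :
    GaloisRepDetEqCyclotomic (K := Qbar) ℚ (W.map (Int.castRingHom ℚ)).toAffine p hn := by
  intro σ
  apply Units.ext
  rw [galoisRepDet_apply, LinearEquiv.coe_det]
  exact galoisDet_eq_cycloChar W hΔ p σ

end Fermat.Agent.EFrob
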