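import Fermat.Agent.EFrob.Congr
import Fermat.Agent.EFrob.DetCyc
import Fermat.Agent.S05.VarChange

/-!
# P-EFROB: congruence of point counts and cyclotomic determinant, up to variable changes

Variants of `apOfModel_congr_of_equivariant` and `galoisDet_eq_of_zeta` for curves over `ℚ` which
are related to integral models by changes of variables (`WeierstrassCurve.IsIntegralModelOf`).

* `CG_transport`: a variable change `C • E₁ = E₂` over `ℚ` induces an injective
  Galois-equivariant additive map `E₂[p](Qbar) → E₁[p](Qbar)`;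
* `apOfModel_congr_of_models`: if `W`, `W'` are integral models of `E`, `E'` and there is an
  injective Galois-equivariant additive map `E[p] → E'[p]`, then `a_ℓ(W') ≡ a_ℓ(W) mod p`;
* `galoisDet_eq_of_zeta_of_model`, `galoisTrace_frobenius_of_model`,
  `galoisDet_frobenius_of_model`: the determinant / Frobenius trace statements on `E[p]` for a
  curve `E` over `ℚ` with an integral model `W`.
-/

set_option autoImplicit false

namespace Fermat.Agent.EFrob

open WeierstrassCurve WeierstrassCurve.Affine WeierstrassCurve.Affine.Point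

local notation "Qbar" => AlgebraicClosure ℚ
local notation "Γℚ" => (AlgebraicClosure ℚ ≃ₐ[ℚ] AlgebraicClosure ℚ)

/-- the map induced by a variable change on `p`-torsion. -/
noncomputable def CG_vcTors (E : WeierstrassCurve ℚ) (C : VariableChange ℚ) (p : ℕ) :
    Submodule.torsionBy ℤ ((C • E)⁄Qbar).Point p →+ Submodule.torsionBy ℤ (E⁄Qbar).Point p where
  toFun Q := ⟨S05.vcPointBC E C (Q : ((C • E)⁄Qbar).Point), by
    rw [Submodule.mem_torsionBy_iff, ← map_zsmul, (Submodule.mem_torsionBy_iff _ _).1 Q.2,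
      _root_.map_zero]⟩
  map_zero' := by
    apply Subtype.ext
    exact _root_.map_zero (S05.vcPointBC (K := Qbar) E C)
  map_add' Q₁ Q₂ := by
    apply Subtype.ext
    exact _root_.map_add (S05.vcPointBC (K := Qbar) E C) _ _

lemma CG_vcTors_injective (E : WeierstrassCurve ℚ) (C : VariableChange ℚ) (p : ℕ) :
    Function.Injective (CG_vcTors E C p) := by
  intro Q₁ Q₂ h
  apply Subtype.ext
  apply S05.vcPointBC_injective E C
  exact congrArg Subtype.val h

lemma CG_vcTors_smul (E : WeierstrassCurve ℚ) (C : VariableChange ℚ) (p : ℕ) (σ : Γℚ)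
    (Q : Submodule.torsionBy ℤ ((C • E)⁄Qbar).Point p) :
    CG_vcTors E C p (σ • Q) = σ • CG_vcTors E C p Q := by
  apply Subtype.ext
  change S05.vcPointBC E C (σ • (Q : ((C • E)⁄Qbar).Point)) =
    σ • S05.vcPointBC E C (Q : ((C • E)⁄Qbar).Point)
  rw [algEquiv_smul_def, algEquiv_smul_def, ← S05.vcPointBC_map]

/-- **Transport along a variable change.**  A variable change `C • E₁ = E₂` over `ℚ` induces an
injective Galois-equivariant additive map `E₂[p](Qbar) → E₁[p](Qbar)`. -/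
theorem CG_transport (E₁ E₂ : WeierstrassCurve ℚ) (C : VariableChange ℚ) (h : C • E₁ = E₂)
    (p : ℕ) :
    ∃ r : Submodule.torsionBy ℤ (E₂⁄Qbar).Point p →+ Submodule.torsionBy ℤ (E₁⁄Qbar).Point p,
      Function.Injective r ∧ ∀ (σ : Γℚ) Q, r (σ • Q) = σ • r Q := by
  subst h
  exact ⟨CG_vcTors E₁ C p, CG_vcTors_injective E₁ C p, CG_vcTors_smul E₁ C p⟩

/-- Transport along a variable change, in the other direction. -/
theorem CG_transport' (E₁ E₂ : WeierstrassCurve ℚ) (C : VariableChange ℚ) (h : C • E₁ = E₂)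
    (p : ℕ) :
    ∃ r : Submodule.torsionBy ℤ (E₁⁄Qbar).Point p →+ Submodule.torsionBy ℤ (E₂⁄Qbar).Point p,
      Function.Injective r ∧ ∀ (σ : Γℚ) Q, r (σ • Q) = σ • r Q :=
  CG_transport E₂ E₁ C⁻¹ (by rw [← h, inv_smul_smul]) p

/-- **Galois-isomorphic `p`-torsion forces congruent point counts** (for integral models of
curves over `ℚ`). -/
theorem apOfModel_congr_of_models (E E' : WeierstrassCurve ℚ) {W W' : WeierstrassCurve ℤ}
    (hW : W.IsIntegralModelOf E) (hW' : W'.IsIntegralModelOf E') {p : ℕ} (hp : p.Prime)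
    (r : Submodule.torsionBy ℤ (E⁄Qbar).Point p →+ Submodule.torsionBy ℤ (E'⁄Qbar).Point p)
    (hr : Function.Injective r) (hequiv : ∀ (σ : Γℚ) Q, r (σ • Q) = σ • r Q) :
    ∀ ℓ : ℕ, ℓ.Prime → W.IsGoodPrimeFor ℓ → W'.IsGoodPrimeFor ℓ → ℓ ≠ p →
      (p : ℤ) ∣ (W'.apOfModel ℓ - W.apOfModel ℓ) := by
  obtain ⟨C, hC⟩ := hW
  obtain ⟨C', hC'⟩ := hW'
  obtain ⟨r₁, hr₁, he₁⟩ := CG_transport E (W.map (Int.castRingHom ℚ)) C hC p
  obtain ⟨r₂, hr₂, he₂⟩ := CG_transport' E' (W'.map (Int.castRingHom ℚ)) C' hC' p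
  refine apOfModel_congr_of_equivariant W W' hp ((r₂.comp r).comp r₁)
    (hr₂.comp (hr.comp hr₁)) ?_
  intro σ Q
  simp only [AddMonoidHom.coe_comp, Function.comp_apply]
  rw [he₁, hequiv, he₂]

/-- The determinant of `τ` on `E[p](Qbar)` is cyclotomic, for a curve `E` over `ℚ` with an
integral model. -/
theorem galoisDet_eq_of_zeta_of_model (E : WeierstrassCurve ℚ) {W : WeierstrassCurve ℤ}
    (hW : W.IsIntegralModelOf E) (hΔ : W.Δ ≠ 0) {p : ℕ} (hp : p.Prime)
    {ζ : Qbar} (hζ : IsPrimitiveRoot ζ p) (τ : Γℚ) (k : ℕ) (hk : τ ζ = ζ ^ k) :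
    LinearMap.det (galoisRepModuleEnd (K := Qbar) ℚ E.toAffine p τ) = (k : ZMod p) := by
  obtain ⟨C, hC⟩ := hW
  obtain ⟨r, hr, he⟩ := CG_transport E (W.map (Int.castRingHom ℚ)) C hC p
  have hΔ' := CG_Δ_ne_zero W hΔ
  have hΔE : E.Δ ≠ 0 := by
    intro h0
    apply hΔ'
    rw [← hC, WeierstrassCurve.variableChange_Δ, h0, mul_zero]
  have := Tors.finite_torsionBy_qbar (W.map (Int.castRingHom ℚ)) hΔ' p hp.ne_zero
  have hcard : Nat.card (Submodule.torsionBy ℤ ((W.map (Int.castRingHom ℚ))⁄Qbar).Point p) =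
      Nat.card (Submodule.torsionBy ℤ (E⁄Qbar).Point p) := by
    rw [Tors.card_torsionBy_qbar (W.map (Int.castRingHom ℚ)) hΔ' p hp.ne_zero,
      Tors.card_torsionBy_qbar E hΔE p hp.ne_zero]
  have h := (TC_trace_det (p := p) r hr hcard
    (galoisRepModuleEnd (K := Qbar) ℚ (W.map (Int.castRingHom ℚ)).toAffine p τ)
    (galoisRepModuleEnd (K := Qbar) ℚ E.toAffine p τ) (fun Q => he τ Q)).2
  rw [← h]
  exact galoisDet_eq_of_zeta W hΔ hp hζ τ k hk

/-- Trace and determinant of a Frobenius element on `E[p](Qbar)`, for a curve `E` over `ℚ` with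
an integral model `W` having good reduction at `ℓ ≠ p`. -/
theorem galoisTrace_det_frobenius_of_model (E : WeierstrassCurve ℚ) {W : WeierstrassCurve ℤ}
    (hW : W.IsIntegralModelOf E) {ℓ p : ℕ} (hℓ : ℓ.Prime) (hp : p.Prime) (hne : ℓ ≠ p)
    (hgood : W.IsGoodPrimeFor ℓ) (A : ValuationSubring Qbar) (hA : A.LiesOverPrime ℓ) (σ : Γℚ)
    (hσ : A.IsFrobeniusAt σ ℓ) :
    Point.galoisTrace (K := Qbar) ℚ E.toAffine p σ = ((W.apOfModel ℓ : ℤ) : ZMod p) ∧
      LinearMap.det (galoisRepModuleEnd (K := Qbar) ℚ E.toAffine p σ) = (ℓ : ZMod p) := by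
  obtain ⟨C, hC⟩ := hW
  obtain ⟨r, hr, he⟩ := CG_transport E (W.map (Int.castRingHom ℚ)) C hC p
  have hΔ' := CG_Δ_ne_zero W (CG_Δ_ne_zero_of_good W hgood)
  have hΔE : E.Δ ≠ 0 := by
    intro h0
    apply hΔ'
    rw [← hC, WeierstrassCurve.variableChange_Δ, h0, mul_zero]
  have := Tors.finite_torsionBy_qbar (W.map (Int.castRingHom ℚ)) hΔ' p hp.ne_zero
  have hcard : Nat.card (Submodule.torsionBy ℤ ((W.map (Int.castRingHom ℚ))⁄Qbar).Point p) =
      Nat.card (Submodule.torsionBy ℤ (E⁄Qbar).Point p) := by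
    rw [Tors.card_torsionBy_qbar (W.map (Int.castRingHom ℚ)) hΔ' p hp.ne_zero,
      Tors.card_torsionBy_qbar E hΔE p hp.ne_zero]
  have h := TC_trace_det (p := p) r hr hcard
    (galoisRepModuleEnd (K := Qbar) ℚ (W.map (Int.castRingHom ℚ)).toAffine p σ)
    (galoisRepModuleEnd (K := Qbar) ℚ E.toAffine p σ) (fun Q => he σ Q)
  constructor
  · rw [galoisTrace_def, ← h.1, ← galoisTrace_def]
    exact galoisTrace_frobenius W hℓ hp hne hgood A hA σ hσ
  · rw [← h.2]
    exact galoisDet_frobenius W hℓ hp hne hgood A hA σ hσ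

end Fermat.Agent.EFrob
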