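import Fermat.Agent.EFrob.CoreValues

/-!
# P-EFROB (CA): assembly of the core

`theorem core : IfaceParallelogram → IfaceXRat → IfaceFrobFormula → IfaceSpec → IfaceCount →
IfaceFixed → IfaceCore`: the characteristic equation `φ² - a_ℓ φ + ℓ = 0` of Frobenius on the
points of `W` over an algebraically closed field of characteristic `ℓ`.

Proof: the height `ht (m, n, r) = deg x((m φ² + n φ + r) G)` of the generic point is a quadratic
form whose values at `φ - 1`, `φ + 1`, `φ² - 1` are the orders of the kernels; this determines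
the form, and it vanishes at `(1, -a_ℓ, ℓ)`.  A point of height `0` has a constant
`x`-coordinate, which is impossible for a nonzero endomorphism.
-/

set_option autoImplicit false

namespace Fermat.Agent.EFrob

open WeierstrassCurve WeierstrassCurve.Affine Polynomial

noncomputable section

/-- `# ker (g ∘ f) = # ker f · # ker g` for a surjective `f`. -/
lemma CA_card_ker_comp {A : Type*} [AddCommGroup A] (f g : A →+ A)
    (hf : Function.Surjective f) :
    Nat.card (g.comp f).ker = Nat.card f.ker * Nat.card g.ker := by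
  have h1 : (g.comp f).ker = g.ker.comap f := (AddMonoidHom.comap_ker g f).symm
  have h2 : f.ker ≤ g.ker.comap f := AddMonoidHom.ker_le_comap f _
  have h3 := AddSubgroup.relIndex_mul_relIndex (H := ⊥) (K := f.ker) (L := g.ker.comap f)
    bot_le h2
  rw [AddSubgroup.relIndex_bot_left, AddSubgroup.relIndex_bot_left, AddSubgroup.relIndex_ker,
    AddSubgroup.map_comap_eq_self_of_surjective hf] at h3
  rw [h1, ← h3]

/-- Over an algebraically closed field every `x` is the `x`-coordinate of a point. -/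
lemma CA_exists_point {k : Type} [Field k] [IsAlgClosed k] (E : WeierstrassCurve k)
    (hΔ : E.Δ ≠ 0) (x : k) : ∃ y : k, E.toAffine.Nonsingular x y := by
  have hdeg : (C (1 : k) * X ^ 2 + C (E.a₁ * x + E.a₃) * X +
      C (-(x ^ 3 + E.a₂ * x ^ 2 + E.a₄ * x + E.a₆)) : k[X]).degree ≠ 0 := by
    rw [degree_quadratic one_ne_zero]
    norm_num
  obtain ⟨y, hy⟩ := IsAlgClosed.exists_root _ hdeg
  refine ⟨y, (equation_iff_nonsingular_of_Δ_ne_zero hΔ).mp ?_⟩
  rw [equation_iff]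
  simp only [IsRoot.def, eval_add, eval_pow, eval_X, eval_mul, eval_C] at hy
  linear_combination hy

section Asm

variable (ℓ : ℕ) [Fact ℓ.Prime] (k : Type) [Field k] [IsAlgClosed k] [CharP k ℓ] [DecidableEq k]
  (W : WeierstrassCurve ℤ) (hW : Good k W) (hH : IfaceParallelogram) (hX : IfaceXRat)
  (hF : IfaceFrobFormula) (hS : IfaceSpec) (hC : IfaceCount) (hK : IfaceFixed)

omit [IsAlgClosed k] in
lemma CA_lam_comp :
    lam (K := k) ℓ W 1 0 (-1) = (lam (K := k) ℓ W 0 1 1).comp (lam (K := k) ℓ W 0 1 (-1)) := by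
  ext Q
  rw [AddMonoidHom.comp_apply]
  simp only [lam_apply, map_add, zero_smul, zero_add, one_smul, neg_smul, map_neg]
  abel

include hH hF hS hC

lemma CA_ker_minus : Function.Surjective (lam (K := k) ℓ W 0 1 (-1)) ∧
    (Nat.card (lam (K := k) ℓ W 0 1 (-1)).ker : ℤ) = CA_ht ℓ k W hW hX 0 1 (-1) := by
  obtain ⟨F₀, hm, hd, x₃, y₃, h, e, ex⟩ := (hF ℓ k W hW).1 (-1) (Or.inr rfl)
  exact CA_ker_of_formula ℓ k W hW hH hX hS hC ℓ (Fact.out : ℓ.Prime).two_le
    (CharP.cast_eq_zero k ℓ) 0 1 (-1) F₀ hm hd x₃ y₃ h e ex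

lemma CA_ker_plus : Function.Surjective (lam (K := k) ℓ W 0 1 1) ∧
    (Nat.card (lam (K := k) ℓ W 0 1 1).ker : ℤ) = CA_ht ℓ k W hW hX 0 1 1 := by
  obtain ⟨F₀, hm, hd, x₃, y₃, h, e, ex⟩ := (hF ℓ k W hW).1 1 (Or.inl rfl)
  exact CA_ker_of_formula ℓ k W hW hH hX hS hC ℓ (Fact.out : ℓ.Prime).two_le
    (CharP.cast_eq_zero k ℓ) 0 1 1 F₀ hm hd x₃ y₃ h e ex

lemma CA_ker_sq : Function.Surjective (lam (K := k) ℓ W 1 0 (-1)) ∧
    (Nat.card (lam (K := k) ℓ W 1 0 (-1)).ker : ℤ) = CA_ht ℓ k W hW hX 1 0 (-1) := by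
  obtain ⟨F₀, hm, hd, x₃, y₃, h, e, ex⟩ := (hF ℓ k W hW).2
  have h2 : 2 ≤ ℓ ^ 2 := by
    have := (Fact.out : ℓ.Prime).two_le
    nlinarith
  have h0 : ((ℓ ^ 2 : ℕ) : k) = 0 := by
    rw [Nat.cast_pow, CharP.cast_eq_zero k ℓ]
    simp
  exact CA_ker_of_formula ℓ k W hW hH hX hS hC (ℓ ^ 2) h2 h0 1 0 (-1) F₀ hm hd x₃ y₃ h e ex

include hK

/-- The height vanishes at `(1, -a_ℓ, ℓ)`. -/
theorem CA_ht_char : CA_ht ℓ k W hW hX 1 (-(W.apOfModel ℓ)) ℓ = 0 := by
  obtain ⟨s1, c1⟩ := CA_ker_minus ℓ k W hW hH hX hF hS hC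
  obtain ⟨-, c2⟩ := CA_ker_plus ℓ k W hW hH hX hF hS hC
  obtain ⟨-, c3⟩ := CA_ker_sq ℓ k W hW hH hX hF hS hC
  have hN : (Nat.card (lam (K := k) ℓ W 0 1 (-1)).ker : ℤ) = ((W.reductionMod ℓ).card : ℤ) := by
    rw [hK ℓ k W]
  have ha : W.apOfModel ℓ = (ℓ : ℤ) + 1 - ((W.reductionMod ℓ).card : ℤ) := by
    rw [apOfModel, traceOfFrobenius, Nat.card_zmod]
  have hprod : (Nat.card (lam (K := k) ℓ W 1 0 (-1)).ker : ℤ) =
      (Nat.card (lam (K := k) ℓ W 0 1 (-1)).ker : ℤ) * (Nat.card (lam (K := k) ℓ W 0 1 1).ker : ℤ) := by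
    rw [CA_lam_comp, CA_card_ker_comp _ _ s1]
    push_cast
    ring
  -- the parallelogram law relates `φ + 1` and `φ - 1`
  have hpar := CA_ht_parallelogram ℓ k W hW hH hX 0 1 0 0 0 1
  simp only [add_zero, zero_add, sub_zero, zero_sub] at hpar
  have e001 := CA_ht_001 ℓ k W hW hH hX
  have e010 := CA_ht_010 ℓ k W hW hH hX
  have e100 := CA_ht_100 ℓ k W hW hH hX
  have n1 := CA_ht_neg ℓ k W hW hH hX 0 1 (-1)
  have n2 := CA_ht_neg ℓ k W hW hH hX 1 0 (-1)
  have n3 := CA_ht_neg ℓ k W hW hH hX 1 (-1) 0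
  simp only [neg_zero, neg_neg] at n1 n2 n3
  have sh := CA_ht_shift ℓ k W hW hH hX 1 (-1)
  rw [CA_ht_formula ℓ k W hW hH hX 1 (-(W.apOfModel ℓ)) ℓ, n1, n2, n3, sh, e001, e010, e100]
  rw [e001, e010] at hpar
  rw [← c1, hN] at hpar ⊢
  rw [← c3, hprod, hN, c2] at *
  generalize CA_ht ℓ k W hW hX 0 1 1 = N' at *
  generalize ((W.reductionMod ℓ).card : ℤ) = N at *
  have hN' : N' = 2 * ℓ + 2 - N := by linarith
  subst hN'
  rw [ha]
  ring

end Asm

/-- **(CORE)** The characteristic equation of Frobenius, `φ² - a_ℓ φ + ℓ = 0`, on the points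
of `W` over an algebraically closed field of characteristic `ℓ` (good reduction). -/
theorem core (hH : IfaceParallelogram) (hX : IfaceXRat) (hF : IfaceFrobFormula)
    (hS : IfaceSpec) (hC : IfaceCount) (hK : IfaceFixed) : IfaceCore := by
  intro ℓ _ k _ _ _ _ W hW P
  have h0 := CA_ht_char ℓ k W hW hH hX hF hS hC hK
  obtain ⟨F, G, hFG⟩ := hX ℓ k W hW 1 (-(W.apOfModel ℓ)) ℓ
  have hmax := CA_ht_eq ℓ k W hW hH hX hFG
  rw [h0] at hmax
  have hmax' : max F.natDegree G.natDegree = 0 := by exact_mod_cast hmax.symm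
  have hdF : F.natDegree = 0 := by
    have := le_max_left F.natDegree G.natDegree
    omega
  have hdG : G.natDegree = 0 := by
    have := le_max_right F.natDegree G.natDegree
    omega
  obtain ⟨c₁, rfl⟩ : ∃ c₁, F = C c₁ := ⟨_, eq_C_of_natDegree_eq_zero hdF⟩
  obtain ⟨c₂, rfl⟩ : ∃ c₂, G = C c₂ := ⟨_, eq_C_of_natDegree_eq_zero hdG⟩
  have hs := hS ℓ k W hW 1 (-(W.apOfModel ℓ)) ℓ (C c₁) (C c₂) hFG
  simp only [eval_C] at hs
  generalize lam (K := k) ℓ W 1 (-(W.apOfModel ℓ)) ℓ = ψ at hs ⊢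
  by_cases hc2 : c₂ = 0
  · -- `ψ` kills every affine point
    rcases P with _ | ⟨x, y, h⟩
    · exact map_zero ψ
    · obtain ⟨c, hc, -, e1⟩ := hs x y h
      rw [hc2] at e1
      have hz : (ψ (Point.some x y h)).xRep 1 = 0 := by
        rcases mul_eq_zero.1 e1.symm with h | h
        · exact absurd h hc
        · exact h
      generalize ψ (Point.some x y h) = Q at hz ⊢
      rcases Q with _ | ⟨x', y', h'⟩
      · rfl
      · rw [Point.xRep_some] at hz
        simp at hz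
  · exfalso
    have hne : ∀ Q : (W⁄k).Point, Q ≠ 0 → ψ Q ≠ 0 := by
      intro Q hQ hψ
      rcases Q with _ | ⟨x, y, h⟩
      · exact hQ rfl
      · obtain ⟨c, hc, -, e1⟩ := hs x y h
        rw [hψ, Point.xRep_zero] at e1
        simp at e1
        exact hc2 e1
    have hx : ∀ Q : (W⁄k).Point, Q ≠ 0 → (ψ Q).xRep = ![c₁ / c₂, 1] := by
      intro Q hQ
      have hψ := hne Q hQ
      rcases Q with _ | ⟨x, y, h⟩
      · exact absurd rfl hQ
      · obtain ⟨c, hc, e0, e1⟩ := hs x y h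
        generalize ψ (Point.some x y h) = R at hψ e0 e1 ⊢
        rcases R with _ | ⟨x', y', h'⟩
        · exact absurd rfl hψ
        · rw [Point.xRep_some] at e0 e1 ⊢
          simp only [Matrix.cons_val_zero, Matrix.cons_val_one, mul_one] at e0 e1
          rw [e0, e1, mul_div_cancel_left₀ _ hc]
    obtain ⟨y₁, h₁⟩ := CA_exists_point (W⁄k) hW 0
    obtain ⟨y₂, h₂⟩ := CA_exists_point (W⁄k) hW 1
    have hP₁ : (Point.some 0 y₁ h₁ : (W⁄k).Point) ≠ 0 := Point.some_ne_zero _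
    have hP₂ : (Point.some 1 y₂ h₂ : (W⁄k).Point) ≠ 0 := Point.some_ne_zero _
    have h12 : (Point.some 0 y₁ h₁ : (W⁄k).Point) ≠ Point.some 1 y₂ h₂ := by
      intro h
      rw [Point.some.injEq] at h
      exact zero_ne_one h.1
    have h12' : (Point.some 0 y₁ h₁ : (W⁄k).Point) ≠ -Point.some 1 y₂ h₂ := by
      intro h
      rw [Point.neg_some, Point.some.injEq] at h
      exact zero_ne_one h.1
    have hxx : (ψ (Point.some 0 y₁ h₁)).xRep = (ψ (Point.some 1 y₂ h₂)).xRep := by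
      rw [hx _ hP₁, hx _ hP₂]
    rcases Point.eq_or_eq_neg_of_xRep_eq_xRep hxx with e | e
    · apply hne (Point.some 0 y₁ h₁ - Point.some 1 y₂ h₂) (sub_ne_zero.2 h12)
      rw [map_sub, e, sub_self]
    · apply hne (Point.some 0 y₁ h₁ + Point.some 1 y₂ h₂)
      · intro h
        exact h12' (eq_neg_of_add_eq_zero_left h)
      · rw [map_add, e, neg_add_cancel]

end

end Fermat.Agent.EFrob
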