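import Fermat.Agent.EFrob.CoreU
import Fermat.Agent.S51.A0

/-!
# P-EFROB: the height formula, the Hasse bound, and a bound for the kernel of `φ + r`

Unconditional consequences of the core machinery, for an algebraically closed field `k` of
characteristic `ℓ` and an integral Weierstrass curve `W` with good reduction in `k`,
`a = W.apOfModel ℓ`:

* `CB_ht_formula`: `deg x((m φ² + n φ + r) G) = r² + ℓ n² + ℓ² m² + a r n + (a² - 2ℓ) r m + ℓ a n m`;
* `CB_hasse`: `a² ≤ 4 ℓ`;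
* `CB_ker_finite`, `CB_card_ker_le`: `# ker (φ + r) ≤ 2 (r² + a r + ℓ) + 1`.
-/

set_option autoImplicit false

namespace Fermat.Agent.EFrob

open WeierstrassCurve WeierstrassCurve.Affine Polynomial

noncomputable section

section

variable (ℓ : ℕ) [Fact ℓ.Prime] (k : Type) [Field k] [IsAlgClosed k] [CharP k ℓ] [DecidableEq k]
  (W : WeierstrassCurve ℤ) (hW : Good k W)

/-- The height on the Frobenius lattice of the generic point, unconditional. -/
def CB_ht (m n r : ℤ) : ℤ := CA_ht ℓ k W hW xRat m n r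

lemma CB_ht_eq {m n r : ℤ} {F G : k[X]}
    (h : IsXRep k W (lam ℓ W m n r (genPt k W hW)) F G) :
    CB_ht ℓ k W hW m n r = ((max F.natDegree G.natDegree : ℕ) : ℤ) :=
  CA_ht_eq ℓ k W hW (parallelogram addSub) xRat h

lemma CB_ht_nonneg (m n r : ℤ) : 0 ≤ CB_ht ℓ k W hW m n r :=
  CA_ht_nonneg ℓ k W hW xRat m n r

/-- **The height formula.** -/
theorem CB_ht_formula (m n r : ℤ) :
    CB_ht ℓ k W hW m n r =
      r ^ 2 + ℓ * n ^ 2 + (ℓ : ℤ) ^ 2 * m ^ 2 + W.apOfModel ℓ * r * n +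
        ((W.apOfModel ℓ) ^ 2 - 2 * ℓ) * r * m + ℓ * W.apOfModel ℓ * n * m := by
  have hH : IfaceParallelogram := parallelogram addSub
  have hS : IfaceSpec := spec red
  obtain ⟨s1, c1⟩ := CA_ker_minus ℓ k W hW hH xRat frobFormula hS count
  obtain ⟨-, c2⟩ := CA_ker_plus ℓ k W hW hH xRat frobFormula hS count
  obtain ⟨-, c3⟩ := CA_ker_sq ℓ k W hW hH xRat frobFormula hS count
  have hN : (Nat.card (lam (K := k) ℓ W 0 1 (-1)).ker : ℤ) = ((W.reductionMod ℓ).card : ℤ) := by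
    rw [fixed ℓ k W]
  have ha : W.apOfModel ℓ = (ℓ : ℤ) + 1 - ((W.reductionMod ℓ).card : ℤ) := by
    rw [apOfModel, traceOfFrobenius, Nat.card_zmod]
  have hprod : (Nat.card (lam (K := k) ℓ W 1 0 (-1)).ker : ℤ) =
      (Nat.card (lam (K := k) ℓ W 0 1 (-1)).ker : ℤ) *
        (Nat.card (lam (K := k) ℓ W 0 1 1).ker : ℤ) := by
    rw [CA_lam_comp, CA_card_ker_comp _ _ s1]
    push_cast
    ring
  have hpar := CA_ht_parallelogram ℓ k W hW hH xRat 0 1 0 0 0 1
  simp only [add_zero, zero_add, sub_zero, zero_sub] at hpar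
  have e001 := CA_ht_001 ℓ k W hW hH xRat
  have e010 := CA_ht_010 ℓ k W hW hH xRat
  have e100 := CA_ht_100 ℓ k W hW hH xRat
  have n1 := CA_ht_neg ℓ k W hW hH xRat 0 1 (-1)
  have n2 := CA_ht_neg ℓ k W hW hH xRat 1 0 (-1)
  have n3 := CA_ht_neg ℓ k W hW hH xRat 1 (-1) 0
  simp only [neg_zero, neg_neg] at n1 n2 n3
  have sh := CA_ht_shift ℓ k W hW hH xRat 1 (-1)
  rw [CB_ht, CA_ht_formula ℓ k W hW hH xRat m n r, n1, n2, n3, sh, e001, e010, e100]
  rw [e001, e010] at hpar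
  rw [← c1, hN] at hpar ⊢
  rw [← c3, hprod, hN, c2] at *
  generalize CA_ht ℓ k W hW xRat 0 1 1 = N' at *
  generalize ((W.reductionMod ℓ).card : ℤ) = N at *
  have hN' : N' = 2 * ℓ + 2 - N := by linarith
  subst hN'
  rw [ha]
  ring

include hW in
/-- **The Hasse bound** `a_ℓ² ≤ 4 ℓ`. -/
theorem CB_hasse : (W.apOfModel ℓ) ^ 2 ≤ 4 * ℓ := by
  have h := CB_ht_nonneg ℓ k W hW 0 2 (-(W.apOfModel ℓ))
  rw [CB_ht_formula] at h
  nlinarith

include hW in
/-- The degree of `φ + r` is positive. -/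
theorem CB_ht_pos (r : ℤ) : 0 < CB_ht ℓ k W hW 0 1 r := by
  have h0 := CB_ht_nonneg ℓ k W hW 0 1 r
  have hf := CB_ht_formula ℓ k W hW 0 1 r
  have hh := CB_hasse ℓ k W hW
  rcases h0.lt_or_eq with h | h
  · exact h
  · exfalso
    rw [hf] at h
    -- `(2 r + a)² = a² - 4 ℓ ≤ 0`
    have h1 : (2 * r + W.apOfModel ℓ) ^ 2 = (W.apOfModel ℓ) ^ 2 - 4 * ℓ := by
      linear_combination (-4 : ℤ) * h
    have h2 : (2 * r + W.apOfModel ℓ) ^ 2 = 0 := by
      have := sq_nonneg (2 * r + W.apOfModel ℓ)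
      linarith
    have h3 : 2 * r + W.apOfModel ℓ = 0 := pow_eq_zero_iff (two_ne_zero) |>.1 h2
    have h4 : (ℓ : ℤ) = r * r := by
      have : W.apOfModel ℓ = -2 * r := by linarith
      rw [this] at h
      linear_combination (-1 : ℤ) * h
    have hp : Prime (ℓ : ℤ) := Nat.prime_iff_prime_int.1 (Fact.out : ℓ.Prime)
    exact hp.not_isSquare ⟨r, h4⟩

include hW in
/-- The kernel of `φ + r` is finite, of order at most `2 deg (φ + r) + 1`. -/
theorem CB_ker_bound (r : ℤ) :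
    Finite (lam (K := k) ℓ W 0 1 r).ker ∧
      (Nat.card (lam (K := k) ℓ W 0 1 r).ker : ℤ) ≤
        2 * (r ^ 2 + W.apOfModel ℓ * r + ℓ) + 1 := by
  obtain ⟨F, G, hFG⟩ := xRat ℓ k W hW 0 1 r
  have hht := CB_ht_eq ℓ k W hW hFG
  have hpos := CB_ht_pos ℓ k W hW r
  have hf := CB_ht_formula ℓ k W hW 0 1 r
  have hG0 : G ≠ 0 := by
    rintro rfl
    have hu : IsUnit F := isCoprime_zero_right.1 hFG.1
    have hd : F.natDegree = 0 := natDegree_eq_zero_of_isUnit hu
    rw [hht, hd] at hpos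
    simp at hpos
  have hs := spec red ℓ k W hW 0 1 r F G hFG
  -- the `x`-coordinates of the nonzero points of the kernel are roots of `G`
  have hZ : ∀ P : (W⁄k).Point, P ≠ 0 → lam (K := k) ℓ W 0 1 r P = 0 →
      S51.A_x P ∈ G.roots.toFinset := by
    intro P hP hker
    rcases P with _ | ⟨x, y, h⟩
    · exact absurd rfl hP
    · obtain ⟨c, hc, -, e1⟩ := hs x y h
      rw [hker, Point.xRep_zero] at e1
      simp only [Matrix.cons_val_one, Matrix.cons_val_fin_one, mul_zero] at e1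
      rw [Multiset.mem_toFinset, mem_roots hG0]
      exact e1
  let g : (lam (K := k) ℓ W 0 1 r).ker → S51.A_coordSet (W⁄k).toAffine G.roots.toFinset :=
    fun P => ⟨S51.A_coord P.1, S51.A_coord_mem _ _ P.1 (fun h0 => hZ P.1 h0 P.2)⟩
  have hg : Function.Injective g := by
    intro P Q h
    apply Subtype.ext
    apply S51.A_coord_injective
    exact congrArg Subtype.val h
  have hfin : Finite (lam (K := k) ℓ W 0 1 r).ker := Finite.of_injective g hg
  refine ⟨hfin, ?_⟩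
  have h1 : Nat.card (lam (K := k) ℓ W 0 1 r).ker ≤ 1 + 2 * G.roots.toFinset.card := by
    refine le_trans (Nat.card_le_card_of_injective g hg) ?_
    rw [Nat.card_eq_fintype_card, Fintype.card_coe]
    exact S51.A_coordSet_card_le _ _
  have h2 : G.roots.toFinset.card ≤ G.natDegree :=
    le_trans (Multiset.toFinset_card_le _) (card_roots' _)
  have h3 : G.natDegree ≤ max F.natDegree G.natDegree := le_max_right _ _
  have h4 : (Nat.card (lam (K := k) ℓ W 0 1 r).ker : ℤ) ≤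
      1 + 2 * ((max F.natDegree G.natDegree : ℕ) : ℤ) := by
    have : Nat.card (lam (K := k) ℓ W 0 1 r).ker ≤ 1 + 2 * max F.natDegree G.natDegree := by
      omega
    exact_mod_cast this
  rw [← hht, hf] at h4
  linarith

include hW in
theorem CA_hasse : (W.apOfModel ℓ) ^ 2 ≤ 4 * ℓ := CB_hasse ℓ k W hW

include hW in
theorem CA_ker_finite (r : ℤ) : Finite (lam (K := k) ℓ W 0 1 r).ker :=
  (CB_ker_bound ℓ k W hW r).1

include hW in
theorem CA_card_ker_le (r : ℤ) :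
    (Nat.card (lam (K := k) ℓ W 0 1 r).ker : ℤ) ≤ 2 * (r ^ 2 + W.apOfModel ℓ * r + ℓ) + 1 :=
  (CB_ker_bound ℓ k W hW r).2

end

/-! ## Statements without an auxiliary field -/

/-- Good reduction at `ℓ` gives a good curve over every field of characteristic `ℓ`. -/
lemma CB_good_of_isGoodPrimeFor (ℓ : ℕ) (k : Type) [Field k] [CharP k ℓ]
    (W : WeierstrassCurve ℤ) (hW : W.IsGoodPrimeFor ℓ) : Good k W := by
  intro h
  have h2 : (W⁄k).Δ = algebraMap ℤ k W.Δ := WeierstrassCurve.map_Δ W _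
  rw [h2, eq_intCast, CharP.intCast_eq_zero_iff k ℓ] at h
  exact hW h

/-- **The Hasse bound** for an integral Weierstrass curve at a prime of good reduction:
`a_ℓ² ≤ 4 ℓ` where `a_ℓ = ℓ + 1 - #E(𝔽_ℓ)`. -/
theorem hasse_bound (W : WeierstrassCurve ℤ) (ℓ : ℕ) (hℓ : ℓ.Prime) (hW : W.IsGoodPrimeFor ℓ) :
    (W.apOfModel ℓ) ^ 2 ≤ 4 * ℓ := by
  haveI : Fact ℓ.Prime := ⟨hℓ⟩
  letI : DecidableEq (AlgebraicClosure (ZMod ℓ)) := Classical.decEq _
  exact CB_hasse ℓ (AlgebraicClosure (ZMod ℓ)) W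
    (CB_good_of_isGoodPrimeFor ℓ (AlgebraicClosure (ZMod ℓ)) W hW)

end

end Fermat.Agent.EFrob
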