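import Mathlib

/-!
# P-EFROB (CA): a function satisfying the parallelogram law is a quadratic form

Pure algebra: for `f : A → ℤ` on an abelian group with
`f (x + y) + f (x - y) = 2 f x + 2 f y`, the map `B x y = f (x + y) - f x - f y` is biadditive and
`2 f x = B x x`; explicit formula on three generators.
-/

set_option autoImplicit false

namespace Fermat.Agent.EFrob

section

variable {A : Type*} [AddCommGroup A] (f : A → ℤ)
  (hP : ∀ x y : A, f (x + y) + f (x - y) = 2 * f x + 2 * f y)

include hP

lemma CA_quad_zero : f 0 = 0 := by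
  have h := hP 0 0
  simp only [add_zero, sub_zero] at h
  linarith

lemma CA_quad_neg (x : A) : f (-x) = f x := by
  have h := hP 0 x
  have h0 := CA_quad_zero f hP
  simp only [zero_add, zero_sub] at h
  linarith

lemma CA_quad_two (x : A) : f (x + x) = 4 * f x := by
  have h := hP x x
  have h0 := CA_quad_zero f hP
  simp only [sub_self] at h
  linarith

lemma CA_quad_cubic (x y z : A) :
    f (x + y + z) = f (x + y) + f (x + z) + f (y + z) - f x - f y - f z := by
  have a := hP (x + y) z
  have d := hP x (y - z)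
  have e := hP (x + z) y
  have g := hP y z
  have e1 : x + (y - z) = x + y - z := by abel
  have e2 : x - (y - z) = x + z - y := by abel
  have e3 : x + z + y = x + y + z := by abel
  rw [e1, e2] at d
  rw [e3] at e
  linarith

/-- The associated biadditive form, as a homomorphism in the first variable. -/
def CA_quadB (y : A) : A →+ ℤ :=
  AddMonoidHom.mk' (fun x => f (x + y) - f x - f y) (by
    intro x z
    have h := CA_quad_cubic f hP x z y
    have e1 : x + z + y = x + z + y := rfl
    linarith)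

lemma CA_quadB_apply (x y : A) : CA_quadB f hP y x = f (x + y) - f x - f y := rfl

lemma CA_quadB_comm (x y : A) : CA_quadB f hP y x = CA_quadB f hP x y := by
  rw [CA_quadB_apply, CA_quadB_apply, add_comm]
  ring

lemma CA_quadB_self (x : A) : CA_quadB f hP x x = 2 * f x := by
  rw [CA_quadB_apply, CA_quad_two f hP]
  ring

lemma CA_quadB_add_right (x y z : A) :
    CA_quadB f hP (y + z) x = CA_quadB f hP y x + CA_quadB f hP z x := by
  rw [CA_quadB_comm, map_add, CA_quadB_comm f hP y x, CA_quadB_comm f hP z x]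

lemma CA_quadB_zsmul_right (n : ℤ) (x y : A) :
    CA_quadB f hP (n • y) x = n * CA_quadB f hP y x := by
  rw [CA_quadB_comm, map_zsmul, CA_quadB_comm f hP y x, smul_eq_mul]

/-- The explicit formula on three generators. -/
theorem CA_quad_formula (e₁ e₂ e₃ : A) (m n r : ℤ) :
    f (m • e₁ + n • e₂ + r • e₃) =
      m ^ 2 * f e₁ + n ^ 2 * f e₂ + r ^ 2 * f e₃ +
        m * n * (f e₁ + f e₂ - f (e₁ - e₂)) + m * r * (f e₁ + f e₃ - f (e₁ - e₃)) +
        n * r * (f e₂ + f e₃ - f (e₂ - e₃)) := by
  have key := CA_quadB_self f hP (m • e₁ + n • e₂ + r • e₃)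
  have b12 : CA_quadB f hP e₂ e₁ = f e₁ + f e₂ - f (e₁ - e₂) := by
    rw [CA_quadB_apply]
    have := hP e₁ e₂
    linarith
  have b13 : CA_quadB f hP e₃ e₁ = f e₁ + f e₃ - f (e₁ - e₃) := by
    rw [CA_quadB_apply]
    have := hP e₁ e₃
    linarith
  have b23 : CA_quadB f hP e₃ e₂ = f e₂ + f e₃ - f (e₂ - e₃) := by
    rw [CA_quadB_apply]
    have := hP e₂ e₃
    linarith
  have s1 := CA_quadB_self f hP e₁
  have s2 := CA_quadB_self f hP e₂
  have s3 := CA_quadB_self f hP e₃
  have c21 := CA_quadB_comm f hP e₁ e₂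
  have c31 := CA_quadB_comm f hP e₁ e₃
  have c32 := CA_quadB_comm f hP e₂ e₃
  simp only [CA_quadB_add_right, CA_quadB_zsmul_right, map_add, map_zsmul, smul_eq_mul] at key
  rw [c21] at b12
  rw [c31] at b13
  rw [c32] at b23
  simp only [s1, s2, s3, b12, b13, b23, c21, c31, c32] at key
  have h2 : 2 * f (m • e₁ + n • e₂ + r • e₃) = 2 * (m ^ 2 * f e₁ + n ^ 2 * f e₂ + r ^ 2 * f e₃ +
        m * n * (f e₁ + f e₂ - f (e₁ - e₂)) + m * r * (f e₁ + f e₃ - f (e₁ - e₃)) +
        n * r * (f e₂ + f e₃ - f (e₂ - e₃))) := by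
    rw [← key]
    ring
  linarith

end

end Fermat.Agent.EFrob
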