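import Fermat.Agent.EFrob.Transc
import Fermat.Agent.EFrob.CoreQuad

/-!
# P-EFROB (CA): the height on the Frobenius lattice of the generic point

From `IfaceParallelogram` and `IfaceXRat`: the degree `ht m n r` of the `x`-coordinate of
`m φ² G + n φ G + r G` is well defined and is a quadratic form in `(m, n, r)`.
-/

set_option autoImplicit false

namespace Fermat.Agent.EFrob

open WeierstrassCurve WeierstrassCurve.Affine Polynomial

noncomputable section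

section Lam

variable (ℓ : ℕ) [Fact ℓ.Prime] {K : Type*} [Field K] [CharP K ℓ] [DecidableEq K]
  (W : WeierstrassCurve ℤ)

lemma CA_lam_add (m n r m' n' r' : ℤ) (Q : (W⁄K).Point) :
    lam ℓ W (m + m') (n + n') (r + r') Q = lam ℓ W m n r Q + lam ℓ W m' n' r' Q := by
  simp only [lam_apply, add_smul]
  abel

lemma CA_lam_sub (m n r m' n' r' : ℤ) (Q : (W⁄K).Point) :
    lam ℓ W (m - m') (n - n') (r - r') Q = lam ℓ W m n r Q - lam ℓ W m' n' r' Q := by
  simp only [lam_apply, sub_smul]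
  abel

lemma CA_lam_zero (Q : (W⁄K).Point) : lam ℓ W 0 0 0 Q = 0 := by
  simp [lam_apply]

lemma CA_lam_001 (Q : (W⁄K).Point) : lam ℓ W 0 0 1 Q = Q := by
  simp [lam_apply]

lemma CA_lam_010 (Q : (W⁄K).Point) : lam ℓ W 0 1 0 Q = frob ℓ W Q := by
  simp [lam_apply]

lemma CA_lam_100 (Q : (W⁄K).Point) : lam ℓ W 1 0 0 Q = frob ℓ W (frob ℓ W Q) := by
  simp [lam_apply]

/-- `φ ∘ (m φ² + n φ + r) = (m φ² + n φ + r) ∘ φ`. -/
lemma CA_frob_lam (m n r : ℤ) (Q : (W⁄K).Point) :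
    frob ℓ W (lam ℓ W m n r Q) = lam ℓ W m n r (frob ℓ W Q) := by
  simp only [lam_apply, map_add, map_zsmul]

lemma CA_frob_some {x y : K} (h : (W⁄K).toAffine.Nonsingular x y) :
    ∃ h' : (W⁄K).toAffine.Nonsingular (x ^ ℓ) (y ^ ℓ),
      frob ℓ W (Point.some x y h) = Point.some (x ^ ℓ) (y ^ ℓ) h' :=
  ⟨_, rfl⟩

lemma CA_frob_xRep (A : (W⁄K).Point) (i : Fin 2) : (frob ℓ W A).xRep i = A.xRep i ^ ℓ := by
  have hℓ : ℓ ≠ 0 := (Fact.out : ℓ.Prime).ne_zero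
  rcases A with _ | ⟨x, y, h⟩
  · change (0 : (W⁄K).Point).xRep i = (0 : (W⁄K).Point).xRep i ^ ℓ
    rw [Point.xRep_zero]
    fin_cases i <;> simp [hℓ]
  · obtain ⟨h', e⟩ := CA_frob_some ℓ W h
    rw [e, Point.xRep_some, Point.xRep_some]
    fin_cases i <;> simp

end Lam

section Height

variable (ℓ : ℕ) [Fact ℓ.Prime] (k : Type) [Field k] [CharP k ℓ] (W : WeierstrassCurve ℤ)
  (hW : Good k W)

/-- Frobenius twist of a representation. -/
lemma CA_isXRep_frob {A : (W⁄(KK k W)).Point} {F G : k[X]} (h : IsXRep k W A F G) :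
    IsXRep k W (frob ℓ W A) (F ^ ℓ) (G ^ ℓ) := by
  obtain ⟨hc, c, hc0, h0, h1⟩ := h
  refine ⟨hc.pow, c ^ ℓ, pow_ne_zero _ hc0, ?_, ?_⟩
  · rw [map_pow, h0, CA_frob_xRep, mul_pow]
  · rw [map_pow, h1, CA_frob_xRep, mul_pow]

variable (hH : IfaceParallelogram)

include hH hW

/-- The height of a point does not depend on the representation. -/
lemma CA_height_unique {A : (W⁄(KK k W)).Point} {F G F' G' : k[X]} (h : IsXRep k W A F G)
    (h' : IsXRep k W A F' G') :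
    max F.natDegree G.natDegree = max F'.natDegree G'.natDegree := by
  have e1 : A + 0 = A := add_zero A
  have e2 : A - 0 = A := sub_zero A
  have key := hH k W hW A 0 F G 1 0 F' G' F' G' h (isXRep_zero k W) (e1.symm ▸ h') (e2.symm ▸ h')
  simp only [natDegree_one, natDegree_zero, max_self, mul_zero, add_zero] at key
  omega

variable (hX : IfaceXRat)

include hX

/-- The height of `m φ² G + n φ G + r G`. -/
def CA_ht (m n r : ℤ) : ℤ :=
  ((max (Classical.choose (hX ℓ k W hW m n r)).natDegree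
    (Classical.choose (Classical.choose_spec (hX ℓ k W hW m n r))).natDegree : ℕ) : ℤ)

omit hH in
lemma CA_ht_spec (m n r : ℤ) : ∃ F G : k[X],
    IsXRep k W (lam ℓ W m n r (genPt k W hW)) F G ∧
      CA_ht ℓ k W hW hX m n r = ((max F.natDegree G.natDegree : ℕ) : ℤ) :=
  ⟨_, _, Classical.choose_spec (Classical.choose_spec (hX ℓ k W hW m n r)), rfl⟩

lemma CA_ht_eq {m n r : ℤ} {F G : k[X]}
    (h : IsXRep k W (lam ℓ W m n r (genPt k W hW)) F G) :
    CA_ht ℓ k W hW hX m n r = ((max F.natDegree G.natDegree : ℕ) : ℤ) := by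
  obtain ⟨F', G', h', e⟩ := CA_ht_spec ℓ k W hW hX m n r
  rw [e, CA_height_unique k W hW hH h' h]

omit hH in
lemma CA_ht_nonneg (m n r : ℤ) : 0 ≤ CA_ht ℓ k W hW hX m n r := by
  obtain ⟨F', G', -, e⟩ := CA_ht_spec ℓ k W hW hX m n r
  rw [e]
  exact Int.natCast_nonneg _

/-- The parallelogram law on the lattice. -/
lemma CA_ht_parallelogram (m n r m' n' r' : ℤ) :
    CA_ht ℓ k W hW hX (m + m') (n + n') (r + r') + CA_ht ℓ k W hW hX (m - m') (n - n') (r - r') =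
      2 * CA_ht ℓ k W hW hX m n r + 2 * CA_ht ℓ k W hW hX m' n' r' := by
  obtain ⟨a₁, a₂, ha, ea⟩ := CA_ht_spec ℓ k W hW hX m n r
  obtain ⟨b₁, b₂, hb, eb⟩ := CA_ht_spec ℓ k W hW hX m' n' r'
  obtain ⟨c₁, c₂, hc, ec⟩ := CA_ht_spec ℓ k W hW hX (m + m') (n + n') (r + r')
  obtain ⟨e₁, e₂, he, ee⟩ := CA_ht_spec ℓ k W hW hX (m - m') (n - n') (r - r')
  rw [CA_lam_add] at hc
  rw [CA_lam_sub] at he
  have key := hH k W hW _ _ a₁ a₂ b₁ b₂ c₁ c₂ e₁ e₂ ha hb hc he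
  rw [ea, eb, ec, ee]
  exact_mod_cast key

/-- The height as a function on `ℤ × ℤ × ℤ`, coordinates `(r, n, m)` for `r G + n φG + m φ²G`. -/
def CA_htv (v : ℤ × ℤ × ℤ) : ℤ := CA_ht ℓ k W hW hX v.2.2 v.2.1 v.1

lemma CA_htv_parallelogram (x y : ℤ × ℤ × ℤ) :
    CA_htv ℓ k W hW hX (x + y) + CA_htv ℓ k W hW hX (x - y) =
      2 * CA_htv ℓ k W hW hX x + 2 * CA_htv ℓ k W hW hX y :=
  CA_ht_parallelogram ℓ k W hW hH hX _ _ _ _ _ _

/-- **The height is a quadratic form.** -/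
theorem CA_ht_formula (m n r : ℤ) :
    CA_ht ℓ k W hW hX m n r =
      r ^ 2 * CA_ht ℓ k W hW hX 0 0 1 + n ^ 2 * CA_ht ℓ k W hW hX 0 1 0 +
        m ^ 2 * CA_ht ℓ k W hW hX 1 0 0 +
        r * n * (CA_ht ℓ k W hW hX 0 0 1 + CA_ht ℓ k W hW hX 0 1 0 -
          CA_ht ℓ k W hW hX 0 (-1) 1) +
        r * m * (CA_ht ℓ k W hW hX 0 0 1 + CA_ht ℓ k W hW hX 1 0 0 -
          CA_ht ℓ k W hW hX (-1) 0 1) +
        n * m * (CA_ht ℓ k W hW hX 0 1 0 + CA_ht ℓ k W hW hX 1 0 0 -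
          CA_ht ℓ k W hW hX (-1) 1 0) := by
  have h := CA_quad_formula (CA_htv ℓ k W hW hX) (CA_htv_parallelogram ℓ k W hW hH hX)
    ((1, 0, 0) : ℤ × ℤ × ℤ) (0, 1, 0) (0, 0, 1) r n m
  simpa [CA_htv] using h

/-- The height is even: `ht (-v) = ht v`. -/
lemma CA_ht_neg (m n r : ℤ) :
    CA_ht ℓ k W hW hX (-m) (-n) (-r) = CA_ht ℓ k W hW hX m n r := by
  have h := CA_quad_neg (CA_htv ℓ k W hW hX) (CA_htv_parallelogram ℓ k W hW hH hX) (r, n, m)
  simpa [CA_htv] using h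

end Height

end

end Fermat.Agent.EFrob
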