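import Fermat.Agent.EFrob.Skeleton
import Fermat.Agent.Tors.Count

/-!
# P-EFROB, task C: the fibre count `count : IfaceCount`

A separable endomorphism `ψ` of `E(k)` (`k` algebraically closed) with an `x`-only formula
`x(ψ P) = F(x(P)) / G(x(P))`, `deg G < deg F`, is surjective with kernel of order `deg F`.

The proof is the fibre argument of `Fermat.Agent.Tors.card_torsion_of_ladder` with `[n]` replaced
by `ψ`.
-/

set_option autoImplicit false

namespace Fermat.Agent.EFrob

open WeierstrassCurve WeierstrassCurve.Affine Polynomial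
open Fermat.Agent.Tors

noncomputable section

section Poly

variable {K : Type*} [Field K]

lemma C_natDegree_sub {F G : K[X]} (hdeg : G.natDegree < F.natDegree) (c : K) :
    (F - C c * G).natDegree = F.natDegree :=
  natDegree_sub_eq_left_of_natDegree_lt ((natDegree_C_mul_le _ _).trans_lt hdeg)

lemma C_sub_ne_zero {F G : K[X]} (hdeg : G.natDegree < F.natDegree) (c : K) :
    F - C c * G ≠ 0 := by
  intro h0
  have := C_natDegree_sub hdeg c
  rw [h0, natDegree_zero] at this
  omega

/-- A separable polynomial `F - c G` with `deg G < deg F` has exactly `deg F` roots. -/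
lemma C_ncard_roots [IsAlgClosed K] {F G : K[X]} (hdeg : G.natDegree < F.natDegree) (c : K)
    (hsep : (F - C c * G).Separable) :
    {r : K | (F - C c * G).eval r = 0}.ncard = F.natDegree := by
  have hne := C_sub_ne_zero hdeg c
  have hcard := card_rootSet_eq_natDegree (K := K) hsep (IsAlgClosed.splits _)
  have hset : {r : K | (F - C c * G).eval r = 0} = (F - C c * G).rootSet K := by
    ext r
    rw [Set.mem_ofPred_eq, mem_rootSet, coe_aeval_eq_eval]
    exact ⟨fun h => ⟨hne, h⟩, fun h => h.2⟩
  rw [hset, ← Nat.card_coe_set_eq, Nat.card_eq_fintype_card, hcard, C_natDegree_sub hdeg c]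

/-- `F - c G` has a root. -/
lemma C_exists_root [IsAlgClosed K] {F G : K[X]} (hdeg : G.natDegree < F.natDegree) (c : K) :
    ∃ r : K, (F - C c * G).eval r = 0 := by
  have h1 : (F - C c * G).degree ≠ 0 := by
    rw [degree_eq_natDegree (C_sub_ne_zero hdeg c), C_natDegree_sub hdeg c]
    have h2 : F.natDegree ≠ 0 := by omega
    exact_mod_cast h2
  obtain ⟨r, hr⟩ := IsAlgClosed.exists_root _ h1
  exact ⟨r, hr⟩

lemma C_no_common_root {F G : K[X]} (hcop : IsCoprime F G) (r : K) (hF : F.eval r = 0)
    (hG : G.eval r = 0) : False := by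
  obtain ⟨a, b, hab⟩ := hcop
  have := congrArg (eval r) hab
  simp only [eval_add, eval_mul, hF, hG, mul_zero, add_zero, eval_one] at this
  exact zero_ne_one this

end Poly

section Curve

variable {k : Type} [Field k] [DecidableEq k] {E : WeierstrassCurve k}

/-- the two consequences of the `x`-only formula. -/
lemma C_zero_iff {ψ : E.toAffine.Point →+ E.toAffine.Point} {F G : k[X]}
    (hrep : ∀ (x y : k) (h : E.toAffine.Nonsingular x y), ∃ c : k, c ≠ 0 ∧
      F.eval x = c * (ψ (Point.some x y h)).xRep 0 ∧
      G.eval x = c * (ψ (Point.some x y h)).xRep 1)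
    (x y : k) (h : E.toAffine.Nonsingular x y) :
    ψ (Point.some x y h) = 0 ↔ G.eval x = 0 := by
  obtain ⟨c, hc, -, h2⟩ := hrep x y h
  constructor
  · intro h0
    rw [h0] at h2
    rw [h2, Point.xRep_zero]
    simp
  · intro hG
    generalize hR : ψ (Point.some x y h) = R at h2
    cases R with
    | zero => rfl
    | some x' y' h' =>
      exfalso
      rw [Point.xRep_some] at h2
      simp only [Matrix.cons_val_one, Matrix.cons_val_fin_one, mul_one] at h2
      exact hc (h2.symm.trans hG)

lemma C_x_formula {ψ : E.toAffine.Point →+ E.toAffine.Point} {F G : k[X]}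
    (hrep : ∀ (x y : k) (h : E.toAffine.Nonsingular x y), ∃ c : k, c ≠ 0 ∧
      F.eval x = c * (ψ (Point.some x y h)).xRep 0 ∧
      G.eval x = c * (ψ (Point.some x y h)).xRep 1)
    (x y : k) (h : E.toAffine.Nonsingular x y) (x' y' : k)
    (h' : E.toAffine.Nonsingular x' y')
    (hP : ψ (Point.some x y h) = Point.some x' y' h') :
    x' * G.eval x = F.eval x := by
  obtain ⟨c, -, h1, h2⟩ := hrep x y h
  rw [hP, Point.xRep_some] at h1 h2
  simp only [Matrix.cons_val_zero, Matrix.cons_val_one, Matrix.cons_val_fin_one, mul_one]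
    at h1 h2
  rw [h1, h2, mul_comm]

/-- **(C)** the fibre count. -/
theorem count : IfaceCount := by
  intro k _ _ _ E hΔ ψ F G hcopFG hdeg hW hrep
  have hcop : ∀ r : k, F.eval r = 0 → G.eval r = 0 → False := C_no_common_root hcopFG
  have hzero := C_zero_iff hrep
  have hmul := C_x_formula hrep
  -- a point above a root of `F - c G` is mapped to a point with `x`-coordinate `c`
  have habove : ∀ (c r : k), (F - C c * G).eval r = 0 →
      ∀ (y : k) (h : E.toAffine.Nonsingular r y),
        ψ (Point.some r y h) ≠ 0 ∧ count_x E (ψ (Point.some r y h)) = c := by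
    intro c r hr y h
    simp only [eval_sub, eval_mul, eval_C] at hr
    have hFr : F.eval r = c * G.eval r := sub_eq_zero.mp hr
    have hGr : G.eval r ≠ 0 := by
      intro hG0
      apply hcop r _ hG0
      rw [hFr, hG0, mul_zero]
    have hnP : ψ (Point.some r y h) ≠ 0 := fun h0 => hGr ((hzero r y h).mp h0)
    refine ⟨hnP, ?_⟩
    generalize hR : ψ (Point.some r y h) = R at hnP
    cases R with
    | zero => exact absurd rfl hnP
    | some x' y' h' =>
      have := hmul r y h x' y' h' hR
      rw [hFr] at this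
      exact mul_right_cancel₀ hGr this
  -- every affine point with `x`-coordinate `c` is hit
  have hhit : ∀ (c yQ : k) (hQ : E.toAffine.Nonsingular c yQ) (r : k),
      (F - C c * G).eval r = 0 →
      ∃ P : E.toAffine.Point, ψ P = Point.some c yQ hQ ∧ count_x E P = r := by
    intro c yQ hQ r hr
    obtain ⟨y, h⟩ := count_exists_point E hΔ r
    obtain ⟨hnP, hx⟩ := habove c r hr y h
    have hQ0 : (Point.some c yQ hQ : E.toAffine.Point) ≠ 0 := Point.some_ne_zero _
    rcases count_eq_or_eq_neg E hnP hQ0 hx with h' | h'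
    · exact ⟨Point.some r y h, h', rfl⟩
    · refine ⟨-(Point.some r y h), ?_, ?_⟩
      · rw [map_neg, h', neg_neg]
      · rw [count_x_neg, count_x_some]
  have hsurj : Function.Surjective ψ := by
    intro Q
    cases Q with
    | zero => exact ⟨0, map_zero ψ⟩
    | some c yQ hQ =>
      obtain ⟨r, hr⟩ := C_exists_root hdeg c
      obtain ⟨P, hP, -⟩ := hhit c yQ hQ r hr
      exact ⟨P, hP⟩
  refine ⟨hsurj, ?_⟩
  -- the count
  obtain ⟨c, hcB, hsep⟩ := count_exists_good hW hcop (count_m1 E).roots.toFinset
  have hm1 : (count_m1 E).eval c ≠ 0 := by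
    intro h0
    apply hcB
    rw [Multiset.mem_toFinset, mem_roots (count_m1_ne_zero E hΔ)]
    exact h0
  have hroots := C_ncard_roots hdeg c hsep
  obtain ⟨yQ, hQ⟩ := count_exists_point E hΔ c
  have hQneg := count_ne_neg E hQ hm1
  have hQ0 : (Point.some c yQ hQ : E.toAffine.Point) ≠ 0 := Point.some_ne_zero _
  have hmaps : ∀ P : E.toAffine.Point, ψ P = Point.some c yQ hQ →
      (F - C c * G).eval (count_x E P) = 0 := by
    intro P hP
    cases P with
    | zero =>
      exfalso
      apply hQ0
      rw [← hP]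
      exact map_zero ψ
    | some x y h =>
      have := hmul x y h c yQ hQ hP
      simp only [count_x_some, eval_sub, eval_mul, eval_C]
      rw [this, sub_self]
  have hne0 : ∀ P : E.toAffine.Point, ψ P = Point.some c yQ hQ → P ≠ 0 := by
    rintro P hP rfl
    apply hQ0
    rw [← hP]
    exact map_zero ψ
  have hinj : Set.InjOn (count_x E) {P : E.toAffine.Point | ψ P = Point.some c yQ hQ} := by
    intro P hP P' hP' hx
    rw [Set.mem_ofPred_eq] at hP hP'
    rcases count_eq_or_eq_neg E (hne0 P hP) (hne0 P' hP') hx with h | h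
    · exact h
    · exfalso
      apply hQneg
      rw [h, map_neg, hP'] at hP
      exact hP.symm
  have himage : count_x E '' {P : E.toAffine.Point | ψ P = Point.some c yQ hQ} =
      {r : k | (F - C c * G).eval r = 0} := by
    ext r
    constructor
    · rintro ⟨P, hP, rfl⟩
      exact hmaps P hP
    · intro hr
      obtain ⟨P, hP, hx⟩ := hhit c yQ hQ r hr
      exact ⟨P, hP, hx⟩
  have hS : {P : E.toAffine.Point | ψ P = Point.some c yQ hQ}.ncard = F.natDegree := by
    rw [← hroots, ← himage, hinj.ncard_image]
  obtain ⟨P₁, hP₁⟩ := hsurj (Point.some c yQ hQ)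
  have hST : {P : E.toAffine.Point | ψ P = Point.some c yQ hQ} =
      (fun t => P₁ + t) '' {P : E.toAffine.Point | ψ P = 0} := by
    ext P
    constructor
    · intro hP
      rw [Set.mem_ofPred_eq] at hP
      refine ⟨P - P₁, ?_, ?_⟩
      · rw [Set.mem_ofPred_eq, map_sub, hP, hP₁, sub_self]
      · simp
    · rintro ⟨t, ht, rfl⟩
      rw [Set.mem_ofPred_eq] at ht
      rw [Set.mem_ofPred_eq, map_add, ht, hP₁, add_zero]
  have hT : {P : E.toAffine.Point | ψ P = 0}.ncard = F.natDegree := by
    rw [← hS, hST, Set.ncard_image_of_injective _ (add_right_injective P₁)]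
  rw [← hT, ← Nat.card_coe_set_eq]
  exact Nat.card_congr (Equiv.subtypeEquivRight fun P => AddMonoidHom.mem_ker)

end Curve

end

end Fermat.Agent.EFrob
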