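import Fermat.Agent.EFrob.Skeleton

/-!
# P-EFROB (K): the points fixed by Frobenius

For a field `k` of characteristic `ℓ` and an integral Weierstrass curve `W`, the kernel of
`φ - 1` on `(W⁄k).Point` is the image of the points of the reduction over `ZMod ℓ`, hence has
`(W.reductionMod ℓ).card` elements.

Main result: `fixed : IfaceFixed`.
-/

set_option autoImplicit false

namespace Fermat.Agent.EFrob

open WeierstrassCurve WeierstrassCurve.Affine Polynomial

noncomputable section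

/-- The canonical embedding of the prime field `ZMod ℓ` into a field of characteristic `ℓ`. -/
def K_iota (ℓ : ℕ) [Fact ℓ.Prime] (k : Type) [Field k] [CharP k ℓ] : ZMod ℓ →+* k :=
  ZMod.castHom (dvd_refl ℓ) k

lemma K_iota_injective (ℓ : ℕ) [Fact ℓ.Prime] (k : Type) [Field k] [CharP k ℓ] :
    Function.Injective (K_iota ℓ k) :=
  (K_iota ℓ k).injective

lemma K_iota_pow (ℓ : ℕ) [Fact ℓ.Prime] (k : Type) [Field k] [CharP k ℓ] (a : ZMod ℓ) :
    K_iota ℓ k a ^ ℓ = K_iota ℓ k a := by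
  rw [← map_pow, ZMod.pow_card]

/-- An element `z` of a field of characteristic `ℓ` satisfies `z ^ ℓ = z` iff it lies in the
image of the prime field. -/
lemma K_pow_eq_self_iff (ℓ : ℕ) [Fact ℓ.Prime] (k : Type) [Field k] [CharP k ℓ] (z : k) :
    z ^ ℓ = z ↔ ∃ a : ZMod ℓ, K_iota ℓ k a = z := by
  rw [← Subfield.mem_bot_iff_pow_eq_self k ℓ, ← ZMod.fieldRange_castHom_eq_bot ℓ]
  exact RingHom.mem_fieldRange

/-- The inclusion of the points over the prime field. -/
def K_incl (ℓ : ℕ) [Fact ℓ.Prime] (k : Type) [Field k] [CharP k ℓ] [DecidableEq k]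
    (W : WeierstrassCurve ℤ) : (W⁄(ZMod ℓ)).Point →+ (W⁄k).Point :=
  Point.map (W' := W) (K_iota ℓ k).toIntAlgHom

lemma K_incl_injective (ℓ : ℕ) [Fact ℓ.Prime] (k : Type) [Field k] [CharP k ℓ] [DecidableEq k]
    (W : WeierstrassCurve ℤ) : Function.Injective (K_incl ℓ k W) :=
  Point.map_injective _

lemma K_frob_incl (ℓ : ℕ) [Fact ℓ.Prime] (k : Type) [Field k] [CharP k ℓ] [DecidableEq k]
    (W : WeierstrassCurve ℤ) (P : (W⁄(ZMod ℓ)).Point) :
    frob ℓ W (K_incl ℓ k W P) = K_incl ℓ k W P := by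
  have hcomp : (frobenius k ℓ).toIntAlgHom.comp (K_iota ℓ k).toIntAlgHom =
      (K_iota ℓ k).toIntAlgHom := AlgHom.ext fun a => K_iota_pow ℓ k a
  unfold frob K_incl
  rw [Point.map_map, hcomp]

lemma K_mem_ker_iff (ℓ : ℕ) [Fact ℓ.Prime] (k : Type) [Field k] [CharP k ℓ] [DecidableEq k]
    (W : WeierstrassCurve ℤ) (P : (W⁄k).Point) :
    P ∈ (lam ℓ W 0 1 (-1)).ker ↔ frob ℓ W P = P := by
  rw [AddMonoidHom.mem_ker, lam_apply, zero_smul, zero_add, one_smul, neg_one_smul,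
    ← sub_eq_add_neg, sub_eq_zero]

lemma K_exists_of_fixed (ℓ : ℕ) [Fact ℓ.Prime] (k : Type) [Field k] [CharP k ℓ] [DecidableEq k]
    (W : WeierstrassCurve ℤ) (P : (W⁄k).Point) (hP : frob ℓ W P = P) :
    ∃ Q : (W⁄(ZMod ℓ)).Point, K_incl ℓ k W Q = P := by
  rcases P with _ | ⟨x, y, h⟩
  · exact ⟨0, rfl⟩
  · have h1 : frob ℓ W (Point.some x y h) = Point.some ((frobenius k ℓ).toIntAlgHom x)
        ((frobenius k ℓ).toIntAlgHom y)
        ((WeierstrassCurve.Affine.baseChange_nonsingular W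
          (frobenius k ℓ).toIntAlgHom.injective ..).mpr h) := rfl
    rw [h1] at hP
    have hx : x ^ ℓ = x := (Point.some.inj hP).1
    have hy : y ^ ℓ = y := (Point.some.inj hP).2
    obtain ⟨a, rfl⟩ := (K_pow_eq_self_iff ℓ k x).mp hx
    obtain ⟨b, rfl⟩ := (K_pow_eq_self_iff ℓ k y).mp hy
    have h' : (W⁄(ZMod ℓ)).toAffine.Nonsingular a b :=
      (WeierstrassCurve.Affine.baseChange_nonsingular W
        (K_iota ℓ k).toIntAlgHom.injective a b).mp h
    exact ⟨Point.some a b h', rfl⟩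

/-- The points over the prime field are exactly the points fixed by Frobenius. -/
def K_equiv (ℓ : ℕ) [Fact ℓ.Prime] (k : Type) [Field k] [CharP k ℓ] [DecidableEq k]
    (W : WeierstrassCurve ℤ) : (W⁄(ZMod ℓ)).Point ≃ (lam (K := k) ℓ W 0 1 (-1)).ker :=
  Equiv.ofBijective
    (fun Q => ⟨K_incl ℓ k W Q, (K_mem_ker_iff ℓ k W _).mpr (K_frob_incl ℓ k W Q)⟩)
    ⟨fun Q₁ Q₂ h => K_incl_injective ℓ k W (congrArg Subtype.val h),
      fun P => by
        obtain ⟨Q, hQ⟩ := K_exists_of_fixed ℓ k W P.1 ((K_mem_ker_iff ℓ k W _).mp P.2)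
        exact ⟨Q, Subtype.ext hQ⟩⟩

/-- **(K)** The points fixed by Frobenius are the points of the reduction over `ZMod ℓ`. -/
theorem fixed : IfaceFixed := by
  intro ℓ _ k _ _ _ W
  exact (Nat.card_congr (K_equiv ℓ k W)).symm

end

end Fermat.Agent.EFrob
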