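import Fermat.Agent.EFrob.Skeleton

/-!
# P-EFROB, task F: the explicit formula for `x(φ_q G ∓ G)`

`G = (x, y)` the generic point of `W` over the function field of `W⁄k` (`char k = ℓ`),
`φ_q G = (x ^ q, y ^ q)` (`q = ℓ` or `q = ℓ ^ 2`).  Then
`x(φ_q G ∓ G) * (x ^ q - x) ^ 2 = F₀(x)` with `F₀ ∈ k[X]` monic of degree `2 q + 1`.

Proof: `x(φ_q G - G) (ξ - x)² = P₀ + Z` with `ξ = x ^ q`, `η = y ^ q`,
`P₀ = ξ² x + ξ x² + 2 a₂ ξ x + a₄ (ξ + x) + 2 a₆` and `Z = η ω - (a₁ ξ + a₃) ȳ`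
(`ȳ = -y - a₁ x - a₃`, `ω = 2 y + a₁ x + a₃`).  Writing `y ^ q = α(x) + β(x) y` (the same
`α, β` work for `ȳ`, the other root of `T² + (a₁ x + a₃) T - f(x)`) and using
`ȳ ^ q = -η - a₁ ξ - a₃`, the `y`-part of `Z` cancels.  Degrees: `2 deg α ≤ 3 q`,
`2 deg β + 3 ≤ 3 q`.

Main statement: `frobFormula : IfaceFrobFormula`.
-/

set_option autoImplicit false

namespace Fermat.Agent.EFrob

open WeierstrassCurve WeierstrassCurve.Affine Polynomial

noncomputable section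

/-! ## powers of a root of `T² + g T - f` -/

/-- `t ^ n = A_n + B_n t` for a root `t` of `T² + g T - f`. -/
def F_AB {k : Type} [Field k] (f g : k[X]) : ℕ → k[X] × k[X]
  | 0 => (1, 0)
  | n + 1 => ((F_AB f g n).2 * f, (F_AB f g n).1 - g * (F_AB f g n).2)

lemma F_pow_eq {k : Type} [Field k] {R : Type*} [CommRing R] [Algebra k R] (x t : R)
    (f g : k[X]) (h : t ^ 2 = aeval x f - aeval x g * t) (n : ℕ) :
    t ^ n = aeval x (F_AB f g n).1 + aeval x (F_AB f g n).2 * t := by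
  induction n with
  | zero => simp [F_AB]
  | succ n ih =>
    rw [pow_succ, ih]
    simp only [F_AB, map_mul, map_sub]
    linear_combination (aeval x (F_AB f g n).2) * h

lemma F_AB_deg {k : Type} [Field k] (f g : k[X]) (hf : f.natDegree ≤ 3) (hg : g.natDegree ≤ 1)
    (n : ℕ) :
    2 * (F_AB f g n).1.natDegree ≤ 3 * n ∧
      ((F_AB f g n).2 = 0 ∨ 2 * (F_AB f g n).2.natDegree + 3 ≤ 3 * n) := by
  induction n with
  | zero => simp [F_AB]
  | succ n ih =>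
    obtain ⟨ih1, ih2⟩ := ih
    constructor
    · simp only [F_AB]
      rcases ih2 with h0 | h2
      · rw [h0]; simp
      · have := natDegree_mul_le (p := (F_AB f g n).2) (q := f)
        omega
    · simp only [F_AB]
      by_cases h : (F_AB f g n).1 - g * (F_AB f g n).2 = 0
      · exact Or.inl h
      · right
        have h1 := natDegree_sub_le (F_AB f g n).1 (g * (F_AB f g n).2)
        have h2 : (g * (F_AB f g n).2).natDegree ≤ 1 + (F_AB f g n).2.natDegree :=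
          (natDegree_mul_le).trans (by omega)
        rcases ih2 with h0 | h3
        · rw [h0] at h1 h2
          simp only [mul_zero, natDegree_zero] at h1 h2
          have h5 : ((F_AB f g n).1 - g * (F_AB f g n).2).natDegree ≤
              (F_AB f g n).1.natDegree := by
            simp [h0]
          omega
        · have : ((F_AB f g n).1 - g * (F_AB f g n).2).natDegree
              ≤ max (F_AB f g n).1.natDegree (1 + (F_AB f g n).2.natDegree) :=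
            h1.trans (max_le_max le_rfl h2)
          rcases le_max_iff.mp this with h4 | h4 <;> omega

/-! ## the key identity in a field -/

lemma F_key_minus {K : Type*} [Field K] (a₁ a₂ a₃ a₄ a₆ x y ξ η α β lam : K)
    (h1 : y ^ 2 + a₁ * x * y + a₃ * y = x ^ 3 + a₂ * x ^ 2 + a₄ * x + a₆)
    (h2 : η ^ 2 + a₁ * ξ * η + a₃ * η = ξ ^ 3 + a₂ * ξ ^ 2 + a₄ * ξ + a₆)
    (h3 : η = α + β * y)
    (h4 : -η - a₁ * ξ - a₃ = α + β * (-y - a₁ * x - a₃))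
    (hlam : lam * (ξ - x) = η - (-y - a₁ * x - a₃)) :
    (lam ^ 2 + a₁ * lam - a₂ - ξ - x) * (ξ - x) ^ 2 =
      (ξ ^ 2 * x + ξ * x ^ 2 + 2 * a₂ * ξ * x + a₄ * (ξ + x) + 2 * a₆) +
      (α * (a₁ * x + a₃) + 2 * β * (x ^ 3 + a₂ * x ^ 2 + a₄ * x + a₆) +
        (a₁ * ξ + a₃) * (a₁ * x + a₃)) := by
  linear_combination ((lam * (ξ - x) + (η - (-y - a₁ * x - a₃))) + a₁ * (ξ - x)) * hlam +
    (1 + 2 * β) * h1 + h2 + (y + (a₁ * x + a₃)) * h3 - y * h4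

lemma F_key_plus {K : Type*} [Field K] (a₁ a₂ a₃ a₄ a₆ x y ξ η α β lam : K)
    (h1 : y ^ 2 + a₁ * x * y + a₃ * y = x ^ 3 + a₂ * x ^ 2 + a₄ * x + a₆)
    (h2 : η ^ 2 + a₁ * ξ * η + a₃ * η = ξ ^ 3 + a₂ * ξ ^ 2 + a₄ * ξ + a₆)
    (h3 : η = α + β * y)
    (h4 : -η - a₁ * ξ - a₃ = α + β * (-y - a₁ * x - a₃))
    (hlam : lam * (ξ - x) = η - y) :
    (lam ^ 2 + a₁ * lam - a₂ - ξ - x) * (ξ - x) ^ 2 =
      (ξ ^ 2 * x + ξ * x ^ 2 + 2 * a₂ * ξ * x + a₄ * (ξ + x) + 2 * a₆) +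
      (-(α * (a₁ * x + a₃)) - 2 * β * (x ^ 3 + a₂ * x ^ 2 + a₄ * x + a₆)) := by
  linear_combination ((lam * (ξ - x) + (η - y)) + a₁ * (ξ - x)) * hlam +
    (1 - 2 * β) * h1 + h2 - (y + (a₁ * x + a₃)) * h3 + y * h4


/-! ## polynomials -/

lemma F_monic_aux {k : Type} [Field k] (n : ℕ) (R : k[X]) (hR : R.natDegree < n) :
    (X ^ n + R).Monic ∧ (X ^ n + R).natDegree = n := by
  have hdeg : R.degree < (n : WithBot ℕ) :=
    lt_of_le_of_lt degree_le_natDegree (by exact_mod_cast hR)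
  refine ⟨monic_X_pow_add hdeg, ?_⟩
  rw [natDegree_add_eq_left_of_natDegree_lt (by rwa [natDegree_X_pow]), natDegree_X_pow]

/-- the explicit part of the numerator (without the leading term `X ^ (2 q + 1)`). -/
def F_P0 {k : Type} [Field k] (q : ℕ) (a₂ a₄ a₆ : k) : k[X] :=
  X ^ q * X ^ 2 + C (2 * a₂) * X ^ q * X + C a₄ * (X ^ q + X) + C (2 * a₆)

lemma F_P0_deg {k : Type} [Field k] (q : ℕ) (hq : 2 ≤ q) (a₂ a₄ a₆ : k) :
    (F_P0 q a₂ a₄ a₆).natDegree ≤ 2 * q := by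
  unfold F_P0
  have h2q : q + 2 ≤ 2 * q := by omega
  refine (natDegree_add_le _ _).trans (max_le ((natDegree_add_le _ _).trans (max_le
    ((natDegree_add_le _ _).trans (max_le ?_ ?_)) ?_)) ?_)
  · refine (natDegree_mul_le).trans ?_
    simp only [natDegree_X_pow]
    omega
  · refine (natDegree_mul_le).trans ?_
    have := natDegree_mul_le (p := C (2 * a₂)) (q := (X : k[X]) ^ q)
    simp only [natDegree_C, natDegree_X_pow, zero_add] at this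
    have h1 : (X : k[X]).natDegree ≤ 1 := natDegree_X_le
    omega
  · refine (natDegree_mul_le).trans ?_
    have := natDegree_add_le ((X : k[X]) ^ q) X
    simp only [natDegree_X_pow] at this
    have h1 : (X : k[X]).natDegree ≤ 1 := natDegree_X_le
    simp only [natDegree_C, zero_add]
    have : ((X : k[X]) ^ q + X).natDegree ≤ q := this.trans (max_le le_rfl (h1.trans (by omega)))
    omega
  · rw [natDegree_C]; exact Nat.zero_le _

/-- `f = X³ + a₂ X² + a₄ X + a₆` -/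
def F_f {k : Type} [Field k] (a₂ a₄ a₆ : k) : k[X] :=
  X ^ 3 + C a₂ * X ^ 2 + C a₄ * X + C a₆

/-- `g = a₁ X + a₃` -/
def F_g {k : Type} [Field k] (a₁ a₃ : k) : k[X] := C a₁ * X + C a₃

lemma F_f_deg {k : Type} [Field k] (a₂ a₄ a₆ : k) : (F_f a₂ a₄ a₆).natDegree ≤ 3 := by
  unfold F_f
  compute_degree

lemma F_g_deg {k : Type} [Field k] (a₁ a₃ : k) : (F_g a₁ a₃).natDegree ≤ 1 := by
  unfold F_g
  compute_degree

/-- the correction term for `φ_q G - G`. -/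
def F_Zm {k : Type} [Field k] (q : ℕ) (a₁ a₂ a₃ a₄ a₆ : k) : k[X] :=
  (F_AB (F_f a₂ a₄ a₆) (F_g a₁ a₃) q).1 * F_g a₁ a₃ +
    C 2 * (F_AB (F_f a₂ a₄ a₆) (F_g a₁ a₃) q).2 * F_f a₂ a₄ a₆ +
    (C a₁ * X ^ q + C a₃) * F_g a₁ a₃

/-- the correction term for `φ_q G + G`. -/
def F_Zp {k : Type} [Field k] (q : ℕ) (a₁ a₂ a₃ a₄ a₆ : k) : k[X] :=
  -((F_AB (F_f a₂ a₄ a₆) (F_g a₁ a₃) q).1 * F_g a₁ a₃) -
    C 2 * (F_AB (F_f a₂ a₄ a₆) (F_g a₁ a₃) q).2 * F_f a₂ a₄ a₆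

lemma F_Ag_deg {k : Type} [Field k] (q : ℕ) (hq : 2 ≤ q) (a₁ a₂ a₃ a₄ a₆ : k) :
    ((F_AB (F_f a₂ a₄ a₆) (F_g a₁ a₃) q).1 * F_g a₁ a₃).natDegree ≤ 2 * q := by
  have h := (F_AB_deg (F_f a₂ a₄ a₆) (F_g a₁ a₃) (F_f_deg _ _ _) (F_g_deg _ _) q).1
  have hg := F_g_deg a₁ a₃
  refine (natDegree_mul_le).trans ?_
  omega

lemma F_Bf_deg {k : Type} [Field k] (q : ℕ) (hq : 2 ≤ q) (a₁ a₂ a₃ a₄ a₆ : k) :
    (C 2 * (F_AB (F_f a₂ a₄ a₆) (F_g a₁ a₃) q).2 * F_f a₂ a₄ a₆).natDegree ≤ 2 * q := by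
  have h := (F_AB_deg (F_f a₂ a₄ a₆) (F_g a₁ a₃) (F_f_deg _ _ _) (F_g_deg _ _) q).2
  have hf := F_f_deg a₂ a₄ a₆
  rcases h with h0 | h
  · rw [h0]; simp
  · refine (natDegree_mul_le).trans ?_
    have := natDegree_mul_le (p := (C 2 : k[X])) (q := (F_AB (F_f a₂ a₄ a₆) (F_g a₁ a₃) q).2)
    simp only [natDegree_C, zero_add] at this
    omega

lemma F_Zm_deg {k : Type} [Field k] (q : ℕ) (hq : 2 ≤ q) (a₁ a₂ a₃ a₄ a₆ : k) :
    (F_Zm q a₁ a₂ a₃ a₄ a₆).natDegree ≤ 2 * q := by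
  unfold F_Zm
  refine (natDegree_add_le _ _).trans (max_le ((natDegree_add_le _ _).trans (max_le
    (F_Ag_deg q hq _ _ _ _ _) (F_Bf_deg q hq _ _ _ _ _))) ?_)
  refine (natDegree_mul_le).trans ?_
  have hg := F_g_deg a₁ a₃
  have h1 : (C a₁ * X ^ q + C a₃ : k[X]).natDegree ≤ q := by compute_degree
  omega

lemma F_Zp_deg {k : Type} [Field k] (q : ℕ) (hq : 2 ≤ q) (a₁ a₂ a₃ a₄ a₆ : k) :
    (F_Zp q a₁ a₂ a₃ a₄ a₆).natDegree ≤ 2 * q := by
  unfold F_Zp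
  refine (natDegree_sub_le _ _).trans (max_le ?_ (F_Bf_deg q hq _ _ _ _ _))
  rw [natDegree_neg]
  exact F_Ag_deg q hq _ _ _ _ _

/-- the numerator. -/
def F_num {k : Type} [Field k] (q : ℕ) (a₁ a₂ a₃ a₄ a₆ : k) (minus : Bool) : k[X] :=
  X ^ (2 * q + 1) + (F_P0 q a₂ a₄ a₆ + if minus then F_Zm q a₁ a₂ a₃ a₄ a₆
    else F_Zp q a₁ a₂ a₃ a₄ a₆)

lemma F_num_monic {k : Type} [Field k] (q : ℕ) (hq : 2 ≤ q) (a₁ a₂ a₃ a₄ a₆ : k)
    (minus : Bool) :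
    (F_num q a₁ a₂ a₃ a₄ a₆ minus).Monic ∧
      (F_num q a₁ a₂ a₃ a₄ a₆ minus).natDegree = 2 * q + 1 := by
  refine F_monic_aux _ _ (Nat.lt_succ_of_le ?_)
  refine (natDegree_add_le _ _).trans (max_le (F_P0_deg q hq _ _ _) ?_)
  cases minus
  · exact F_Zp_deg q hq _ _ _ _ _
  · exact F_Zm_deg q hq _ _ _ _ _


/-! ## the generic point -/

section Gen

variable (k : Type) [Field k] (W : WeierstrassCurve ℤ)

lemma F_aeval_gx (p : k[X]) :
    aeval (gx k W) p = algebraMap (W⁄k).toAffine.CoordinateRing (KK k W)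
      (algebraMap k[X] (W⁄k).toAffine.CoordinateRing p) := by
  have h1 : gx k W = algebraMap (W⁄k).toAffine.CoordinateRing (KK k W)
      (algebraMap k[X] (W⁄k).toAffine.CoordinateRing X) := rfl
  rw [h1, aeval_algebraMap_apply, aeval_algebraMap_apply, aeval_X_left_apply]

lemma F_aeval_gx_injective : Function.Injective (aeval (R := k) (gx k W)) := by
  intro p p' h
  rw [F_aeval_gx, F_aeval_gx] at h
  exact FaithfulSMul.algebraMap_injective k[X] (W⁄k).toAffine.CoordinateRing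
    (IsFractionRing.injective (W⁄k).toAffine.CoordinateRing (KK k W) h)

lemma F_gx_pow_ne (q : ℕ) (hq : 2 ≤ q) : gx k W ^ q ≠ gx k W := by
  intro h
  have h1 : aeval (gx k W) ((X : k[X]) ^ q) = aeval (gx k W) (X : k[X]) := by
    simp [h]
  have h2 := F_aeval_gx_injective k W h1
  have h3 := congrArg Polynomial.natDegree h2
  rw [natDegree_X_pow, natDegree_X] at h3
  omega

end Gen


section Main

variable (k : Type) [Field k] (W : WeierstrassCurve ℤ)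

lemma F_coeff (a : ℤ) : aeval (gx k W) (C ((a : ℤ) : k)) = ((a : ℤ) : KK k W) := by
  rw [aeval_C]
  exact map_intCast (algebraMap k (KK k W)) a

lemma F_a₁ : (W⁄(KK k W)).toAffine.a₁ = ((W.a₁ : ℤ) : KK k W) := by
  change algebraMap ℤ (KK k W) W.a₁ = _
  exact eq_intCast _ _

lemma F_a₂ : (W⁄(KK k W)).toAffine.a₂ = ((W.a₂ : ℤ) : KK k W) := by
  change algebraMap ℤ (KK k W) W.a₂ = _
  exact eq_intCast _ _

lemma F_a₃ : (W⁄(KK k W)).toAffine.a₃ = ((W.a₃ : ℤ) : KK k W) := by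
  change algebraMap ℤ (KK k W) W.a₃ = _
  exact eq_intCast _ _

lemma F_a₄ : (W⁄(KK k W)).toAffine.a₄ = ((W.a₄ : ℤ) : KK k W) := by
  change algebraMap ℤ (KK k W) W.a₄ = _
  exact eq_intCast _ _

lemma F_a₆ : (W⁄(KK k W)).toAffine.a₆ = ((W.a₆ : ℤ) : KK k W) := by
  change algebraMap ℤ (KK k W) W.a₆ = _
  exact eq_intCast _ _

/-- the general formula: `Q = φ_q G`, `φ_q` the `q`-power map (a ring homomorphism). -/
theorem F_general (hW : Good k W) (q : ℕ) (hq : 2 ≤ q) (φ : KK k W →+* KK k W)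
    (hφ : ∀ z, φ z = z ^ q)
    (hQ : (W⁄(KK k W)).toAffine.Nonsingular (gx k W ^ q) (gy k W ^ q)) (minus : Bool) :
    ∃ F₀ : k[X], F₀.Monic ∧ F₀.natDegree = 2 * q + 1 ∧
      ∃ (x₃ y₃ : KK k W) (h : (W⁄(KK k W)).toAffine.Nonsingular x₃ y₃),
        Point.some (gx k W ^ q) (gy k W ^ q) hQ +
            (if minus then -genPt k W hW else genPt k W hW) = Point.some x₃ y₃ h ∧
          x₃ * (gx k W ^ q - gx k W) ^ 2 = aeval (gx k W) F₀ := by
  have hne : gx k W ^ q ≠ gx k W := F_gx_pow_ne k W q hq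
  have hne' : gx k W ^ q - gx k W ≠ 0 := sub_ne_zero.mpr hne
  obtain ⟨hmon, hdeg⟩ := F_num_monic q hq ((W.a₁ : ℤ) : k) ((W.a₂ : ℤ) : k) ((W.a₃ : ℤ) : k)
    ((W.a₄ : ℤ) : k) ((W.a₆ : ℤ) : k) minus
  refine ⟨_, hmon, hdeg, ?_⟩
  -- the equations
  have h1 := (equation_iff _ _).mp (gen_equation k W)
  have h2 := (equation_iff _ _).mp hQ.left
  rw [F_a₁, F_a₂, F_a₃, F_a₄, F_a₆] at h1 h2
  -- the polynomials `f`, `g`
  have hf : aeval (gx k W) (F_f ((W.a₂ : ℤ) : k) ((W.a₄ : ℤ) : k) ((W.a₆ : ℤ) : k)) =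
      gx k W ^ 3 + ((W.a₂ : ℤ) : KK k W) * gx k W ^ 2 + ((W.a₄ : ℤ) : KK k W) * gx k W +
        ((W.a₆ : ℤ) : KK k W) := by
    simp only [F_f, map_add, map_mul, map_pow, aeval_X, F_coeff]
  have hg : aeval (gx k W) (F_g ((W.a₁ : ℤ) : k) ((W.a₃ : ℤ) : k)) =
      ((W.a₁ : ℤ) : KK k W) * gx k W + ((W.a₃ : ℤ) : KK k W) := by
    simp only [F_g, map_add, map_mul, aeval_X, F_coeff]
  have hy2 : gy k W ^ 2 =
      aeval (gx k W) (F_f ((W.a₂ : ℤ) : k) ((W.a₄ : ℤ) : k) ((W.a₆ : ℤ) : k)) -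
      aeval (gx k W) (F_g ((W.a₁ : ℤ) : k) ((W.a₃ : ℤ) : k)) * gy k W := by
    rw [hf, hg]; linear_combination h1
  have hyb2 : (-gy k W - ((W.a₁ : ℤ) : KK k W) * gx k W - ((W.a₃ : ℤ) : KK k W)) ^ 2 =
      aeval (gx k W) (F_f ((W.a₂ : ℤ) : k) ((W.a₄ : ℤ) : k) ((W.a₆ : ℤ) : k)) -
      aeval (gx k W) (F_g ((W.a₁ : ℤ) : k) ((W.a₃ : ℤ) : k)) *
        (-gy k W - ((W.a₁ : ℤ) : KK k W) * gx k W - ((W.a₃ : ℤ) : KK k W)) := by
    rw [hf, hg]; linear_combination h1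
  have h3 := F_pow_eq (gx k W) (gy k W) _ _ hy2 q
  have h4' := F_pow_eq (gx k W) _ _ _ hyb2 q
  have h4 : -gy k W ^ q - ((W.a₁ : ℤ) : KK k W) * gx k W ^ q - ((W.a₃ : ℤ) : KK k W) =
      (-gy k W - ((W.a₁ : ℤ) : KK k W) * gx k W - ((W.a₃ : ℤ) : KK k W)) ^ q := by
    rw [← hφ (-gy k W - ((W.a₁ : ℤ) : KK k W) * gx k W - ((W.a₃ : ℤ) : KK k W)), map_sub,
      map_sub, map_neg, map_mul, map_intCast, map_intCast, hφ, hφ]
  rw [← h4] at h4'
  cases minus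
  · -- `φ_q G + G`
    simp only [Bool.false_eq_true, if_false]
    have hG := (equation_iff_nonsingular_of_Δ_ne_zero (good_KK k W hW)).mp (gen_equation k W)
    have key := Point.add_of_X_ne (h₁ := hQ) (h₂ := hG) hne
    refine ⟨_, _, nonsingular_add hQ hG (fun hxy => hne hxy.left), key, ?_⟩
    rw [slope_of_X_ne hne, addX, F_a₁, F_a₂]
    have hlam : (gy k W ^ q - gy k W) / (gx k W ^ q - gx k W) * (gx k W ^ q - gx k W) =
        gy k W ^ q - gy k W := div_mul_cancel₀ _ hne'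
    rw [F_key_plus _ _ _ _ _ (gx k W) (gy k W) (gx k W ^ q) (gy k W ^ q) _ _ _ h1 h2 h3 h4' hlam]
    simp only [F_num, F_P0, F_Zp, Bool.false_eq_true, if_false, map_add, map_mul, map_pow,
      map_sub, map_neg, aeval_X, hf, hg, map_ofNat, map_intCast]
    ring
  · -- `φ_q G - G`
    simp only [if_true]
    have hG := (equation_iff_nonsingular_of_Δ_ne_zero (good_KK k W hW)).mp (gen_equation k W)
    have hnegG : -genPt k W hW = Point.some (gx k W)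
        ((W⁄(KK k W)).toAffine.negY (gx k W) (gy k W)) ((nonsingular_neg ..).mpr hG) :=
      Point.neg_some hG
    rw [hnegG]
    have key := Point.add_of_X_ne (h₁ := hQ) (h₂ := (nonsingular_neg ..).mpr hG) hne
    refine ⟨_, _, nonsingular_add hQ ((nonsingular_neg ..).mpr hG) (fun hxy => hne hxy.left),
      key, ?_⟩
    rw [slope_of_X_ne hne, addX, negY, F_a₁, F_a₂, F_a₃]
    have hlam : (gy k W ^ q - (-gy k W - ((W.a₁ : ℤ) : KK k W) * gx k W -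
        ((W.a₃ : ℤ) : KK k W))) / (gx k W ^ q - gx k W) * (gx k W ^ q - gx k W) =
        gy k W ^ q - (-gy k W - ((W.a₁ : ℤ) : KK k W) * gx k W - ((W.a₃ : ℤ) : KK k W)) :=
      div_mul_cancel₀ _ hne'
    rw [F_key_minus _ _ _ _ _ (gx k W) (gy k W) (gx k W ^ q) (gy k W ^ q) _ _ _ h1 h2 h3 h4' hlam]
    simp only [F_num, F_P0, F_Zm, if_true, map_add, map_mul, map_pow,
      aeval_X, hf, hg, map_ofNat, map_intCast]
    ring


lemma F_frob_gen (ℓ : ℕ) [Fact ℓ.Prime] [CharP k ℓ] (hW : Good k W) :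
    ∃ h : (W⁄(KK k W)).toAffine.Nonsingular (gx k W ^ ℓ) (gy k W ^ ℓ),
      frob ℓ W (genPt k W hW) = Point.some (gx k W ^ ℓ) (gy k W ^ ℓ) h :=
  ⟨_, rfl⟩

lemma F_frob_frob_gen (ℓ : ℕ) [Fact ℓ.Prime] [CharP k ℓ] (hW : Good k W) :
    ∃ h : (W⁄(KK k W)).toAffine.Nonsingular (gx k W ^ (ℓ ^ 2)) (gy k W ^ (ℓ ^ 2)),
      frob ℓ W (frob ℓ W (genPt k W hW)) =
        Point.some (gx k W ^ (ℓ ^ 2)) (gy k W ^ (ℓ ^ 2)) h := by
  have h : frob ℓ W (frob ℓ W (genPt k W hW)) =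
      Point.some ((gx k W ^ ℓ) ^ ℓ) ((gy k W ^ ℓ) ^ ℓ) _ := rfl
  have e1 : (gx k W ^ ℓ) ^ ℓ = gx k W ^ (ℓ ^ 2) := by rw [← pow_mul, sq]
  have e2 : (gy k W ^ ℓ) ^ ℓ = gy k W ^ (ℓ ^ 2) := by rw [← pow_mul, sq]
  rw [h]
  generalize_proofs hns
  revert hns
  rw [e1, e2]
  intro hns
  exact ⟨hns, rfl⟩

end Main

/-- **(F)** the explicit formula for `x(φ_q G ∓ G)`. -/
theorem frobFormula : IfaceFrobFormula := by
  intro ℓ _ k _ _ W hW
  have hℓ : 2 ≤ ℓ := (Fact.out : ℓ.Prime).two_le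
  constructor
  · intro ε hε
    obtain ⟨hQ, hfr⟩ := F_frob_gen k W ℓ hW
    rcases hε with rfl | rfl
    · obtain ⟨F₀, hm, hd, x₃, y₃, h, he, hx⟩ :=
        F_general k W hW ℓ hℓ (frobenius (KK k W) ℓ) (frobenius_def ℓ) hQ false
      refine ⟨F₀, hm, hd, x₃, y₃, h, ?_, hx⟩
      rw [lam_apply, zero_smul, zero_add, one_smul, one_smul, hfr]
      simpa using he
    · obtain ⟨F₀, hm, hd, x₃, y₃, h, he, hx⟩ :=
        F_general k W hW ℓ hℓ (frobenius (KK k W) ℓ) (frobenius_def ℓ) hQ true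
      refine ⟨F₀, hm, hd, x₃, y₃, h, ?_, hx⟩
      rw [lam_apply, zero_smul, zero_add, one_smul, neg_smul, one_smul, hfr]
      simpa using he
  · obtain ⟨hQ, hfr⟩ := F_frob_frob_gen k W ℓ hW
    have hq : 2 ≤ ℓ ^ 2 := by nlinarith
    obtain ⟨F₀, hm, hd, x₃, y₃, h, he, hx⟩ :=
      F_general k W hW (ℓ ^ 2) hq ((frobenius (KK k W) ℓ).comp (frobenius (KK k W) ℓ))
        (fun z => by
          rw [RingHom.comp_apply, frobenius_def, frobenius_def, ← pow_mul, sq]) hQ true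
    refine ⟨F₀, hm, hd, x₃, y₃, h, ?_, hx⟩
    rw [lam_apply, one_smul, zero_smul, add_zero, neg_smul, one_smul, hfr]
    simpa using he

end

end Fermat.Agent.EFrob
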