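import Fermat.Agent.EFrob.Skeleton

/-!
# P-EFROB, task H: the parallelogram law for the degree of the `x`-coordinate

For points `A`, `B` of `W` over the function field `KK k W` whose `x`-coordinates are rational
functions of `x` (`IsXRep`), the degrees `h(P) = max (deg F) (deg G)` of the reduced
representations `x(P) = F(x) / G(x)` satisfy `h(A + B) + h(A - B) = 2 h(A) + 2 h(B)`.

Proof: the triple `S(a, b) = (a₁ b₁, a₁ b₂ + a₂ b₁, a₂ b₂)` of a pair of coprime pairs is primitive
of height `h(a) + h(b)` (Gauss); the quadratic map `addSubMap` has no base point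
(`addSubMapCoeff_condition`), so it maps primitive triples to primitive triples and doubles the
height; by `IfaceAddSub` the triples `addSubMap (S(a, b))` and `S(c, e)` are proportional after
substituting the transcendental `x`, hence equal up to a unit.
-/

set_option autoImplicit false

namespace Fermat.Agent.EFrob

open WeierstrassCurve WeierstrassCurve.Affine Polynomial

noncomputable section

section Poly

variable {k : Type} [Field k]

/-- the height of a triple of polynomials. -/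
def H_ht (T : Fin 3 → k[X]) : ℕ := Finset.univ.sup fun i => (T i).natDegree

/-- the symmetric product of two pairs. -/
def H_S (p₁ p₂ q₁ q₂ : k[X]) : Fin 3 → k[X] := ![p₁ * q₁, p₁ * q₂ + p₂ * q₁, p₂ * q₂]

/-- primitive triples. -/
def H_Prim (T : Fin 3 → k[X]) : Prop := Ideal.span (Set.range T) = ⊤

lemma H_natDegree_le_ht (T : Fin 3 → k[X]) (i : Fin 3) : (T i).natDegree ≤ H_ht T :=
  Finset.le_sup (f := fun i => (T i).natDegree) (Finset.mem_univ i)

lemma H_ht_le {T : Fin 3 → k[X]} {n : ℕ} (h : ∀ i, (T i).natDegree ≤ n) : H_ht T ≤ n :=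
  Finset.sup_le fun i _ => h i

lemma H_exists_ht (T : Fin 3 → k[X]) : ∃ i, (T i).natDegree = H_ht T := by
  obtain ⟨i, -, hi⟩ := Finset.exists_mem_eq_sup Finset.univ Finset.univ_nonempty
    (fun i => (T i).natDegree)
  exact ⟨i, hi.symm⟩

/-- **Gauss**, primitivity: the symmetric product of two coprime pairs is primitive. -/
lemma H_prim_S {p₁ p₂ q₁ q₂ : k[X]} (hp : IsCoprime p₁ p₂) (hq : IsCoprime q₁ q₂) :
    H_Prim (H_S p₁ p₂ q₁ q₂) := by
  set I : Ideal k[X] := Ideal.span (Set.range (H_S p₁ p₂ q₁ q₂)) with hI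
  have h0 : p₁ * q₁ ∈ I := Ideal.subset_span ⟨0, rfl⟩
  have h1 : p₁ * q₂ + p₂ * q₁ ∈ I := Ideal.subset_span ⟨1, rfl⟩
  have h2 : p₂ * q₂ ∈ I := Ideal.subset_span ⟨2, rfl⟩
  have h3 : (p₁ * q₂) ^ 2 ∈ I := by
    have : (p₁ * q₂) ^ 2 = (p₁ * q₂) * (p₁ * q₂ + p₂ * q₁) - (p₁ * q₁) * (p₂ * q₂) := by ring
    rw [this]
    exact I.sub_mem (I.mul_mem_left _ h1) (I.mul_mem_left _ h2)
  have h4 : (p₂ * q₁) ^ 2 ∈ I := by
    have : (p₂ * q₁) ^ 2 = (p₂ * q₁) * (p₁ * q₂ + p₂ * q₁) - (p₁ * q₁) * (p₂ * q₂) := by ring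
    rw [this]
    exact I.sub_mem (I.mul_mem_left _ h1) (I.mul_mem_left _ h2)
  obtain ⟨u₁, u₂, hu⟩ := hp
  obtain ⟨v₁, v₂, hv⟩ := hq
  have hone : (1 : k[X]) ∈ I.radical := by
    have e : (1 : k[X]) = u₁ * v₁ * (p₁ * q₁) + u₁ * v₂ * (p₁ * q₂) + u₂ * v₁ * (p₂ * q₁)
        + u₂ * v₂ * (p₂ * q₂) := by
      calc (1 : k[X]) = (u₁ * p₁ + u₂ * p₂) * (v₁ * q₁ + v₂ * q₂) := by rw [hu, hv, one_mul]
        _ = _ := by ring
    rw [e]
    refine add_mem (add_mem (add_mem ?_ ?_) ?_) ?_
    · exact Ideal.mul_mem_left _ _ (Ideal.le_radical h0)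
    · exact Ideal.mul_mem_left _ _ ⟨2, h3⟩
    · exact Ideal.mul_mem_left _ _ ⟨2, h4⟩
    · exact Ideal.mul_mem_left _ _ (Ideal.le_radical h2)
  have : I.radical = ⊤ := (Ideal.eq_top_iff_one _).mpr hone
  exact Ideal.radical_eq_top.mp this

/-- a pair which is not `(0, 0)` has a nonzero coefficient in degree `max (deg) (deg)`. -/
lemma H_exists_coeff_ne_zero {p₁ p₂ : k[X]} (hp : IsCoprime p₁ p₂) :
    p₁.coeff (max p₁.natDegree p₂.natDegree) ≠ 0 ∨
      p₂.coeff (max p₁.natDegree p₂.natDegree) ≠ 0 := by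
  rcases le_total p₂.natDegree p₁.natDegree with h | h
  · rw [max_eq_left h]
    by_cases h1 : p₁ = 0
    · right
      subst h1
      have hu : IsUnit p₂ := isCoprime_zero_left.mp hp
      simp only [natDegree_zero]
      obtain ⟨r, hr, rfl⟩ := Polynomial.isUnit_iff.mp hu
      rw [coeff_C_zero]
      exact hr.ne_zero
    · left
      exact leadingCoeff_ne_zero.mpr h1
  · rw [max_eq_right h]
    by_cases h2 : p₂ = 0
    · left
      subst h2
      have hu : IsUnit p₁ := isCoprime_zero_right.mp hp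
      simp only [natDegree_zero]
      obtain ⟨r, hr, rfl⟩ := Polynomial.isUnit_iff.mp hu
      rw [coeff_C_zero]
      exact hr.ne_zero
    · right
      exact leadingCoeff_ne_zero.mpr h2

/-- **Gauss**, height: the height of the symmetric product of two coprime pairs is the sum of
the heights. -/
lemma H_ht_S {p₁ p₂ q₁ q₂ : k[X]} (hp : IsCoprime p₁ p₂) (hq : IsCoprime q₁ q₂) :
    H_ht (H_S p₁ p₂ q₁ q₂) =
      max p₁.natDegree p₂.natDegree + max q₁.natDegree q₂.natDegree := by
  set m := max p₁.natDegree p₂.natDegree with hm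
  set n := max q₁.natDegree q₂.natDegree with hn
  have hp1 : p₁.natDegree ≤ m := le_max_left _ _
  have hp2 : p₂.natDegree ≤ m := le_max_right _ _
  have hq1 : q₁.natDegree ≤ n := le_max_left _ _
  have hq2 : q₂.natDegree ≤ n := le_max_right _ _
  apply le_antisymm
  · apply H_ht_le
    intro i
    fin_cases i
    · exact natDegree_mul_le.trans (add_le_add hp1 hq1)
    · refine (natDegree_add_le _ _).trans (max_le ?_ ?_)
      · exact natDegree_mul_le.trans (add_le_add hp1 hq2)
      · exact natDegree_mul_le.trans (add_le_add hp2 hq1)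
    · exact natDegree_mul_le.trans (add_le_add hp2 hq2)
  · -- some coefficient in degree `m + n` is nonzero
    have c0 : (H_S p₁ p₂ q₁ q₂ 0).coeff (m + n) = p₁.coeff m * q₁.coeff n :=
      coeff_mul_add_eq_of_natDegree_le hp1 hq1
    have c1 : (H_S p₁ p₂ q₁ q₂ 1).coeff (m + n) =
        p₁.coeff m * q₂.coeff n + p₂.coeff m * q₁.coeff n := by
      show (p₁ * q₂ + p₂ * q₁).coeff (m + n) = _
      rw [coeff_add, coeff_mul_add_eq_of_natDegree_le hp1 hq2,
        coeff_mul_add_eq_of_natDegree_le hp2 hq1]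
    have c2 : (H_S p₁ p₂ q₁ q₂ 2).coeff (m + n) = p₂.coeff m * q₂.coeff n :=
      coeff_mul_add_eq_of_natDegree_le hp2 hq2
    have key : ∃ i, (H_S p₁ p₂ q₁ q₂ i).coeff (m + n) ≠ 0 := by
      by_contra hcon
      simp only [not_exists, not_not] at hcon
      have e0 := hcon 0
      have e1 := hcon 1
      have e2 := hcon 2
      rw [c0] at e0
      rw [c1] at e1
      rw [c2] at e2
      rcases H_exists_coeff_ne_zero hp with ha | ha <;>
        rcases H_exists_coeff_ne_zero hq with hb | hb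
      · exact mul_ne_zero ha hb e0
      · have h1 : q₁.coeff n = 0 := (mul_eq_zero.mp e0).resolve_left ha
        rw [h1, mul_zero, add_zero] at e1
        exact mul_ne_zero ha hb e1
      · have h1 : p₁.coeff m = 0 := (mul_eq_zero.mp e0).resolve_right hb
        rw [h1, zero_mul, zero_add] at e1
        exact mul_ne_zero ha hb e1
      · exact mul_ne_zero ha hb e2
    obtain ⟨i, hi⟩ := key
    exact (le_natDegree_of_ne_zero hi).trans (H_natDegree_le_ht _ i)

/-- two proportional primitive triples have the same height. -/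
lemma H_ht_eq_of_prop {T S : Fin 3 → k[X]} (hT : H_Prim T) (hS : H_Prim S)
    (h : ∀ i j, T i * S j = T j * S i) : H_ht T = H_ht S := by
  have hT1 : (1 : k[X]) ∈ Ideal.span (Set.range T) := by rw [hT]; trivial
  have hS1 : (1 : k[X]) ∈ Ideal.span (Set.range S) := by rw [hS]; trivial
  obtain ⟨u, hu⟩ := (Ideal.mem_span_range_iff_exists_fun).mp hT1
  obtain ⟨v, hv⟩ := (Ideal.mem_span_range_iff_exists_fun).mp hS1
  set α : k[X] := ∑ i, u i * S i with hα
  set β : k[X] := ∑ i, v i * T i with hβ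
  have e1 : ∀ j, S j = α * T j := by
    intro j
    calc S j = (∑ i, u i * T i) * S j := by rw [hu, one_mul]
      _ = ∑ i, u i * (T i * S j) := by rw [Finset.sum_mul]; simp only [mul_assoc]
      _ = ∑ i, u i * (T j * S i) := by simp only [h _ j]
      _ = α * T j := by rw [hα, Finset.sum_mul]; refine Finset.sum_congr rfl fun i _ => by ring
  have e2 : ∀ j, T j = β * S j := by
    intro j
    calc T j = (∑ i, v i * S i) * T j := by rw [hv, one_mul]
      _ = ∑ i, v i * (S i * T j) := by rw [Finset.sum_mul]; simp only [mul_assoc]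
      _ = ∑ i, v i * (T i * S j) := by
        refine Finset.sum_congr rfl fun i _ => ?_
        rw [mul_comm (S i) (T j), h j i, mul_comm]
      _ = β * S j := by rw [hβ, Finset.sum_mul]; refine Finset.sum_congr rfl fun i _ => by ring
  -- some `S j` is nonzero
  have hSne : ∃ j, S j ≠ 0 := by
    by_contra hcon
    simp only [not_exists, not_not] at hcon
    have : Ideal.span (Set.range S) = ⊥ := by
      rw [Ideal.span_eq_bot]
      rintro _ ⟨j, rfl⟩
      exact hcon j
    rw [hS] at this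
    exact top_ne_bot this
  obtain ⟨j, hj⟩ := hSne
  have hαβ : α * β = 1 := by
    have : S j = (α * β) * S j := by
      calc S j = α * T j := e1 j
        _ = α * (β * S j) := by rw [← e2 j]
        _ = _ := by ring
    have h1 : (α * β - 1) * S j = 0 := by rw [sub_mul, one_mul, ← this, sub_self]
    rcases mul_eq_zero.mp h1 with h2 | h2
    · exact sub_eq_zero.mp h2
    · exact absurd h2 hj
  have hαu : IsUnit α := IsUnit.of_mul_eq_one β hαβ
  obtain ⟨r, hr, hrα⟩ := Polynomial.isUnit_iff.mp hαu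
  have hr0 : r ≠ 0 := hr.ne_zero
  have hdeg : ∀ i, (S i).natDegree = (T i).natDegree := by
    intro i
    rw [e1 i, ← hrα, natDegree_C_mul hr0]
  unfold H_ht
  exact Finset.sup_congr rfl fun i _ => (hdeg i).symm

end Poly

section Map

variable {R S : Type*} [CommRing R] [CommRing S]

lemma H_map_addSubMap (f : R →+* S) (E : WeierstrassCurve R) (i : Fin 3) :
    MvPolynomial.map f (E.addSubMap i) = (E.map f).addSubMap i := by
  fin_cases i <;> simp [addSubMap, map_ofNat]

set_option maxHeartbeats 1000000 in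
lemma H_map_addSubMapCoeff (f : R →+* S) (E : WeierstrassCurve R) (ij : Fin 3 × Fin 3) :
    MvPolynomial.map f (E.addSubMapCoeff ij) = (E.map f).addSubMapCoeff ij := by
  obtain ⟨i, j⟩ := ij
  simp only [addSubMapCoeff, Function.uncurry_apply_pair]
  fin_cases i <;> fin_cases j <;>
    simp only [Fin.isValue, Fin.mk_one, Fin.zero_eta, Fin.reduceFinMk, Matrix.cons_val,
      Matrix.cons_val_one, Matrix.cons_val_zero, Matrix.cons_val', Matrix.cons_val_fin_one,
      map_add, map_sub, map_mul, map_pow, map_neg, MvPolynomial.map_C, MvPolynomial.map_X,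
      WeierstrassCurve.map_b₂, WeierstrassCurve.map_b₄, WeierstrassCurve.map_b₆,
      WeierstrassCurve.map_b₈, map_ofNat]

/-- homogeneity: scaling the argument of a form. -/
lemma H_eval_smul {P : MvPolynomial (Fin 3) R} {d : ℕ} (hP : P.IsHomogeneous d) (c : R)
    (x : Fin 3 → R) : MvPolynomial.eval (fun i => c * x i) P = c ^ d * MvPolynomial.eval x P := by
  rw [MvPolynomial.eval_eq', MvPolynomial.eval_eq', Finset.mul_sum]
  refine Finset.sum_congr rfl fun m hm => ?_
  have hd : d = ∑ i, m i := by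
    rw [hP.degree_eq_sum_deg_support hm]
    exact Finset.sum_subset (Finset.subset_univ _) fun i _ hi => by
      simpa [Finsupp.mem_support_iff] using hi
  simp only [mul_pow, Finset.prod_mul_distrib, Finset.prod_pow_eq_pow_sum, ← hd]
  ring

end Map

section Forms

variable {k : Type} [Field k]

/-- degree bound for the value of a form with constant coefficients. -/
lemma H_natDegree_aeval_le {P : MvPolynomial (Fin 3) k} {d : ℕ} (hP : P.IsHomogeneous d)
    (T : Fin 3 → k[X]) (h : ℕ) (hT : ∀ i, (T i).natDegree ≤ h) :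
    (MvPolynomial.aeval T P).natDegree ≤ d * h := by
  rw [MvPolynomial.aeval_def, MvPolynomial.eval₂_eq']
  refine natDegree_sum_le_of_forall_le _ _ fun m hm => ?_
  have hd : d = ∑ i, m i := by
    rw [hP.degree_eq_sum_deg_support hm]
    exact Finset.sum_subset (Finset.subset_univ _) fun i _ hi => by
      simpa [Finsupp.mem_support_iff] using hi
  calc (algebraMap k k[X] (MvPolynomial.coeff m P) * ∏ i, T i ^ m i).natDegree
      ≤ (∏ i, T i ^ m i).natDegree := by
        rw [Polynomial.algebraMap_eq]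
        exact natDegree_C_mul_le _ _
    _ ≤ ∑ i, (T i ^ m i).natDegree := natDegree_prod_le _ _
    _ ≤ ∑ i, m i * h := Finset.sum_le_sum fun i _ =>
        (natDegree_pow_le).trans (Nat.mul_le_mul_left _ (hT i))
    _ = d * h := by rw [← Finset.sum_mul, ← hd]

/-- the image of a triple under the quadratic map `addSubMap`. -/
def H_F (E : WeierstrassCurve k) (T : Fin 3 → k[X]) : Fin 3 → k[X] :=
  fun i => MvPolynomial.aeval T (E.addSubMap i)

lemma H_ht_F_le (E : WeierstrassCurve k) (T : Fin 3 → k[X]) : H_ht (H_F E T) ≤ 2 * H_ht T :=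
  H_ht_le fun i => H_natDegree_aeval_le (isHomogeneous_addSubMap E i) T _ (H_natDegree_le_ht T)

lemma H_aeval_eq_eval_map (P : MvPolynomial (Fin 3) k) (T : Fin 3 → k[X]) :
    MvPolynomial.aeval T P = MvPolynomial.eval T (MvPolynomial.map (C : k →+* k[X]) P) := by
  rw [MvPolynomial.eval_map, MvPolynomial.aeval_def, Polynomial.algebraMap_eq]

/-- **no base point**: the fourth powers of the entries of `T` are combinations of the entries
of `addSubMap T` with coefficients of degree at most `2 h(T)`. -/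
lemma H_cond (E : WeierstrassCurve k) (hE : E.Δ ≠ 0) (T : Fin 3 → k[X]) (i : Fin 3) :
    ∃ G : Fin 3 → k[X], (∀ j, (G j).natDegree ≤ 2 * H_ht T) ∧
      ∑ j, G j * H_F E T j = T i ^ 4 := by
  have : E.IsElliptic := ⟨isUnit_iff_ne_zero.mpr hE⟩
  have key := addSubMapCoeff_condition (E.map (C : k →+* k[X])) T i
  refine ⟨fun j => MvPolynomial.eval T (MvPolynomial.C
    (↑(E.map (C : k →+* k[X])).Δ'⁻¹ : k[X]) * (E.map (C : k →+* k[X])).addSubMapCoeff (i, j)),
    fun j => ?_, ?_⟩
  · show (MvPolynomial.eval T (MvPolynomial.C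
      (↑(E.map (C : k →+* k[X])).Δ'⁻¹ : k[X]) *
        (E.map (C : k →+* k[X])).addSubMapCoeff (i, j))).natDegree ≤ 2 * H_ht T
    rw [MvPolynomial.eval_mul, MvPolynomial.eval_C, ← H_map_addSubMapCoeff,
      ← H_aeval_eq_eval_map]
    have hu : IsUnit (↑(E.map (C : k →+* k[X])).Δ'⁻¹ : k[X]) := Units.isUnit _
    obtain ⟨r, -, hr⟩ := Polynomial.isUnit_iff.mp hu
    rw [← hr]
    exact (natDegree_C_mul_le _ _).trans
      (H_natDegree_aeval_le (isHomogeneous_addSubMapCoeff E (i, j)) T _ (H_natDegree_le_ht T))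
  · rw [← key]
    refine Finset.sum_congr rfl fun j _ => ?_
    simp only [H_F, H_aeval_eq_eval_map, H_map_addSubMap]

/-- `addSubMap` maps primitive triples to primitive triples. -/
lemma H_prim_F (E : WeierstrassCurve k) (hE : E.Δ ≠ 0) {T : Fin 3 → k[X]} (hT : H_Prim T) :
    H_Prim (H_F E T) := by
  have h1 : ∀ i, T i ∈ (Ideal.span (Set.range (H_F E T))).radical := by
    intro i
    obtain ⟨G, -, hG⟩ := H_cond E hE T i
    refine ⟨4, ?_⟩
    rw [← hG]
    exact Ideal.sum_mem _ fun j _ => Ideal.mul_mem_left _ _ (Ideal.subset_span ⟨j, rfl⟩)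
  have h2 : Ideal.span (Set.range T) ≤ (Ideal.span (Set.range (H_F E T))).radical := by
    rw [Ideal.span_le]
    rintro _ ⟨i, rfl⟩
    exact h1 i
  rw [hT, top_le_iff] at h2
  exact Ideal.radical_eq_top.mp h2

/-- `addSubMap` doubles the height. -/
lemma H_ht_F (E : WeierstrassCurve k) (hE : E.Δ ≠ 0) (T : Fin 3 → k[X]) :
    H_ht (H_F E T) = 2 * H_ht T := by
  refine le_antisymm (H_ht_F_le E T) ?_
  obtain ⟨i, hi⟩ := H_exists_ht T
  obtain ⟨G, hG1, hG2⟩ := H_cond E hE T i
  have h4 : (T i ^ 4).natDegree = 4 * H_ht T := by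
    rw [natDegree_pow, hi]
  have hle : (T i ^ 4).natDegree ≤ 2 * H_ht T + H_ht (H_F E T) := by
    rw [← hG2]
    refine natDegree_sum_le_of_forall_le _ _ fun j _ => ?_
    exact natDegree_mul_le.trans (add_le_add (hG1 j) (H_natDegree_le_ht _ j))
  omega

end Forms

section Generic

variable (k : Type) [Field k] (W : WeierstrassCurve ℤ)

lemma H_aeval_gx (F : k[X]) : aeval (gx k W) F =
    algebraMap (W⁄k).toAffine.CoordinateRing (KK k W)
      (algebraMap k[X] (W⁄k).toAffine.CoordinateRing F) := by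
  have h1 : gx k W = algebraMap (W⁄k).toAffine.CoordinateRing (KK k W)
      (algebraMap k[X] (W⁄k).toAffine.CoordinateRing X) := rfl
  rw [h1, aeval_algebraMap_apply, aeval_algebraMap_apply, aeval_X_left_apply]

lemma H_aeval_gx_injective : Function.Injective (aeval (gx k W) : k[X] → KK k W) := by
  intro F G h
  rw [H_aeval_gx, H_aeval_gx] at h
  exact FaithfulSMul.algebraMap_injective k[X] (W⁄k).toAffine.CoordinateRing
    (IsFractionRing.injective (W⁄k).toAffine.CoordinateRing (KK k W) h)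

lemma H_map_curve :
    WeierstrassCurve.map (W⁄k) (algebraMap k (KK k W)) = (W⁄(KK k W)) := by
  show (W.map (algebraMap ℤ k)).map (algebraMap k (KK k W)) = W.map (algebraMap ℤ (KK k W))
  rw [WeierstrassCurve.map_map]
  congr 1
  exact RingHom.ext_int _ _

/-- the values of the symmetric product under `x ↦ gx`. -/
lemma H_aeval_S {A B : (W⁄(KK k W)).Point} {a₁ a₂ b₁ b₂ : k[X]} {cA cB : KK k W}
    (hA0 : aeval (gx k W) a₁ = cA * A.xRep 0) (hA1 : aeval (gx k W) a₂ = cA * A.xRep 1)
    (hB0 : aeval (gx k W) b₁ = cB * B.xRep 0) (hB1 : aeval (gx k W) b₂ = cB * B.xRep 1)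
    (i : Fin 3) :
    aeval (gx k W) (H_S a₁ a₂ b₁ b₂ i) = cA * cB * A.sym2x B i := by
  fin_cases i
  · show aeval (gx k W) (a₁ * b₁) = cA * cB * (A.xRep 0 * B.xRep 0)
    rw [map_mul, hA0, hB0]; ring
  · show aeval (gx k W) (a₁ * b₂ + a₂ * b₁) =
      cA * cB * (A.xRep 0 * B.xRep 1 + A.xRep 1 * B.xRep 0)
    rw [map_add, map_mul, map_mul, hA0, hA1, hB0, hB1]; ring
  · show aeval (gx k W) (a₂ * b₂) = cA * cB * (A.xRep 1 * B.xRep 1)
    rw [map_mul, hA1, hB1]; ring

/-- the value of `addSubMap T` under `x ↦ gx`. -/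
lemma H_aeval_F (T : Fin 3 → k[X]) (i : Fin 3) :
    aeval (gx k W) (H_F (W⁄k) T i) =
      MvPolynomial.eval (fun j => aeval (gx k W) (T j)) ((W⁄(KK k W)).addSubMap i) := by
  have h1 : aeval (gx k W) (H_F (W⁄k) T i) =
      MvPolynomial.aeval (fun j => aeval (gx k W) (T j)) ((W⁄k).addSubMap i) := by
    have := MvPolynomial.comp_aeval (R := k) T (aeval (gx k W) : k[X] →ₐ[k] KK k W)
    exact (AlgHom.congr_fun this ((W⁄k).addSubMap i))
  rw [h1, MvPolynomial.aeval_def, ← MvPolynomial.eval_map, H_map_addSubMap, H_map_curve]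

end Generic

/-- **(H)** The parallelogram law for the degree of the `x`-coordinate. -/
theorem parallelogram (hV : IfaceAddSub) : IfaceParallelogram := by
  intro k _ W hW A B a₁ a₂ b₁ b₂ c₁ c₂ e₁ e₂ hA hB hC hE
  obtain ⟨hcopA, cA, hcA, hA0, hA1⟩ := hA
  obtain ⟨hcopB, cB, hcB, hB0, hB1⟩ := hB
  obtain ⟨hcopC, cC, hcC, hC0, hC1⟩ := hC
  obtain ⟨hcopE, cE, hcE, hE0, hE1⟩ := hE
  have hΔ : (W⁄k).Δ ≠ 0 := hW
  obtain ⟨c, hc, hadd⟩ := hV (KK k W) (W⁄(KK k W)) (good_KK k W hW) A B
  -- the values of the two triples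
  have hT : ∀ i, aeval (gx k W) (H_F (W⁄k) (H_S a₁ a₂ b₁ b₂) i) =
      (cA * cB) ^ 2 * c * (A + B).sym2x (A - B) i := by
    intro i
    rw [H_aeval_F]
    have : (fun j => aeval (gx k W) (H_S a₁ a₂ b₁ b₂ j)) =
        fun j => cA * cB * A.sym2x B j := by
      funext j
      exact H_aeval_S k W hA0 hA1 hB0 hB1 j
    rw [this, H_eval_smul (isHomogeneous_addSubMap _ i), hadd i]
    ring
  have hS : ∀ i, aeval (gx k W) (H_S c₁ c₂ e₁ e₂ i) =
      cC * cE * (A + B).sym2x (A - B) i := fun i => H_aeval_S k W hC0 hC1 hE0 hE1 i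
  have hprop : ∀ i j, H_F (W⁄k) (H_S a₁ a₂ b₁ b₂) i * H_S c₁ c₂ e₁ e₂ j =
      H_F (W⁄k) (H_S a₁ a₂ b₁ b₂) j * H_S c₁ c₂ e₁ e₂ i := by
    intro i j
    apply H_aeval_gx_injective k W
    rw [map_mul, map_mul, hT, hT, hS, hS]
    ring
  have h1 := H_ht_S hcopA hcopB
  have h2 := H_ht_S hcopC hcopE
  have h3 := H_ht_F (W⁄k) hΔ (H_S a₁ a₂ b₁ b₂)
  have h4 := H_ht_eq_of_prop (H_prim_F (W⁄k) hΔ (H_prim_S hcopA hcopB))
    (H_prim_S hcopC hcopE) hprop
  rw [← h2, ← h4, h3, h1]
  ring

end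

end Fermat.Agent.EFrob
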