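import Fermat.Agent.EFrob.Skeleton
import Fermat.Agent.S05.Kernel
import Fermat.Agent.S05.H86SameRed

/-!
# P-EFROB, task R: the reduction homomorphism

For a valuation subring `V` of a field `K`, a ring homomorphism `π : V →+* κ` into a field whose
kernel is the maximal ideal of `V`, and an integral Weierstrass curve `W` whose discriminant is a
unit of `V`, reduction of points is a group homomorphism `(W⁄K).Point →+ (W⁄κ).Point`.

Main result: `Fermat.Agent.EFrob.red : IfaceRed`.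

All helper names are prefixed with `R_`.
-/

set_option autoImplicit false
set_option linter.unusedSectionVars false

namespace Fermat.Agent.EFrob

open WeierstrassCurve WeierstrassCurve.Affine

noncomputable section

section Basics

variable {K : Type} [Field K] (V : ValuationSubring K) {κ : Type} [Field κ] (π : V →+* κ)
  (W : WeierstrassCurve ℤ)

/-- An element of `V` which is not killed by `π` is a unit of `V`. -/
lemma R_exists_inv (hπ : ∀ v : V, π v = 0 ↔ (v : K) ∈ V.nonunits) {u : V} (hu : π u ≠ 0) :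
    ∃ d : V, u * d = 1 := by
  have h1 : (u : K) ∉ V.nonunits := fun h => hu ((hπ u).2 h)
  have h2 : u ∉ IsLocalRing.maximalIdeal V := fun h =>
    h1 (ValuationSubring.coe_mem_nonunits_iff.2 h)
  obtain ⟨d, hd⟩ := (IsLocalRing.notMem_maximalIdeal.1 h2).exists_right_inv
  exact ⟨d, hd⟩

lemma R_div_K {u d : V} (n : V) (h : u * d = 1) : ((n * d : V) : K) = (n : K) / (u : K) := by
  have h1 : (u : K) * (d : K) = 1 := by exact_mod_cast congrArg (fun v : V => (v : K)) h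
  have hu : (u : K) ≠ 0 := left_ne_zero_of_mul_eq_one h1
  rw [eq_div_iff hu]
  push_cast
  linear_combination (n : K) * h1

lemma R_div_κ {u d : V} (n : V) (h : u * d = 1) : π (n * d) = π n / π u := by
  have h1 : π u * π d = 1 := by rw [← map_mul, h, map_one]
  have hu : π u ≠ 0 := left_ne_zero_of_mul_eq_one h1
  rw [eq_div_iff hu, map_mul]
  linear_combination π n * h1

lemma R_coe_ne_zero_of_unit {u d : V} (h : u * d = 1) : (u : K) ≠ 0 := by
  have h1 : (u : K) * (d : K) = 1 := by exact_mod_cast congrArg (fun v : V => (v : K)) h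
  exact left_ne_zero_of_mul_eq_one h1

/-- The Weierstrass equation, in `V`. -/
lemma R_equationV {x y : V} (h : (W⁄K).toAffine.Equation (x : K) (y : K)) :
    y ^ 2 + (W.a₁ : V) * x * y + (W.a₃ : V) * y =
      x ^ 3 + (W.a₂ : V) * x ^ 2 + (W.a₄ : V) * x + (W.a₆ : V) := by
  rw [equation_iff] at h
  apply Subtype.coe_injective
  push_cast
  simpa using h

/-- The reduction of an integral point lies on the reduced curve. -/
lemma R_equationκ {x y : V} (h : (W⁄K).toAffine.Equation (x : K) (y : K)) :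
    (W⁄κ).toAffine.Equation (π x) (π y) := by
  rw [equation_iff]
  have h1 := congrArg π (R_equationV V W h)
  simpa using h1

lemma R_Δκ_ne_zero (hπ : ∀ v : V, π v = 0 ↔ (v : K) ∈ V.nonunits)
    (hΔ : (W⁄K).Δ ∉ V.nonunits) : (W⁄κ).Δ ≠ 0 := by
  have h1 : (W⁄K).Δ = ((W.Δ : V) : K) := by
    rw [show (W⁄K).Δ = algebraMap ℤ K W.Δ from WeierstrassCurve.map_Δ W _]
    simp
  have h2 : (W⁄κ).Δ = π (W.Δ : V) := by
    rw [show (W⁄κ).Δ = algebraMap ℤ κ W.Δ from WeierstrassCurve.map_Δ W _]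
    simp
  rw [h2]
  intro h0
  apply hΔ
  rw [h1]
  exact (hπ _).1 h0

lemma R_nonsingularκ (hπ : ∀ v : V, π v = 0 ↔ (v : K) ∈ V.nonunits)
    (hΔ : (W⁄K).Δ ∉ V.nonunits) {x y : V} (h : (W⁄K).toAffine.Equation (x : K) (y : K)) :
    (W⁄κ).toAffine.Nonsingular (π x) (π y) :=
  (equation_iff_nonsingular_of_Δ_ne_zero (R_Δκ_ne_zero V π W hπ hΔ)).mp (R_equationκ V π W h)

lemma R_a₁_mem : (W⁄K).toAffine.a₁ ∈ V := by
  rw [show (W⁄K).toAffine.a₁ = ((W.a₁ : ℤ) : K) by simp]; exact intCast_mem V _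

lemma R_a₂_mem : (W⁄K).toAffine.a₂ ∈ V := by
  rw [show (W⁄K).toAffine.a₂ = ((W.a₂ : ℤ) : K) by simp]; exact intCast_mem V _

lemma R_a₃_mem : (W⁄K).toAffine.a₃ ∈ V := by
  rw [show (W⁄K).toAffine.a₃ = ((W.a₃ : ℤ) : K) by simp]; exact intCast_mem V _

lemma R_a₄_mem : (W⁄K).toAffine.a₄ ∈ V := by
  rw [show (W⁄K).toAffine.a₄ = ((W.a₄ : ℤ) : K) by simp]; exact intCast_mem V _

lemma R_a₆_mem : (W⁄K).toAffine.a₆ ∈ V := by
  rw [show (W⁄K).toAffine.a₆ = ((W.a₆ : ℤ) : K) by simp]; exact intCast_mem V _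

lemma R_y_mem {x y : K} (h : (W⁄K).toAffine.Equation x y) (hx : x ∈ V) : y ∈ V :=
  Fermat.Agent.S05.H86.y_mem_of_x_mem (R_a₁_mem V W) (R_a₂_mem V W) (R_a₃_mem V W)
    (R_a₄_mem V W) (R_a₆_mem V W) h hx

/-- `negY` in `V`. -/
def R_negY (x y : V) : V := -y - (W.a₁ : V) * x - (W.a₃ : V)

lemma R_negY_K (x y : V) : ((R_negY V W x y : V) : K) = (W⁄K).toAffine.negY x y := by
  simp [R_negY, negY]

lemma R_negY_κ (x y : V) : π (R_negY V W x y) = (W⁄κ).toAffine.negY (π x) (π y) := by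
  simp [R_negY, negY]

end Basics

section Slope

variable {K : Type} [Field K] [DecidableEq K] (V : ValuationSubring K) {κ : Type} [Field κ]
  [DecidableEq κ] (π : V →+* κ) (W : WeierstrassCurve ℤ)

omit [DecidableEq K] in
/-- The key identity behind the tangent/chord comparison, in `V`. -/
lemma R_key {x₁ y₁ x₂ y₂ : V} (h₁ : (W⁄K).toAffine.Equation (x₁ : K) (y₁ : K))
    (h₂ : (W⁄K).toAffine.Equation (x₂ : K) (y₂ : K)) :
    (y₁ - y₂) * (y₁ - R_negY V W x₂ y₂) =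
      (x₁ - x₂) * (x₁ ^ 2 + x₁ * x₂ + x₂ ^ 2 + (W.a₂ : V) * (x₁ + x₂) + (W.a₄ : V)
        - (W.a₁ : V) * y₁) := by
  have e₁ := R_equationV V W h₁
  have e₂ := R_equationV V W h₂
  simp only [R_negY]
  linear_combination e₁ - e₂

/-- **The slope lemma.**  For two integral points whose reductions are not opposite, the slope
of the chord (or tangent) is integral and reduces to the slope of the reductions. -/
lemma R_slope (hπ : ∀ v : V, π v = 0 ↔ (v : K) ∈ V.nonunits) {x₁ y₁ x₂ y₂ : V}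
    (h₁ : (W⁄K).toAffine.Equation (x₁ : K) (y₁ : K))
    (h₂ : (W⁄K).toAffine.Equation (x₂ : K) (y₂ : K))
    (hne : ¬(π x₁ = π x₂ ∧ π y₁ = (W⁄κ).toAffine.negY (π x₂) (π y₂))) :
    ∃ s : V, (s : K) = (W⁄K).toAffine.slope (x₁ : K) x₂ y₁ y₂ ∧
      π s = (W⁄κ).toAffine.slope (π x₁) (π x₂) (π y₁) (π y₂) := by
  by_cases hx : π x₁ = π x₂
  · -- the reductions have the same `x`-coordinate, hence are equal
    have hy : π y₁ ≠ (W⁄κ).toAffine.negY (π x₂) (π y₂) := fun h => hne ⟨hx, h⟩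
    have hyy : π y₁ = π y₂ := by
      rcases Y_eq_of_X_eq (R_equationκ V π W h₁) (R_equationκ V π W h₂) hx with h | h
      · exact h
      · exact absurd h hy
    have hu : π (y₁ - R_negY V W x₂ y₂) ≠ 0 := by
      rw [map_sub, R_negY_κ]
      exact sub_ne_zero.2 hy
    obtain ⟨d, hd⟩ := R_exists_inv V π hπ hu
    have huK : ((y₁ - R_negY V W x₂ y₂ : V) : K) ≠ 0 := R_coe_ne_zero_of_unit V hd
    have huK' : (y₁ : K) - (W⁄K).toAffine.negY x₂ y₂ ≠ 0 := by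
      rw [← R_negY_K]; exact_mod_cast huK
    refine ⟨(x₁ ^ 2 + x₁ * x₂ + x₂ ^ 2 + (W.a₂ : V) * (x₁ + x₂) + (W.a₄ : V)
        - (W.a₁ : V) * y₁) * d, ?_, ?_⟩
    · rw [R_div_K V _ hd]
      by_cases hxK : (x₁ : K) = x₂
      · have hxV : x₁ = x₂ := Subtype.coe_injective hxK
        have hyK : (y₁ : K) ≠ (W⁄K).toAffine.negY x₂ y₂ := sub_ne_zero.1 huK'
        have hyyK : (y₁ : K) = y₂ := by
          rcases Y_eq_of_X_eq h₁ h₂ hxK with h | h
          · exact h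
          · exact absurd h hyK
        have hyV : y₁ = y₂ := Subtype.coe_injective hyyK
        rw [slope_of_Y_ne hxK hyK]
        subst hxV
        subst hyV
        have hM : ((x₁ ^ 2 + x₁ * x₁ + x₁ ^ 2 + (W.a₂ : V) * (x₁ + x₁) + (W.a₄ : V)
            - (W.a₁ : V) * y₁ : V) : K) = 3 * (x₁ : K) ^ 2 + 2 * (W⁄K).toAffine.a₂ * x₁ +
              (W⁄K).toAffine.a₄ - (W⁄K).toAffine.a₁ * y₁ := by
          simp
          ring
        have hU : ((y₁ - R_negY V W x₁ y₁ : V) : K) =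
            (y₁ : K) - (W⁄K).toAffine.negY x₁ y₁ := by
          rw [← R_negY_K]; push_cast; ring
        rw [hM, hU]
      · rw [slope_of_X_ne hxK]
        have hxK' : (x₁ : K) - x₂ ≠ 0 := sub_ne_zero.2 hxK
        have key := congrArg (fun v : V => (v : K)) (R_key V W h₁ h₂)
        rw [div_eq_div_iff huK hxK']
        rw [mul_comm] at key
        have key2 : ((y₁ - R_negY V W x₂ y₂ : V) : K) * ((y₁ : K) - (y₂ : K)) =
            ((x₁ : K) - x₂) * ((x₁ ^ 2 + x₁ * x₂ + x₂ ^ 2 + (W.a₂ : V) * (x₁ + x₂) + (W.a₄ : V)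
              - (W.a₁ : V) * y₁ : V) : K) := by
          exact_mod_cast key
        linear_combination -key2
    · rw [R_div_κ V π _ hd, slope_of_Y_ne hx hy]
      have hM : π (x₁ ^ 2 + x₁ * x₂ + x₂ ^ 2 + (W.a₂ : V) * (x₁ + x₂) + (W.a₄ : V)
            - (W.a₁ : V) * y₁) = 3 * π x₁ ^ 2 + 2 * (W⁄κ).toAffine.a₂ * π x₁ +
              (W⁄κ).toAffine.a₄ - (W⁄κ).toAffine.a₁ * π y₁ := by
        simp only [map_sub, map_add, map_mul, map_pow, map_intCast]
        rw [← hx]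
        simp
        ring
      have hU : π (y₁ - R_negY V W x₂ y₂) = π y₁ - (W⁄κ).toAffine.negY (π x₁) (π y₁) := by
        rw [map_sub, R_negY_κ, ← hx, ← hyy]
      rw [hM, hU]
  · -- the reductions have different `x`-coordinates
    have hu : π (x₁ - x₂) ≠ 0 := by
      rw [map_sub]; exact sub_ne_zero.2 hx
    obtain ⟨d, hd⟩ := R_exists_inv V π hπ hu
    have hxK : (x₁ : K) ≠ x₂ := fun h => hx (congrArg π (Subtype.coe_injective h))
    refine ⟨(y₁ - y₂) * d, ?_, ?_⟩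
    · rw [R_div_K V _ hd, slope_of_X_ne hxK]
      push_cast
      rfl
    · rw [R_div_κ V π _ hd, slope_of_X_ne hx, map_sub, map_sub]

/-- **Addition of integral points with non-opposite reductions.**  The sum is again integral and
its reduction is the sum of the reductions. -/
lemma R_add_of_ne (hπ : ∀ v : V, π v = 0 ↔ (v : K) ∈ V.nonunits) {x₁ y₁ x₂ y₂ : V}
    (h₁ : (W⁄K).toAffine.Nonsingular (x₁ : K) (y₁ : K))
    (h₂ : (W⁄K).toAffine.Nonsingular (x₂ : K) (y₂ : K))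
    (h₁' : (W⁄κ).toAffine.Nonsingular (π x₁) (π y₁))
    (h₂' : (W⁄κ).toAffine.Nonsingular (π x₂) (π y₂))
    (hne : ¬(π x₁ = π x₂ ∧ π y₁ = (W⁄κ).toAffine.negY (π x₂) (π y₂))) :
    ∃ (x₃ y₃ : V) (h₃ : (W⁄K).toAffine.Nonsingular (x₃ : K) (y₃ : K))
      (h₃' : (W⁄κ).toAffine.Nonsingular (π x₃) (π y₃)),
      Point.some _ _ h₁ + Point.some _ _ h₂ = Point.some _ _ h₃ ∧
        Point.some _ _ h₁' + Point.some _ _ h₂' = Point.some _ _ h₃' := by
  obtain ⟨s, hsK, hsκ⟩ := R_slope V π W hπ h₁.1 h₂.1 hne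
  have hK : ¬((x₁ : K) = x₂ ∧ (y₁ : K) = (W⁄K).toAffine.negY x₂ y₂) := by
    rintro ⟨hx, hy⟩
    apply hne
    have hxV : x₁ = x₂ := Subtype.coe_injective hx
    have hyV : y₁ = R_negY V W x₂ y₂ :=
      Subtype.coe_injective (hy.trans (R_negY_K V W x₂ y₂).symm)
    exact ⟨congrArg π hxV, by rw [hyV, R_negY_κ]⟩
  -- the coordinates of the sum, in `V`
  obtain ⟨x₃, hx₃⟩ : ∃ x₃ : V, x₃ = s ^ 2 + (W.a₁ : V) * s - (W.a₂ : V) - x₁ - x₂ := ⟨_, rfl⟩
  obtain ⟨y₃, hy₃⟩ : ∃ y₃ : V, y₃ = R_negY V W x₃ (s * (x₃ - x₁) + y₁) := ⟨_, rfl⟩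
  have hxK : (x₃ : K) = (W⁄K).toAffine.addX x₁ x₂ ((W⁄K).toAffine.slope (x₁ : K) x₂ y₁ y₂) := by
    rw [← hsK, hx₃]
    simp [addX]
  have hyK : (y₃ : K) =
      (W⁄K).toAffine.addY x₁ x₂ y₁ ((W⁄K).toAffine.slope (x₁ : K) x₂ y₁ y₂) := by
    rw [addY, negAddY, ← hxK, ← hsK, hy₃, R_negY_K]
    push_cast
    rfl
  have hxκ : π x₃ =
      (W⁄κ).toAffine.addX (π x₁) (π x₂) ((W⁄κ).toAffine.slope (π x₁) (π x₂) (π y₁) (π y₂)) := by
    rw [← hsκ, hx₃]
    simp [addX]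
  have hyκ : π y₃ = (W⁄κ).toAffine.addY (π x₁) (π x₂) (π y₁)
      ((W⁄κ).toAffine.slope (π x₁) (π x₂) (π y₁) (π y₂)) := by
    rw [addY, negAddY, ← hxκ, ← hsκ, hy₃, R_negY_κ]
    simp
  have h₃ : (W⁄K).toAffine.Nonsingular (x₃ : K) (y₃ : K) := by
    rw [hxK, hyK]; exact nonsingular_add h₁ h₂ hK
  have h₃' : (W⁄κ).toAffine.Nonsingular (π x₃) (π y₃) := by
    rw [hxκ, hyκ]; exact nonsingular_add h₁' h₂' hne
  refine ⟨x₃, y₃, h₃, h₃', ?_, ?_⟩
  · rw [Point.add_some hK, Point.some.injEq]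
    exact ⟨hxK.symm, hyK.symm⟩
  · rw [Point.add_some hne, Point.some.injEq]
    exact ⟨hxκ.symm, hyκ.symm⟩

omit [DecidableEq κ] in
/-- **Addition of integral points with opposite reductions.**  The sum lies in the kernel of
reduction. -/
lemma R_add_inE1 (hπ : ∀ v : V, π v = 0 ↔ (v : K) ∈ V.nonunits)
    (hΔ : (W⁄K).Δ ∉ V.nonunits) {x₁ y₁ x₂ y₂ : V}
    (h₁ : (W⁄K).toAffine.Nonsingular (x₁ : K) (y₁ : K))
    (h₂ : (W⁄K).toAffine.Nonsingular (x₂ : K) (y₂ : K))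
    (hx : π x₁ = π x₂) (hy : π y₁ = (W⁄κ).toAffine.negY (π x₂) (π y₂)) :
    Fermat.Agent.S05.InE1 V (Point.some _ _ h₁ + Point.some _ _ h₂) := by
  have hxn : ((x₁ : K) - (x₂ : K)) ∈ V.nonunits := by
    have h0 : π (x₁ - x₂) = 0 := by rw [map_sub, hx, sub_self]
    have := (hπ _).1 h0
    exact_mod_cast this
  have hyn : ((y₁ : K) - (W⁄K).toAffine.negY x₂ y₂) ∈ V.nonunits := by
    have h0 : π (y₁ - R_negY V W x₂ y₂) = 0 := by rw [map_sub, R_negY_κ, hy, sub_self]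
    have := (hπ _).1 h0
    rw [← R_negY_K]
    exact_mod_cast this
  have hnY : (W⁄K).toAffine.negY x₂ y₂ ∈ V := by
    rw [← R_negY_K]; exact (R_negY V W x₂ y₂).2
  have hns := Fermat.Agent.S05.H86.partials_not_both_nonunits (A := V) (W := W⁄K)
    (R_a₁_mem V W) (R_a₂_mem V W) hΔ h₁.1 x₁.2
  have h₂n : (W⁄K).toAffine.Nonsingular (x₂ : K) ((W⁄K).toAffine.negY x₂ y₂) :=
    (nonsingular_neg ..).mpr h₂
  have key := Fermat.Agent.S05.H86.sub_inE1_of_same_reduction (A := V) (W := (W⁄K).toAffine)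
    (R_a₁_mem V W) (R_a₂_mem V W) (R_a₃_mem V W) (R_a₄_mem V W) h₁ h₂n x₁.2 y₁.2 x₂.2 hnY
    hxn hyn hns
  have hsub : Point.some _ _ h₁ - Point.some _ _ h₂n = Point.some _ _ h₁ + Point.some _ _ h₂ := by
    rw [sub_eq_add_neg, Point.neg_some]
    simp only [negY_negY]
  rw [hsub] at key
  exact key

end Slope

section Hom

variable {K : Type} [Field K] [DecidableEq K] (V : ValuationSubring K) {κ : Type} [Field κ]
  [DecidableEq κ] (π : V →+* κ) (W : WeierstrassCurve ℤ)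
  (hπ : ∀ v : V, π v = 0 ↔ (v : K) ∈ V.nonunits) (hΔ : (W⁄K).Δ ∉ V.nonunits)

open scoped Classical in
/-- The reduction map on points. -/
def R_redFun : (W⁄K).Point → (W⁄κ).Point
  | .zero => 0
  | .some x y h =>
    if hx : x ∈ V then
      Point.some (π ⟨x, hx⟩) (π ⟨y, R_y_mem V W h.1 hx⟩)
        (R_nonsingularκ V π W hπ hΔ (x := ⟨x, hx⟩) (y := ⟨y, R_y_mem V W h.1 hx⟩) h.1)
    else 0

lemma R_redFun_zero : R_redFun V π W hπ hΔ 0 = 0 := rfl

lemma R_redFun_of_not_mem {x y : K} (h : (W⁄K).toAffine.Nonsingular x y) (hx : x ∉ V) :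
    R_redFun V π W hπ hΔ (Point.some x y h) = 0 := by
  simp only [R_redFun, dif_neg hx]

lemma R_redFun_of_mem {x y : K} (h : (W⁄K).toAffine.Nonsingular x y) (hx : x ∈ V)
    (hy : y ∈ V) :
    R_redFun V π W hπ hΔ (Point.some x y h) =
      Point.some (π ⟨x, hx⟩) (π ⟨y, hy⟩)
        (R_nonsingularκ V π W hπ hΔ (x := ⟨x, hx⟩) (y := ⟨y, hy⟩) h.1) := by
  simp only [R_redFun, dif_pos hx]

lemma R_redFun_coe {x y : V} (h : (W⁄K).toAffine.Nonsingular (x : K) (y : K))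
    (h' : (W⁄κ).toAffine.Nonsingular (π x) (π y)) :
    R_redFun V π W hπ hΔ (Point.some _ _ h) = Point.some _ _ h' :=
  R_redFun_of_mem V π W hπ hΔ h x.2 y.2

lemma R_redFun_of_inE1 {P : (W⁄K).Point} (hP : Fermat.Agent.S05.InE1 V P) :
    R_redFun V π W hπ hΔ P = 0 := by
  rcases hP with rfl | ⟨x, y, h, rfl, hx⟩
  · rfl
  · exact R_redFun_of_not_mem V π W hπ hΔ h hx

/-- A point outside the kernel of reduction is an integral affine point. -/
lemma R_exists_of_not_inE1 {P : (W⁄K).Point} (hP : ¬ Fermat.Agent.S05.InE1 V P) :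
    ∃ (x y : V) (h : (W⁄K).toAffine.Nonsingular (x : K) (y : K)), P = Point.some _ _ h := by
  rcases P with _ | ⟨x, y, h⟩
  · exact absurd (Fermat.Agent.S05.inE1_zero V) hP
  · have hx : x ∈ V := by
      by_contra hx
      exact hP ((Fermat.Agent.S05.inE1_some V h).2 hx)
    exact ⟨⟨x, hx⟩, ⟨y, R_y_mem V W h.1 hx⟩, h, rfl⟩

lemma R_not_inE1_coe {x y : V} (h : (W⁄K).toAffine.Nonsingular (x : K) (y : K)) :
    ¬ Fermat.Agent.S05.InE1 V (Point.some _ _ h) := fun hP =>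
  (Fermat.Agent.S05.inE1_some V h).1 hP x.2

lemma R_inE1_add {P Q : (W⁄K).Point} (hP : Fermat.Agent.S05.InE1 V P)
    (hQ : Fermat.Agent.S05.InE1 V Q) : Fermat.Agent.S05.InE1 V (P + Q) :=
  Fermat.Agent.S05.inE1_add V (R_a₁_mem V W) (R_a₂_mem V W) (R_a₃_mem V W) (R_a₄_mem V W)
    (R_a₆_mem V W) hP hQ

/-- Adding a point of the kernel of reduction does not change the reduction. -/
lemma R_redFun_add_of_inE1 {P Q : (W⁄K).Point} (hP : Fermat.Agent.S05.InE1 V P)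
    (hQ : ¬ Fermat.Agent.S05.InE1 V Q) :
    R_redFun V π W hπ hΔ (P + Q) = R_redFun V π W hπ hΔ Q := by
  have hR : ¬ Fermat.Agent.S05.InE1 V (P + Q) := by
    intro hR
    apply hQ
    have := R_inE1_add V W hR (Fermat.Agent.S05.inE1_neg V hP)
    rwa [add_comm P Q, add_neg_cancel_right] at this
  obtain ⟨x₂, y₂, h₂, hQe⟩ := R_exists_of_not_inE1 V W hQ
  obtain ⟨x₃, y₃, h₃, hRe⟩ := R_exists_of_not_inE1 V W hR
  have h₂' := R_nonsingularκ V π W hπ hΔ h₂.1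
  have h₃' := R_nonsingularκ V π W hπ hΔ h₃.1
  rw [hRe, hQe, R_redFun_coe V π W hπ hΔ h₃ h₃', R_redFun_coe V π W hπ hΔ h₂ h₂']
  -- the opposite of `Q`
  have h₂n : (W⁄K).toAffine.Nonsingular (x₂ : K) ((R_negY V W x₂ y₂ : V) : K) := by
    rw [R_negY_K]; exact (nonsingular_neg ..).mpr h₂
  have h₂n' := R_nonsingularκ V π W hπ hΔ h₂n.1
  have hnegQ : -Q = Point.some _ _ h₂n := by
    rw [hQe, Point.neg_some, Point.some.injEq]
    exact ⟨rfl, (R_negY_K V W x₂ y₂).symm⟩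
  by_cases hne : π x₃ = π x₂ ∧
      π y₃ = (W⁄κ).toAffine.negY (π x₂) (π (R_negY V W x₂ y₂))
  · rw [Point.some.injEq]
    refine ⟨hne.1, ?_⟩
    rw [hne.2, R_negY_κ, negY_negY]
  · exfalso
    obtain ⟨x₄, y₄, h₄, -, hadd, -⟩ := R_add_of_ne V π W hπ h₃ h₂n h₃' h₂n' hne
    rw [← hRe, ← hnegQ, add_neg_cancel_right] at hadd
    rw [hadd] at hP
    exact R_not_inE1_coe V W h₄ hP

/-- The reduction map is additive. -/
theorem R_redFun_add (P Q : (W⁄K).Point) :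
    R_redFun V π W hπ hΔ (P + Q) = R_redFun V π W hπ hΔ P + R_redFun V π W hπ hΔ Q := by
  by_cases hP : Fermat.Agent.S05.InE1 V P
  · by_cases hQ : Fermat.Agent.S05.InE1 V Q
    · rw [R_redFun_of_inE1 V π W hπ hΔ hP, R_redFun_of_inE1 V π W hπ hΔ hQ,
        R_redFun_of_inE1 V π W hπ hΔ (R_inE1_add V W hP hQ), add_zero]
    · rw [R_redFun_add_of_inE1 V π W hπ hΔ hP hQ, R_redFun_of_inE1 V π W hπ hΔ hP, zero_add]
  · by_cases hQ : Fermat.Agent.S05.InE1 V Q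
    · rw [add_comm P Q, R_redFun_add_of_inE1 V π W hπ hΔ hQ hP,
        R_redFun_of_inE1 V π W hπ hΔ hQ, add_zero]
    · obtain ⟨x₁, y₁, h₁, rfl⟩ := R_exists_of_not_inE1 V W hP
      obtain ⟨x₂, y₂, h₂, rfl⟩ := R_exists_of_not_inE1 V W hQ
      have h₁' := R_nonsingularκ V π W hπ hΔ h₁.1
      have h₂' := R_nonsingularκ V π W hπ hΔ h₂.1
      rw [R_redFun_coe V π W hπ hΔ h₁ h₁', R_redFun_coe V π W hπ hΔ h₂ h₂']
      by_cases hne : π x₁ = π x₂ ∧ π y₁ = (W⁄κ).toAffine.negY (π x₂) (π y₂)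
      · rw [Point.add_of_Y_eq hne.1 hne.2]
        exact R_redFun_of_inE1 V π W hπ hΔ (R_add_inE1 V π W hπ hΔ h₁ h₂ hne.1 hne.2)
      · obtain ⟨x₃, y₃, h₃, h₃', hadd, hadd'⟩ := R_add_of_ne V π W hπ h₁ h₂ h₁' h₂' hne
        rw [hadd, hadd', R_redFun_coe V π W hπ hΔ h₃ h₃']

/-- The reduction homomorphism. -/
def R_redHom : (W⁄K).Point →+ (W⁄κ).Point :=
  AddMonoidHom.mk' (R_redFun V π W hπ hΔ) (R_redFun_add V π W hπ hΔ)

lemma R_redHom_apply (P : (W⁄K).Point) : R_redHom V π W hπ hΔ P = R_redFun V π W hπ hΔ P := rfl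

end Hom

/-- **(R)** The reduction homomorphism exists. -/
theorem red : IfaceRed := by
  intro K _ _ V κ _ _ π hπ W hΔ
  refine ⟨R_redHom V π W hπ hΔ, ?_, ?_⟩
  · intro x y h hx
    rw [R_redHom_apply]
    exact R_redFun_of_not_mem V π W hπ hΔ h hx
  · intro x y h hx hy
    exact ⟨R_nonsingularκ V π W hπ hΔ (x := ⟨x, hx⟩) (y := ⟨y, hy⟩) h.1,
      R_redFun_of_mem V π W hπ hΔ h hx hy⟩

end

end Fermat.Agent.EFrob
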