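import Fermat.Agent.EFrob.Skeleton

/-!
# P-EFROB, task S: specialisation of the generic point

`spec : IfaceRed → IfaceSpec`.  For a point `P = (x₀, y₀)` of `E(k)` we choose a valuation subring
`V` of the function field `KK k W` containing the coordinate ring and whose maximal ideal
contains the functions vanishing at `P`; the reduction homomorphism of `IfaceRed` for `V` sends the
generic point to (the base change of) `P` and commutes with Frobenius, hence sends
`ψ(generic point)` to `ψ(P)` for `ψ = m φ² + n φ + r`.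
-/

set_option autoImplicit false

namespace Fermat.Agent.EFrob

open WeierstrassCurve WeierstrassCurve.Affine Polynomial
open scoped Polynomial.Bivariate

noncomputable section

/-! ## Valuation subrings: elementary facts -/

section Val

variable {K : Type*} [Field K] (V : ValuationSubring K)

theorem S_not_mem_pow {x : K} (hx : x ∉ V) {n : ℕ} (hn : n ≠ 0) : x ^ n ∉ V := by
  rw [← V.valuation_le_one_iff, not_le] at hx ⊢
  rw [map_pow]
  exact one_lt_pow₀ hx hn

theorem S_mul_not_mem {x y : K} (hx : x ∉ V) (hy : y ∉ V) : x * y ∉ V := by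
  rw [← V.valuation_le_one_iff, not_le] at hx hy ⊢
  rw [map_mul]
  exact one_lt_mul'' hx hy

/-- A point with integral `x`-coordinate has integral `y`-coordinate. -/
theorem S_y_mem {W : Affine K} (ha₁ : W.a₁ ∈ V) (ha₂ : W.a₂ ∈ V) (ha₃ : W.a₃ ∈ V)
    (ha₄ : W.a₄ ∈ V) (ha₆ : W.a₆ ∈ V) {x y : K} (h : W.Equation x y) (hx : x ∈ V) : y ∈ V := by
  by_contra hy
  rw [Affine.equation_iff] at h
  have hc : W.a₁ * x + W.a₃ ∈ V := add_mem (mul_mem ha₁ hx) ha₃
  have hyc : y + (W.a₁ * x + W.a₃) ∉ V := fun hh => hy (by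
    have := sub_mem hh hc
    simpa using this)
  have hR : x ^ 3 + W.a₂ * x ^ 2 + W.a₄ * x + W.a₆ ∈ V :=
    add_mem (add_mem (add_mem (pow_mem hx 3) (mul_mem ha₂ (pow_mem hx 2)))
      (mul_mem ha₄ hx)) ha₆
  apply S_mul_not_mem V hy hyc
  have : y * (y + (W.a₁ * x + W.a₃)) = x ^ 3 + W.a₂ * x ^ 2 + W.a₄ * x + W.a₆ := by
    rw [← h]; ring
  rw [this]; exact hR

theorem S_int_mem (n : ℤ) : algebraMap ℤ K n ∈ V := by
  rw [eq_intCast]
  exact intCast_mem V n

end Val


/-! ## Points: elementary facts -/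

section Pts

theorem S_some_congr {F : Type*} [Field F] [DecidableEq F] {W : Affine F} {x x' y y' : F}
    (hx : x = x') (hy : y = y') (h : W.Nonsingular x y) (h' : W.Nonsingular x' y') :
    Point.some x y h = Point.some x' y' h' := by
  subst hx hy
  rfl

variable (ℓ : ℕ) [Fact ℓ.Prime] {K : Type*} [Field K] [CharP K ℓ] [DecidableEq K]
  (W : WeierstrassCurve ℤ)

theorem S_frob_zero : frob ℓ W (0 : (W⁄K).Point) = 0 := map_zero _

theorem S_frob_some {x y : K} (h : (W⁄K).Nonsingular x y) :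
    ∃ h' : (W⁄K).Nonsingular (x ^ ℓ) (y ^ ℓ),
      frob ℓ W (Point.some x y h) = Point.some (x ^ ℓ) (y ^ ℓ) h' :=
  ⟨_, Point.map_some (W' := W) (frobenius K ℓ).toIntAlgHom h⟩

end Pts


/-! ## The generic `x`-coordinate is transcendental -/

section Transc

variable (k : Type) [Field k] (W : WeierstrassCurve ℤ)

theorem S_aeval_gx (F : k[X]) :
    aeval (gx k W) F =
      algebraMap (W⁄k).toAffine.CoordinateRing (KK k W)
        (CoordinateRing.mk (W⁄k).toAffine (C F)) := by
  induction F using Polynomial.induction_on' with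
  | add p q hp hq => rw [map_add, hp, hq, map_add, map_add, map_add]
  | monomial n a =>
    rw [aeval_monomial, algebraMap_KK, ← C_mul_X_pow_eq_monomial, gx, ← map_pow, ← map_mul]
    simp only [map_mul, map_pow]

theorem S_aeval_gx_eq_zero {F : k[X]} (h : aeval (gx k W) F = 0) : F = 0 := by
  rw [S_aeval_gx] at h
  have h1 : CoordinateRing.mk (W⁄k).toAffine (C F) = 0 :=
    (IsFractionRing.injective (W⁄k).toAffine.CoordinateRing (KK k W)) (by rw [h, map_zero])
  have h2 : F • (1 : (W⁄k).toAffine.CoordinateRing) +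
      (0 : k[X]) • CoordinateRing.mk (W⁄k).toAffine Y = 0 := by
    rw [CoordinateRing.smul, mul_one, h1, zero_smul, add_zero]
  exact (CoordinateRing.smul_basis_eq_zero h2).1

end Transc


/-! ## The core: specialisation along a valuation subring -/

section Core

variable (ℓ : ℕ) [Fact ℓ.Prime] (k : Type) [Field k] [CharP k ℓ] [DecidableEq k]
  (W : WeierstrassCurve ℤ)

/-- Base change of points along a ring homomorphism of fields commutes with Frobenius. -/
theorem S_map_frob {κ : Type*} [Field κ] [CharP κ ℓ] [DecidableEq κ] (ι : k →+* κ)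
    (P : (W⁄k).Point) :
    Point.map (W' := W) ι.toIntAlgHom (frob ℓ W P) =
      frob ℓ W (Point.map (W' := W) ι.toIntAlgHom P) := by
  rcases P with _ | ⟨x, y, h⟩
  · rfl
  · obtain ⟨h', e⟩ := S_frob_some ℓ W h
    rw [e, Point.map_some, Point.map_some]
    obtain ⟨h'', e'⟩ := S_frob_some ℓ W
      ((WeierstrassCurve.Affine.baseChange_nonsingular (W := W) ι.toIntAlgHom.injective ..).mpr h)
    rw [e']
    exact S_some_congr (map_pow ι x ℓ) (map_pow ι y ℓ) _ _

theorem S_map_lam {κ : Type*} [Field κ] [CharP κ ℓ] [DecidableEq κ] (ι : k →+* κ)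
    (m n r : ℤ) (P : (W⁄k).Point) :
    Point.map (W' := W) ι.toIntAlgHom (lam ℓ W m n r P) =
      lam ℓ W m n r (Point.map (W' := W) ι.toIntAlgHom P) := by
  rw [lam_apply, lam_apply, map_add, map_add, map_zsmul, map_zsmul, map_zsmul, S_map_frob,
    S_map_frob]


/-- The coefficients of the base change of an integral curve lie in every valuation subring. -/
theorem S_y_mem_KK {K : Type*} [Field K] (V : ValuationSubring K) {x y : K}
    (h : (W⁄K).Equation x y) (hx : x ∈ V) : y ∈ V :=
  S_y_mem V (W := W⁄K) (S_int_mem V W.a₁) (S_int_mem V W.a₂) (S_int_mem V W.a₃)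
    (S_int_mem V W.a₄) (S_int_mem V W.a₆) h hx

/-- Reduction commutes with Frobenius. -/
theorem S_red_frob {K κ : Type*} [Field K] [CharP K ℓ] [DecidableEq K] [Field κ] [CharP κ ℓ]
    [DecidableEq κ] (V : ValuationSubring K) (π : V →+* κ)
    (red : (W⁄K).Point →+ (W⁄κ).Point)
    (hred0 : ∀ (x y : K) (h : (W⁄K).toAffine.Nonsingular x y), x ∉ V →
      red (Point.some x y h) = 0)
    (hred1 : ∀ (x y : K) (h : (W⁄K).toAffine.Nonsingular x y) (hx : x ∈ V) (hy : y ∈ V),
        ∃ h' : (W⁄κ).toAffine.Nonsingular (π ⟨x, hx⟩) (π ⟨y, hy⟩),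
          red (Point.some x y h) = Point.some (π ⟨x, hx⟩) (π ⟨y, hy⟩) h')
    (Q : (W⁄K).Point) : red (frob ℓ W Q) = frob ℓ W (red Q) := by
  rcases Q with _ | ⟨x, y, h⟩
  · change red (frob ℓ W 0) = frob ℓ W (red 0)
    rw [S_frob_zero, map_zero, S_frob_zero]
  · obtain ⟨h', e⟩ := S_frob_some ℓ W h
    rw [e]
    by_cases hxV : x ∈ V
    · have hyV : y ∈ V := S_y_mem_KK W V h.1 hxV
      obtain ⟨h1, e1⟩ := hred1 x y h hxV hyV
      obtain ⟨h2, e2⟩ := hred1 (x ^ ℓ) (y ^ ℓ) h' (pow_mem hxV ℓ) (pow_mem hyV ℓ)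
      rw [e1, e2]
      obtain ⟨h3, e3⟩ := S_frob_some ℓ W h1
      rw [e3]
      exact S_some_congr (map_pow π ⟨x, hxV⟩ ℓ) (map_pow π ⟨y, hyV⟩ ℓ) _ _
    · rw [hred0 x y h hxV, hred0 _ _ h' (S_not_mem_pow V hxV (NeZero.ne ℓ)), S_frob_zero]

theorem S_red_lam {K κ : Type*} [Field K] [CharP K ℓ] [DecidableEq K] [Field κ] [CharP κ ℓ]
    [DecidableEq κ] (V : ValuationSubring K) (π : V →+* κ)
    (red : (W⁄K).Point →+ (W⁄κ).Point)
    (hred0 : ∀ (x y : K) (h : (W⁄K).toAffine.Nonsingular x y), x ∉ V →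
      red (Point.some x y h) = 0)
    (hred1 : ∀ (x y : K) (h : (W⁄K).toAffine.Nonsingular x y) (hx : x ∈ V) (hy : y ∈ V),
        ∃ h' : (W⁄κ).toAffine.Nonsingular (π ⟨x, hx⟩) (π ⟨y, hy⟩),
          red (Point.some x y h) = Point.some (π ⟨x, hx⟩) (π ⟨y, hy⟩) h')
    (m n r : ℤ) (Q : (W⁄K).Point) : red (lam ℓ W m n r Q) = lam ℓ W m n r (red Q) := by
  rw [lam_apply, lam_apply, map_add, map_add, map_zsmul, map_zsmul, map_zsmul,
    S_red_frob ℓ W V π red hred0 hred1, S_red_frob ℓ W V π red hred0 hred1]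


omit [DecidableEq k] in
theorem S_isUnit_eval {F G : k[X]} (h : IsCoprime F G) (x₀ : k) (hG : G.eval x₀ = 0) :
    F.eval x₀ ≠ 0 := by
  obtain ⟨a, b, hab⟩ := h
  have := congrArg (Polynomial.eval x₀) hab
  simp only [eval_add, eval_mul, hG, mul_zero, add_zero, eval_one] at this
  intro h0
  rw [h0, mul_zero] at this
  exact zero_ne_one this

/-- **Specialisation along a valuation subring** of the function field whose residue map sends
the generic point to `(x₀, y₀)`. -/
theorem S_core (hR : IfaceRed) (hW : Good k W)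
    (V : ValuationSubring (KK k W)) (κ : Type) [Field κ] [DecidableEq κ]
    (π : V →+* κ) (hπ : ∀ v : V, π v = 0 ↔ (v : KK k W) ∈ V.nonunits)
    (ι : k →+* κ) (x₀ y₀ : k) (h₀ : (W⁄k).toAffine.Nonsingular x₀ y₀)
    (hx : gx k W ∈ V) (hy : gy k W ∈ V)
    (hπx : π ⟨gx k W, hx⟩ = ι x₀) (hπy : π ⟨gy k W, hy⟩ = ι y₀)
    (hev : ∀ F : k[X], ∃ hF : aeval (gx k W) F ∈ V, π ⟨_, hF⟩ = ι (F.eval x₀))
    (m n r : ℤ) (F G : k[X])
    (hrep : IsXRep k W (lam ℓ W m n r (genPt k W hW)) F G) :
    ∃ c : k, c ≠ 0 ∧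
      F.eval x₀ = c * (lam ℓ W m n r (Point.some x₀ y₀ h₀)).xRep 0 ∧
      G.eval x₀ = c * (lam ℓ W m n r (Point.some x₀ y₀ h₀)).xRep 1 := by
  have : CharP κ ℓ := charP_of_injective_ringHom ι.injective ℓ
  -- the discriminant is a unit of `V`
  have hΔ : (W⁄(KK k W)).Δ ∉ V.nonunits := by
    have h1 : (W⁄(KK k W)).Δ = algebraMap ℤ (KK k W) W.Δ := WeierstrassCurve.map_Δ W _
    have h2 : (W⁄k).Δ = algebraMap ℤ k W.Δ := WeierstrassCurve.map_Δ W _
    rw [h1]
    intro hmem
    have h3 := (hπ ⟨algebraMap ℤ (KK k W) W.Δ, S_int_mem V W.Δ⟩).2 hmem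
    have h4 : (⟨algebraMap ℤ (KK k W) W.Δ, S_int_mem V W.Δ⟩ : V) = ((W.Δ : ℤ) : V) := by
      apply Subtype.ext
      simp
    rw [h4, map_intCast] at h3
    have h5 : ι (algebraMap ℤ k W.Δ) = 0 := by
      rw [eq_intCast, map_intCast]; exact h3
    rw [Good, h2] at hW
    exact hW ((map_eq_zero ι).1 h5)
  obtain ⟨red, hred0, hred1⟩ := hR (KK k W) V κ π hπ W hΔ
  -- the reduction of the generic point
  have hgen : red (genPt k W hW) = Point.map (W' := W) ι.toIntAlgHom (Point.some x₀ y₀ h₀) := by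
    obtain ⟨h', e⟩ := hred1 (gx k W) (gy k W) _ hx hy
    rw [genPt, e, Point.map_some]
    exact S_some_congr hπx hπy _ _
  -- the reduction of `ψ(generic point)`
  have hkey : red (lam ℓ W m n r (genPt k W hW)) =
      Point.map (W' := W) ι.toIntAlgHom (lam ℓ W m n r (Point.some x₀ y₀ h₀)) := by
    rw [S_red_lam ℓ W V π red hred0 hred1, hgen, S_map_lam]
  obtain ⟨hcop, c, hc, hF, hG⟩ := hrep
  obtain ⟨hFV, hFπ⟩ := hev F
  obtain ⟨hGV, hGπ⟩ := hev G
  have hzero : ∀ B : (W⁄k).Point, Point.map (W' := W) ι.toIntAlgHom B = 0 → B = 0 := by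
    intro B hB
    exact Point.map_injective (W' := W) ι.toIntAlgHom (by rw [hB]; rfl)
  generalize hA : lam ℓ W m n r (genPt k W hW) = A at hkey hF hG
  generalize hB : lam ℓ W m n r (Point.some x₀ y₀ h₀) = B at hkey ⊢
  rcases A with _ | ⟨xA, yA, hA'⟩
  · -- the generic value is zero
    have hB0 : B = 0 := hzero B (by rw [← hkey]; exact map_zero red)
    have hG0 : G = 0 := by
      apply S_aeval_gx_eq_zero k W
      rw [hG]
      change c * (0 : (W⁄(KK k W)).Point).xRep 1 = 0
      rw [Point.xRep_zero]; simp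
    refine ⟨F.eval x₀, S_isUnit_eval k hcop x₀ (by rw [hG0, eval_zero]), ?_, ?_⟩
    · rw [hB0, Point.xRep_zero]; simp
    · rw [hB0, Point.xRep_zero, hG0]; simp
  · rw [Point.xRep_some] at hF hG
    simp only [Matrix.cons_val_zero, Matrix.cons_val_one, mul_one] at hF hG
    by_cases hG0 : G.eval x₀ = 0
    · -- pole
      have hF0 : F.eval x₀ ≠ 0 := S_isUnit_eval k hcop x₀ hG0
      have hxA : xA ∉ V := by
        intro hxAV
        have h1 : π ⟨aeval (gx k W) F, hFV⟩ = π ⟨xA, hxAV⟩ * π ⟨aeval (gx k W) G, hGV⟩ := by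
          rw [← map_mul]
          congr 1
          apply Subtype.ext
          change aeval (gx k W) F = xA * aeval (gx k W) G
          rw [hF, hG, mul_comm]
        rw [hFπ, hGπ, hG0, map_zero, mul_zero] at h1
        exact hF0 ((map_eq_zero ι).1 h1)
      have hB0 : B = 0 := hzero B (by rw [← hkey]; exact hred0 xA yA hA' hxA)
      refine ⟨F.eval x₀, hF0, ?_, ?_⟩
      · rw [hB0, Point.xRep_zero]; simp
      · rw [hB0, Point.xRep_zero, hG0]; simp
    · -- regular value
      have hGu : aeval (gx k W) G ∉ V.nonunits := by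
        intro hmem
        have := (hπ ⟨_, hGV⟩).2 hmem
        rw [hGπ] at this
        exact hG0 ((map_eq_zero ι).1 this)
      have hGne : aeval (gx k W) G ≠ 0 := by
        intro h0
        apply hGu
        rw [h0, V.mem_nonunits_iff, map_zero]
        exact zero_lt_one
      have hxAeq : xA = aeval (gx k W) F * (aeval (gx k W) G)⁻¹ := by
        rw [hF, hG]; field_simp
      have hGinv : (aeval (gx k W) G)⁻¹ ∈ V := by
        by_contra hinv
        apply hGu
        rw [V.mem_nonunits_iff]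
        rw [← V.valuation_le_one_iff, not_le, map_inv₀] at hinv
        have hv0 : V.valuation (aeval (gx k W) G) ≠ 0 := (V.valuation.ne_zero_iff).2 hGne
        exact (one_lt_inv₀ (zero_lt_iff.2 hv0)).1 hinv
      have hxAV : xA ∈ V := by rw [hxAeq]; exact mul_mem hFV hGinv
      have hyAV : yA ∈ V := S_y_mem_KK W V hA'.1 hxAV
      obtain ⟨h', e⟩ := hred1 xA yA hA' hxAV hyAV
      rw [e] at hkey
      rcases B with _ | ⟨xB, yB, hB'⟩
      · exact absurd hkey.symm (by
          change Point.map (W' := W) ι.toIntAlgHom (0 : (W⁄k).Point) ≠ _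
          rw [map_zero]
          exact fun h => (Point.some_ne_zero _ h.symm).elim)
      · rw [Point.map_some] at hkey
        have hxB : π ⟨xA, hxAV⟩ = ι xB := by
          have := hkey
          simp only [Point.some.injEq] at this
          exact this.1
        have h1 : π ⟨aeval (gx k W) F, hFV⟩ = π ⟨xA, hxAV⟩ * π ⟨aeval (gx k W) G, hGV⟩ := by
          rw [← map_mul]
          congr 1
          apply Subtype.ext
          change aeval (gx k W) F = xA * aeval (gx k W) G
          rw [hF, hG, mul_comm]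
        rw [hFπ, hGπ, hxB, ← map_mul] at h1
        have h2 : F.eval x₀ = xB * G.eval x₀ := ι.injective h1
        refine ⟨G.eval x₀, hG0, ?_, ?_⟩
        · rw [Point.xRep_some]
          simp only [Matrix.cons_val_zero]
          rw [h2, mul_comm]
        · rw [Point.xRep_some]
          simp

end Core

/-! ## The valuation subring at a point, and the final statement -/

section Final

variable (k : Type) [Field k] (W : WeierstrassCurve ℤ)

/-- A valuation subring of the function field which contains the coordinate ring and whose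
maximal ideal contains the functions vanishing at the point `(x₀, y₀)`. -/
theorem S_exists_valuationSubring {x₀ y₀ : k}
    (h₀ : (W⁄k).toAffine.polynomial.evalEval x₀ y₀ = 0) :
    ∃ V : ValuationSubring (KK k W),
      (∀ a : (W⁄k).toAffine.CoordinateRing,
        algebraMap (W⁄k).toAffine.CoordinateRing (KK k W) a ∈ V) ∧
      (∀ a : (W⁄k).toAffine.CoordinateRing, AdjoinRoot.evalEval h₀ a = 0 →
        algebraMap (W⁄k).toAffine.CoordinateRing (KK k W) a ∈ V.nonunits) := by
  let alg := algebraMap (W⁄k).toAffine.CoordinateRing (KK k W)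
  let A : Subring (KK k W) := alg.range
  let I : Ideal A := Ideal.map alg.rangeRestrict (RingHom.ker (AdjoinRoot.evalEval h₀))
  have hI : I ≠ ⊤ := by
    intro htop
    have h1 : (1 : A) ∈ I := by rw [htop]; trivial
    rw [Ideal.mem_map_iff_of_surjective _ alg.rangeRestrict_surjective] at h1
    obtain ⟨a, ha, ha1⟩ := h1
    have h2 : alg a = 1 := congrArg Subtype.val ha1
    have ha' : a = 1 :=
      IsFractionRing.injective (W⁄k).toAffine.CoordinateRing (KK k W) (by rw [h2, map_one])
    rw [ha', RingHom.mem_ker, map_one] at ha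
    exact one_ne_zero ha
  obtain ⟨V, hAV, hIV⟩ := Ideal.image_subset_nonunits_valuationSubring I hI
  exact ⟨V, fun a => hAV ⟨a, rfl⟩,
    fun a ha => hIV ⟨alg.rangeRestrict a, Ideal.mem_map_of_mem _ ha, rfl⟩⟩

theorem S_evalEval_algebraMap {x₀ y₀ : k}
    (h₀ : (W⁄k).toAffine.polynomial.evalEval x₀ y₀ = 0) (c : k) :
    AdjoinRoot.evalEval h₀ (algebraMap k (W⁄k).toAffine.CoordinateRing c) = c := by
  change AdjoinRoot.evalEval h₀ (CoordinateRing.mk (W⁄k).toAffine (C (C c))) = c
  rw [AdjoinRoot.evalEval_mk, evalEval_CC]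

/-- **Task S**: specialisation of the generic point. -/
theorem spec (hR : IfaceRed) : IfaceSpec := by
  intro ℓ _ k _ _ _ _ W hW m n r F G hrep x₀ y₀ h₀
  have he : (W⁄k).toAffine.polynomial.evalEval x₀ y₀ = 0 := h₀.1
  obtain ⟨V, hV, hVm⟩ := S_exists_valuationSubring k W he
  letI : DecidableEq (IsLocalRing.ResidueField V) := Classical.decEq _
  have hπ : ∀ v : V, IsLocalRing.residue V v = 0 ↔ (v : KK k W) ∈ V.nonunits := fun v => by
    rw [IsLocalRing.residue_eq_zero_iff, ValuationSubring.coe_mem_nonunits_iff]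
  let φ : (W⁄k).toAffine.CoordinateRing →+* V :=
    (algebraMap (W⁄k).toAffine.CoordinateRing (KK k W)).codRestrict V.toSubring hV
  let ι : k →+* IsLocalRing.ResidueField V :=
    ((IsLocalRing.residue V).comp φ).comp (algebraMap k (W⁄k).toAffine.CoordinateRing)
  have hkey : ∀ a : (W⁄k).toAffine.CoordinateRing,
      IsLocalRing.residue V (φ a) = ι (AdjoinRoot.evalEval he a) := by
    intro a
    have h1 : AdjoinRoot.evalEval he
        (a - algebraMap k (W⁄k).toAffine.CoordinateRing (AdjoinRoot.evalEval he a)) = 0 := by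
      rw [map_sub, S_evalEval_algebraMap, sub_self]
    have h2 := (hπ (φ (a - algebraMap k (W⁄k).toAffine.CoordinateRing
      (AdjoinRoot.evalEval he a)))).2 (hVm _ h1)
    rw [map_sub, map_sub, sub_eq_zero] at h2
    exact h2
  have hx : gx k W ∈ V := hV _
  have hy : gy k W ∈ V := hV _
  have hπx : IsLocalRing.residue V ⟨gx k W, hx⟩ = ι x₀ := by
    have := hkey (CoordinateRing.mk (W⁄k).toAffine (C X))
    rw [AdjoinRoot.evalEval_mk, evalEval_C, eval_X] at this
    exact this
  have hπy : IsLocalRing.residue V ⟨gy k W, hy⟩ = ι y₀ := by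
    have := hkey (CoordinateRing.mk (W⁄k).toAffine Y)
    rw [AdjoinRoot.evalEval_mk, evalEval_X] at this
    exact this
  have hev : ∀ F : k[X], ∃ hF : aeval (gx k W) F ∈ V,
      IsLocalRing.residue V ⟨_, hF⟩ = ι (F.eval x₀) := by
    intro F
    have hmem : aeval (gx k W) F ∈ V := by rw [S_aeval_gx]; exact hV _
    refine ⟨hmem, ?_⟩
    have := hkey (CoordinateRing.mk (W⁄k).toAffine (C F))
    rw [AdjoinRoot.evalEval_mk, evalEval_C] at this
    rw [← this]
    congr 1
    apply Subtype.ext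
    exact S_aeval_gx k W F
  exact S_core ℓ k W hR hW V (IsLocalRing.ResidueField V) (IsLocalRing.residue V) hπ ι x₀ y₀ h₀
    hx hy hπx hπy hev m n r F G hrep

end Final

end

end Fermat.Agent.EFrob
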