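import Fermat.Agent.EFrob.Skeleton

/-!
# P-EFROB, task (X): rational `x`-coordinates on the Frobenius lattice of the generic point

`theorem xRat : IfaceXRat`: for every `m n r : ℤ` the point `m φ² G + n φ G + r G`
(`G` the generic point of `W` over the function field `KK k W`) has an `x`-coordinate in `k(x)`,
represented by a coprime pair of polynomials.

Route: the hyperelliptic involution `Y ↦ -Y - a₁ X - a₃` of the coordinate ring (`X_invR`) and of
the function field (`X_inv`); it sends the generic point to its negative and commutes with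
Frobenius, so it fixes the `x`-coordinate of every point of the Frobenius lattice; the invariants
of the coordinate ring are the polynomials in `X` (`X_invariant_mem_polynomial`, by the basis
`{1, Y}` and good reduction), hence the fixed field is `k(x)` (`X_fixed`).

Reusable: `X_invR`, `X_invR_mk`, `X_invariant_mem_polynomial`, `X_inv`, `X_inv_gx`, `X_inv_gy`,
`X_aeval_gx`, `X_aeval_gx_injective`, `X_fixed`, `X_exists_coprime`.
-/

set_option autoImplicit false

namespace Fermat.Agent.EFrob

open WeierstrassCurve WeierstrassCurve.Affine Polynomial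
open scoped Polynomial.Bivariate

noncomputable section

section Ring

variable {k : Type} [Field k] (V : Affine k)

/-- the Weierstrass polynomial is invariant under `Y ↦ -Y - a₁ X - a₃`. -/
lemma X_polynomial_comp_negPolynomial :
    V.polynomial.comp V.negPolynomial = V.polynomial := by
  simp only [Affine.polynomial, Affine.negPolynomial, sub_comp, add_comp, mul_comp, pow_comp,
    C_comp, X_comp]
  ring

lemma X_negPolynomial_comp_negPolynomial :
    V.negPolynomial.comp V.negPolynomial = (Polynomial.X : k[X][Y]) := by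
  simp only [Affine.negPolynomial, sub_comp, C_comp, X_comp, neg_comp]
  ring

/-- the hyperelliptic involution of the coordinate ring. -/
def X_invR : V.CoordinateRing →+* V.CoordinateRing :=
  AdjoinRoot.lift (AdjoinRoot.of V.polynomial) (CoordinateRing.mk V V.negPolynomial) (by
    have h := Polynomial.hom_eval₂ V.polynomial (Polynomial.C : k[X] →+* k[X][Y])
      (CoordinateRing.mk V) V.negPolynomial
    have h2 : (CoordinateRing.mk V).comp (Polynomial.C : k[X] →+* k[X][Y])
        = AdjoinRoot.of V.polynomial := rfl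
    rw [h2] at h
    rw [← h, ← Polynomial.comp, X_polynomial_comp_negPolynomial]
    exact AdjoinRoot.mk_self)

lemma X_invR_mk (p : k[X][Y]) :
    X_invR V (CoordinateRing.mk V p) = CoordinateRing.mk V (p.comp V.negPolynomial) := by
  have h := Polynomial.hom_eval₂ p (Polynomial.C : k[X] →+* k[X][Y])
      (CoordinateRing.mk V) V.negPolynomial
  have h2 : (CoordinateRing.mk V).comp (Polynomial.C : k[X] →+* k[X][Y])
      = AdjoinRoot.of V.polynomial := rfl
  rw [h2] at h
  rw [Polynomial.comp, h]
  exact AdjoinRoot.lift_mk _ _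

lemma X_invR_invR (z : V.CoordinateRing) : X_invR V (X_invR V z) = z := by
  obtain ⟨p, rfl⟩ := AdjoinRoot.mk_surjective z
  rw [X_invR_mk, X_invR_mk, Polynomial.comp_assoc, X_negPolynomial_comp_negPolynomial,
    Polynomial.comp_X]

lemma X_invR_injective : Function.Injective (X_invR V) :=
  Function.LeftInverse.injective (g := X_invR V) (X_invR_invR V)

lemma X_invR_C (u : k[X]) :
    X_invR V (CoordinateRing.mk V (Polynomial.C u)) = CoordinateRing.mk V (Polynomial.C u) := by
  rw [X_invR_mk, Polynomial.C_comp]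

lemma X_invR_Y :
    X_invR V (CoordinateRing.mk V Polynomial.X) = CoordinateRing.mk V V.negPolynomial := by
  rw [X_invR_mk, Polynomial.X_comp]

/-- if `2 v = 0` and `v (a₁ X + a₃) = 0` for a nonzero polynomial `v`, the discriminant
vanishes. -/
lemma X_Δ_eq_zero_of (hV2 : (2 : k) = 0) (h1 : V.a₁ = 0) (h3 : V.a₃ = 0) : V.Δ = 0 := by
  simp only [WeierstrassCurve.Δ, WeierstrassCurve.b₂, WeierstrassCurve.b₄, WeierstrassCurve.b₆,
    WeierstrassCurve.b₈, h1, h3]
  linear_combination (-8 * V.a₂ ^ 2 * (4 * V.a₂ * V.a₆ - V.a₄ ^ 2) - 32 * V.a₄ ^ 3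
    - 216 * V.a₆ ^ 2 + 144 * V.a₂ * V.a₄ * V.a₆) * hV2

/-- invariants of the involution of the coordinate ring are polynomials in `X`. -/
lemma X_invariant_mem_polynomial (hΔ : V.Δ ≠ 0) (w : V.CoordinateRing)
    (hw : X_invR V w = w) : ∃ u : k[X], w = CoordinateRing.mk V (Polynomial.C u) := by
  obtain ⟨u, v, rfl⟩ := CoordinateRing.exists_smul_basis_eq w
  rw [CoordinateRing.smul, CoordinateRing.smul, mul_one] at hw ⊢
  rw [map_add, map_mul, X_invR_C, X_invR_C, X_invR_Y] at hw
  -- hw : mk (C u) + mk (C v) * mk negPolynomial = mk (C u) + mk (C v) * mk Y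
  have hneg : CoordinateRing.mk V V.negPolynomial
      = -CoordinateRing.mk V Polynomial.X
        - CoordinateRing.mk V (Polynomial.C (Polynomial.C V.a₁ * Polynomial.X + Polynomial.C V.a₃)) := by
    simp only [Affine.negPolynomial, map_sub, map_neg]
  rw [hneg] at hw
  have h0 : (-(v * (Polynomial.C V.a₁ * Polynomial.X + Polynomial.C V.a₃))) •
      (1 : V.CoordinateRing) + (-(2 * v)) • CoordinateRing.mk V Polynomial.X = 0 := by
    rw [CoordinateRing.smul, CoordinateRing.smul, mul_one]
    simp only [map_neg, map_mul, map_add, map_ofNat] at hw ⊢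
    linear_combination hw
  obtain ⟨ha, hb⟩ := CoordinateRing.smul_basis_eq_zero h0
  have hv : v = 0 := by
    by_contra hv
    have h2v : (2 : k[X]) = 0 := by
      rcases mul_eq_zero.mp (neg_eq_zero.mp hb) with h | h
      · exact h
      · exact absurd h hv
    have hlin : Polynomial.C V.a₁ * Polynomial.X + Polynomial.C V.a₃ = 0 := by
      rcases mul_eq_zero.mp (neg_eq_zero.mp ha) with h | h
      · exact absurd h hv
      · exact h
    have hk2 : (2 : k) = 0 := by
      have := congrArg (fun p : k[X] => p.coeff 0) h2v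
      simpa using this
    have h1 : V.a₁ = 0 := by
      have := congrArg (fun p : k[X] => p.coeff 1) hlin
      simpa using this
    have h3 : V.a₃ = 0 := by
      have := congrArg (fun p : k[X] => p.coeff 0) hlin
      simpa using this
    exact hΔ (X_Δ_eq_zero_of V hk2 h1 h3)
  refine ⟨u, ?_⟩
  rw [hv]
  simp

end Ring

section Field

variable (k : Type) [Field k] (W : WeierstrassCurve ℤ)

lemma X_comp_injective :
    Function.Injective ((algebraMap (W⁄k).toAffine.CoordinateRing (KK k W)).comp
      (X_invR (W⁄k).toAffine)) :=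
  (IsFractionRing.injective (W⁄k).toAffine.CoordinateRing (KK k W)).comp
    (X_invR_injective (W⁄k).toAffine)

/-- the hyperelliptic involution of the function field. -/
def X_inv : KK k W →+* KK k W :=
  IsFractionRing.lift (X_comp_injective k W)

lemma X_inv_algebraMap (z : (W⁄k).toAffine.CoordinateRing) :
    X_inv k W (algebraMap (W⁄k).toAffine.CoordinateRing (KK k W) z)
      = algebraMap (W⁄k).toAffine.CoordinateRing (KK k W) (X_invR (W⁄k).toAffine z) :=
  IsFractionRing.lift_algebraMap (X_comp_injective k W) z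

lemma X_inv_inv (z : KK k W) : X_inv k W (X_inv k W z) = z := by
  have h : (X_inv k W).comp (X_inv k W) = RingHom.id (KK k W) :=
    IsFractionRing.ringHom_ext (A := (W⁄k).toAffine.CoordinateRing) (fun x => by
      rw [RingHom.comp_apply, X_inv_algebraMap, X_inv_algebraMap, X_invR_invR, RingHom.id_apply])
  exact RingHom.congr_fun h z

lemma X_inv_gx : X_inv k W (gx k W) = gx k W := by
  rw [gx, X_inv_algebraMap, X_invR_C]

lemma X_inv_gy :
    X_inv k W (gy k W) = (W⁄(KK k W)).toAffine.negY (gx k W) (gy k W) := by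
  have e1 : (W⁄(KK k W)).toAffine.a₁ = algebraMap ℤ (KK k W) W.a₁ := rfl
  have e3 : (W⁄(KK k W)).toAffine.a₃ = algebraMap ℤ (KK k W) W.a₃ := rfl
  have f1 : (W⁄k).toAffine.a₁ = algebraMap ℤ k W.a₁ := rfl
  have f3 : (W⁄k).toAffine.a₃ = algebraMap ℤ k W.a₃ := rfl
  rw [Affine.negY, e1, e3, algebraMap_int_KK, algebraMap_int_KK]
  unfold gx gy
  rw [X_inv_algebraMap, X_invR_Y]
  simp only [Affine.negPolynomial, map_sub, map_neg, map_add, map_mul, f1, f3]
  ring

lemma X_inv_algebraMap_k (c : k) :
    X_inv k W (algebraMap k (KK k W) c) = algebraMap k (KK k W) c := by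
  rw [algebraMap_KK, X_inv_algebraMap, X_invR_C]

/-- `aeval gx` in terms of the coordinate ring. -/
lemma X_aeval_gx (p : k[X]) :
    aeval (gx k W) p = algebraMap (W⁄k).toAffine.CoordinateRing (KK k W)
      (CoordinateRing.mk (W⁄k).toAffine (Polynomial.C p)) := by
  induction p using Polynomial.induction_on' with
  | add p q hp hq => rw [map_add, hp, hq, map_add, map_add, map_add]
  | monomial n a =>
    rw [← Polynomial.C_mul_X_pow_eq_monomial]
    simp only [map_mul, map_pow, aeval_C, aeval_X]
    rw [algebraMap_KK, gx]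

lemma X_inv_aeval_gx (p : k[X]) : X_inv k W (aeval (gx k W) p) = aeval (gx k W) p := by
  rw [X_aeval_gx, X_inv_algebraMap, X_invR_C]

lemma X_aeval_gx_injective : Function.Injective (aeval (R := k) (gx k W)) := by
  rw [injective_iff_map_eq_zero]
  intro p hp
  rw [X_aeval_gx] at hp
  have h1 := (IsFractionRing.injective (W⁄k).toAffine.CoordinateRing (KK k W))
    (hp.trans (map_zero _).symm)
  have h2 : p • (1 : (W⁄k).toAffine.CoordinateRing)
      + (0 : k[X]) • CoordinateRing.mk (W⁄k).toAffine Polynomial.X = 0 := by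
    rw [CoordinateRing.smul, mul_one, h1, zero_smul, add_zero]
  exact (CoordinateRing.smul_basis_eq_zero h2).1

/-- the fixed field of the involution is `k(x)`. -/
lemma X_fixed (hW : Good k W) (z : KK k W) (hz : X_inv k W z = z) :
    ∃ F G : k[X], G ≠ 0 ∧ z * aeval (gx k W) G = aeval (gx k W) F := by
  obtain ⟨n, d, hd, rfl⟩ := IsFractionRing.div_surjective (W⁄k).toAffine.CoordinateRing z
  have hd0 : d ≠ 0 := nonZeroDivisors.ne_zero hd
  set ι := X_invR (W⁄k).toAffine with hι
  have hιd0 : ι d ≠ 0 := fun h => hd0 (X_invR_injective _ (h.trans (map_zero _).symm))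
  -- the norm of d
  obtain ⟨G, hG⟩ := X_invariant_mem_polynomial (W⁄k).toAffine hW (d * ι d) (by
    rw [map_mul, X_invR_invR, mul_comm])
  have hinj := IsFractionRing.injective (W⁄k).toAffine.CoordinateRing (KK k W)
  have hdK : algebraMap (W⁄k).toAffine.CoordinateRing (KK k W) d ≠ 0 := fun h =>
    hd0 (hinj (h.trans (map_zero _).symm))
  have hιdK : algebraMap (W⁄k).toAffine.CoordinateRing (KK k W) (ι d) ≠ 0 := fun h =>
    hιd0 (hinj (h.trans (map_zero _).symm))
  -- invariance of n * ι d
  have hinv : ι (n * ι d) = n * ι d := by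
    rw [map_div₀, X_inv_algebraMap, X_inv_algebraMap] at hz
    rw [div_eq_div_iff hιdK hdK] at hz
    rw [map_mul, X_invR_invR]
    apply hinj
    rw [map_mul, map_mul]
    linear_combination hz
  obtain ⟨F, hF⟩ := X_invariant_mem_polynomial (W⁄k).toAffine hW (n * ι d) hinv
  refine ⟨F, G, ?_, ?_⟩
  · rintro rfl
    rw [Polynomial.C_0, map_zero] at hG
    exact (mul_ne_zero hd0 hιd0) hG
  · rw [X_aeval_gx, X_aeval_gx, ← hG, ← hF, map_mul, map_mul]
    field_simp

end Field

section Points

variable (ℓ : ℕ) [Fact ℓ.Prime] (k : Type) [Field k] [CharP k ℓ] (W : WeierstrassCurve ℤ)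

/-- the automorphism of the group of points over the function field induced by the
involution. -/
def X_invPt : (W⁄(KK k W)).Point →+ (W⁄(KK k W)).Point :=
  Point.map (W' := W) (X_inv k W).toIntAlgHom

lemma X_invPt_some {x y : KK k W} (h : (W⁄(KK k W)).toAffine.Nonsingular x y) :
    ∃ h' : (W⁄(KK k W)).toAffine.Nonsingular (X_inv k W x) (X_inv k W y),
      X_invPt k W (Point.some x y h) = Point.some (X_inv k W x) (X_inv k W y) h' :=
  ⟨_, rfl⟩

lemma X_some_congr {F : Type*} [Field F] {V : Affine F} {x x' y y' : F} (hx : x = x')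
    (hy : y = y') (h : V.Nonsingular x y) (h' : V.Nonsingular x' y') :
    Point.some x y h = Point.some x' y' h' := by
  subst hx
  subst hy
  rfl

lemma X_invPt_genPt (hW : Good k W) : X_invPt k W (genPt k W hW) = -genPt k W hW := by
  obtain ⟨h', e⟩ := X_invPt_some k W
    ((equation_iff_nonsingular_of_Δ_ne_zero (good_KK k W hW)).mp (gen_equation k W))
  rw [genPt, e, Point.neg_some]
  exact X_some_congr (X_inv_gx k W) (X_inv_gy k W) _ _

lemma X_xRep_invPt (P : (W⁄(KK k W)).Point) (i : Fin 2) :
    (X_invPt k W P).xRep i = X_inv k W (P.xRep i) := by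
  rcases P with _ | ⟨x, y, h⟩
  · change (X_invPt k W 0).xRep i = X_inv k W ((0 : (W⁄(KK k W)).Point).xRep i)
    rw [map_zero, Point.xRep_zero]
    fin_cases i <;> simp
  · obtain ⟨h', e⟩ := X_invPt_some k W h
    rw [e, Point.xRep_some, Point.xRep_some]
    fin_cases i <;> simp

lemma X_invPt_frob (P : (W⁄(KK k W)).Point) :
    X_invPt k W (frob ℓ W P) = frob ℓ W (X_invPt k W P) := by
  unfold X_invPt frob
  rw [Point.map_map, Point.map_map]
  have hcomm : (X_inv k W).toIntAlgHom.comp (frobenius (KK k W) ℓ).toIntAlgHom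
      = (frobenius (KK k W) ℓ).toIntAlgHom.comp (X_inv k W).toIntAlgHom := by
    ext z
    change X_inv k W (frobenius (KK k W) ℓ z) = frobenius (KK k W) ℓ (X_inv k W z)
    rw [frobenius_def, frobenius_def, map_pow]
  rw [hcomm]

lemma X_invPt_lam (m n r : ℤ) (P : (W⁄(KK k W)).Point) :
    X_invPt k W (lam ℓ W m n r P) = lam ℓ W m n r (X_invPt k W P) := by
  rw [lam_apply, lam_apply, map_add, map_add, map_zsmul, map_zsmul, map_zsmul, X_invPt_frob,
    X_invPt_frob]

/-- the coordinates of `x(m φ² G + n φ G + r G)` are fixed by the involution. -/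
lemma X_xRep_fixed (hW : Good k W) (m n r : ℤ) (i : Fin 2) :
    X_inv k W ((lam ℓ W m n r (genPt k W hW)).xRep i)
      = (lam ℓ W m n r (genPt k W hW)).xRep i := by
  rw [← X_xRep_invPt, X_invPt_lam, X_invPt_genPt, map_neg, Point.xRep_neg]

/-- reduction of a fraction of polynomials to lowest terms. -/
lemma X_exists_coprime (F₀ G₀ : k[X]) (hG : G₀ ≠ 0) :
    ∃ F G g : k[X], g ≠ 0 ∧ G ≠ 0 ∧ F₀ = g * F ∧ G₀ = g * G ∧ IsCoprime F G := by
  classical
  have hg0 : EuclideanDomain.gcd F₀ G₀ ≠ 0 := fun h =>
    hG ((EuclideanDomain.gcd_eq_zero_iff.mp h).2)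
  obtain ⟨F, hF⟩ := EuclideanDomain.gcd_dvd_left F₀ G₀
  obtain ⟨G, hGd⟩ := EuclideanDomain.gcd_dvd_right F₀ G₀
  have hbez := EuclideanDomain.gcd_eq_gcd_ab F₀ G₀
  refine ⟨F, G, EuclideanDomain.gcd F₀ G₀, hg0, ?_, hF, hGd, ?_⟩
  · rintro rfl
    rw [mul_zero] at hGd
    exact hG hGd
  · refine ⟨EuclideanDomain.gcdA F₀ G₀, EuclideanDomain.gcdB F₀ G₀, ?_⟩
    apply mul_left_cancel₀ hg0
    rw [mul_one]
    calc EuclideanDomain.gcd F₀ G₀ *
          (EuclideanDomain.gcdA F₀ G₀ * F + EuclideanDomain.gcdB F₀ G₀ * G)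
        = (EuclideanDomain.gcd F₀ G₀ * F) * EuclideanDomain.gcdA F₀ G₀
          + (EuclideanDomain.gcd F₀ G₀ * G) * EuclideanDomain.gcdB F₀ G₀ := by ring
      _ = F₀ * EuclideanDomain.gcdA F₀ G₀ + G₀ * EuclideanDomain.gcdB F₀ G₀ := by
          rw [← hF, ← hGd]
      _ = EuclideanDomain.gcd F₀ G₀ := hbez.symm

end Points

/-- **(X)** Every point `m φ² G + n φ G + r G` of the Frobenius lattice of the generic point has
a rational `x`-coordinate. -/
theorem xRat : IfaceXRat := by
  intro ℓ _ k _ _ W hW m n r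
  have hfix := X_xRep_fixed ℓ k W hW m n r
  generalize lam ℓ W m n r (genPt k W hW) = A at hfix
  rcases A with _ | ⟨x, y, h⟩
  · refine ⟨1, 0, isCoprime_one_left, 1, one_ne_zero, ?_, ?_⟩
    · change _ = 1 * (0 : (W⁄(KK k W)).Point).xRep 0
      rw [Point.xRep_zero]
      simp
    · change _ = 1 * (0 : (W⁄(KK k W)).Point).xRep 1
      rw [Point.xRep_zero]
      simp
  · have hx : X_inv k W x = x := by
      have := hfix 0
      rwa [Point.xRep_some] at this
    obtain ⟨F₀, G₀, hG₀, hrel⟩ := X_fixed k W hW x hx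
    obtain ⟨F, G, g, hg0, hG0, hF, hG, hcop⟩ := X_exists_coprime k F₀ G₀ hG₀
    have hgK : aeval (gx k W) g ≠ 0 := fun h0 =>
      hg0 (X_aeval_gx_injective k W (h0.trans (map_zero _).symm))
    have hGK : aeval (gx k W) G ≠ 0 := fun h0 =>
      hG0 (X_aeval_gx_injective k W (h0.trans (map_zero _).symm))
    refine ⟨F, G, hcop, aeval (gx k W) G, hGK, ?_, ?_⟩
    · rw [Point.xRep_some]
      rw [hF, hG, map_mul, map_mul] at hrel
      have : x * aeval (gx k W) G = aeval (gx k W) F := by
        apply mul_left_cancel₀ hgK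
        linear_combination hrel
      simp only [Matrix.cons_val_zero]
      rw [← this, mul_comm]
    · rw [Point.xRep_some]
      simp

end

end Fermat.Agent.EFrob
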