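import Fermat.Agent.EFrob.CoreAsm
import Fermat.Agent.EFrob.AddSub
import Fermat.Agent.EFrob.Parallelogram
import Fermat.Agent.EFrob.XRat
import Fermat.Agent.EFrob.FrobFormula
import Fermat.Agent.EFrob.Red
import Fermat.Agent.EFrob.Spec
import Fermat.Agent.EFrob.Count
import Fermat.Agent.EFrob.Fixed

/-!
# P-EFROB: the unconditional core

`coreU : IfaceCore`: for a prime `ℓ`, an algebraically closed field `k` of characteristic `ℓ` and
an integral Weierstrass curve `W` with good reduction in `k`, every point `P` of `W` over `k`
satisfies `φ² P - a_ℓ φ P + ℓ P = 0`, where `a_ℓ = W.apOfModel ℓ = ℓ + 1 - #W(𝔽_ℓ)`.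
-/

set_option autoImplicit false

namespace Fermat.Agent.EFrob

/-- **The characteristic equation of Frobenius** (Hasse / Eichler–Shimura relation for elliptic
curves), unconditional. -/
theorem coreU : IfaceCore :=
  core (parallelogram addSub) xRat frobFormula (spec red) count fixed

end Fermat.Agent.EFrob
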