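import Fermat.Agent.EFrob.CoreHeights

/-!
# P-EFROB (CA): values of the height

`ht (0,0,1) = 1`, `ht (0,1,0) = ℓ`, `ht (1,0,0) = ℓ²`, `ht (n, r, 0) = ℓ · ht (0, n, r)`, and the
criterion "`ht ψ = # ker ψ`" for the separable endomorphisms `φ ∓ 1`, `φ² - 1`.
-/

set_option autoImplicit false

namespace Fermat.Agent.EFrob

open WeierstrassCurve WeierstrassCurve.Affine Polynomial

noncomputable section

section Values

variable (ℓ : ℕ) [Fact ℓ.Prime] (k : Type) [Field k] [CharP k ℓ] (W : WeierstrassCurve ℤ)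
  (hW : Good k W) (hH : IfaceParallelogram) (hX : IfaceXRat)

include hH

lemma CA_ht_001 : CA_ht ℓ k W hW hX 0 0 1 = 1 := by
  have h : IsXRep k W (lam ℓ W 0 0 1 (genPt k W hW)) X 1 := by
    rw [CA_lam_001]
    exact isXRep_genPt k W hW
  rw [CA_ht_eq ℓ k W hW hH hX h]
  simp

/-- `ht (n, r, 0) = ℓ · ht (0, n, r)`: composition with Frobenius multiplies the height by `ℓ`. -/
lemma CA_ht_shift (n r : ℤ) :
    CA_ht ℓ k W hW hX n r 0 = ℓ * CA_ht ℓ k W hW hX 0 n r := by
  obtain ⟨F, G, h, e⟩ := CA_ht_spec ℓ k W hW hX 0 n r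
  have h' := CA_isXRep_frob ℓ k W h
  have e' : frob ℓ W (lam ℓ W 0 n r (genPt k W hW)) = lam ℓ W n r 0 (genPt k W hW) := by
    simp only [lam_apply, map_add, map_zsmul, zero_smul, zero_add, add_zero]
  rw [e'] at h'
  rw [CA_ht_eq ℓ k W hW hH hX h', e, natDegree_pow, natDegree_pow, Nat.mul_max_mul_left]
  push_cast
  ring

lemma CA_ht_010 : CA_ht ℓ k W hW hX 0 1 0 = ℓ := by
  rw [CA_ht_shift ℓ k W hW hH hX 0 1, CA_ht_001 ℓ k W hW hH hX, mul_one]

lemma CA_ht_100 : CA_ht ℓ k W hW hX 1 0 0 = (ℓ : ℤ) ^ 2 := by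
  rw [CA_ht_shift ℓ k W hW hH hX 1 0, CA_ht_010 ℓ k W hW hH hX]
  ring

end Values

section Wronskian

variable {k : Type} [Field k]

/-- If `F D = G F₀` then `G² Wr(F₀, D) = D² Wr(F, G)`. -/
lemma CA_wronskian_transfer {F G F₀ D : k[X]} (h : F * D = G * F₀) :
    G ^ 2 * (derivative F₀ * D - F₀ * derivative D) =
      D ^ 2 * (derivative F * G - F * derivative G) := by
  have h' : derivative F * D + F * derivative D = derivative G * F₀ + G * derivative F₀ := by
    rw [← derivative_mul, ← derivative_mul, h]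
  linear_combination (G * derivative D + D * derivative G) * h + (- G * D) * h'

/-- The Wronskian of a monic polynomial of degree `2 q + 1` and `(X ^ q - X) ^ 2` does not vanish
when `q = 0` in `k`. -/
lemma CA_wronskian_ne_zero (q : ℕ) (hq : 2 ≤ q) (hqk : (q : k) = 0) {F₀ : k[X]}
    (hF₀ : F₀.Monic) (hdeg : F₀.natDegree = 2 * q + 1) :
    derivative F₀ * (X ^ q - X) ^ 2 - F₀ * derivative ((X ^ q - X) ^ 2 : k[X]) ≠ 0 := by
  intro h0
  have hD : derivative ((X ^ q - X) ^ 2 : k[X]) = -(2 * (X ^ q - X)) := by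
    rw [derivative_pow, derivative_sub, derivative_X_pow, derivative_X, hqk]
    simp only [Nat.cast_ofNat, C_0, zero_mul, zero_sub, Nat.add_one_sub_one, pow_one, map_ofNat]
    ring
  rw [hD] at h0
  have h1 : (X ^ q - X : k[X]) * (derivative F₀ * (X ^ q - X) + 2 * F₀) = 0 := by
    linear_combination h0
  have hne : (X ^ q - X : k[X]) ≠ 0 := FiniteField.X_pow_card_sub_X_ne_zero k (by omega)
  have h2 : derivative F₀ * (X ^ q - X) + 2 * F₀ = 0 := by
    rcases mul_eq_zero.1 h1 with h | h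
    · exact absurd h hne
    · exact h
  have h3 := congrArg (fun p : k[X] => p.coeff (3 * q)) h2
  simp only [coeff_add, mul_sub, coeff_sub, coeff_zero] at h3
  have c1 : (derivative F₀ * X ^ q).coeff (3 * q) = 1 := by
    have : 3 * q = 2 * q + q := by ring
    rw [this, coeff_mul_X_pow, coeff_derivative]
    have hlc : F₀.coeff (2 * q + 1) = 1 := by
      rw [← hdeg]
      exact hF₀.coeff_natDegree
    rw [hlc]
    push_cast
    rw [hqk]
    ring
  have c2 : (derivative F₀ * X).coeff (3 * q) = 0 := by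
    have : 3 * q = (3 * q - 1) + 1 := by omega
    rw [this, coeff_mul_X, coeff_derivative]
    have hlc : F₀.coeff (3 * q - 1 + 1) = 0 := by
      apply coeff_eq_zero_of_natDegree_lt
      omega
    rw [hlc, zero_mul]
  have c3 : (2 * F₀).coeff (3 * q) = 0 := by
    have h2' : (2 : k[X]) = C 2 := (map_ofNat C 2).symm
    rw [h2', coeff_C_mul]
    have hlc : F₀.coeff (3 * q) = 0 := by
      apply coeff_eq_zero_of_natDegree_lt
      omega
    rw [hlc, mul_zero]
  rw [c1, c2, c3] at h3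
  simp at h3

end Wronskian

section Kernel

variable (ℓ : ℕ) [Fact ℓ.Prime] (k : Type) [Field k] [IsAlgClosed k] [CharP k ℓ] [DecidableEq k]
  (W : WeierstrassCurve ℤ) (hW : Good k W) (hH : IfaceParallelogram) (hX : IfaceXRat)
  (hS : IfaceSpec) (hC : IfaceCount)

include hH hS hC

/-- The criterion: if `x(ψ G) (x ^ q - x) ^ 2 = F₀(x)` with `F₀` monic of degree `2 q + 1`, then
`ψ` is surjective on `E(k)` and its kernel has `ht ψ` elements. -/
lemma CA_ker_of_formula (q : ℕ) (hq : 2 ≤ q) (hqk : (q : k) = 0) (m n r : ℤ) (F₀ : k[X])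
    (hF₀ : F₀.Monic) (hdeg : F₀.natDegree = 2 * q + 1)
    (x₃ y₃ : KK k W) (h : (W⁄(KK k W)).toAffine.Nonsingular x₃ y₃)
    (e : lam ℓ W m n r (genPt k W hW) = Point.some x₃ y₃ h)
    (ex : x₃ * (gx k W ^ q - gx k W) ^ 2 = aeval (gx k W) F₀) :
    Function.Surjective (lam (K := k) ℓ W m n r) ∧
      (Nat.card (lam (K := k) ℓ W m n r).ker : ℤ) = CA_ht ℓ k W hW hX m n r := by
  obtain ⟨F, G, hFG⟩ := hX ℓ k W hW m n r
  have hFG' := hFG
  obtain ⟨hcop, c, hc0, h0, h1⟩ := hFG'
  rw [e, Point.xRep_some] at h0 h1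
  simp only [Matrix.cons_val_zero, Matrix.cons_val_one, mul_one] at h0 h1
  have hFD : F * (X ^ q - X) ^ 2 = G * F₀ := by
    apply aeval_gx_injective k W
    rw [map_mul, map_mul, map_pow, map_sub, map_pow, aeval_X, h0, h1, ← ex]
    ring
  have hG0 : G ≠ 0 := by
    rintro rfl
    rw [map_zero] at h1
    exact hc0 h1.symm
  have hD0 : ((X ^ q - X) ^ 2 : k[X]) ≠ 0 :=
    pow_ne_zero _ (FiniteField.X_pow_card_sub_X_ne_zero k (by omega))
  have hF0 : F ≠ 0 := by
    rintro rfl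
    rw [zero_mul] at hFD
    rcases mul_eq_zero.1 hFD.symm with h | h
    · exact hG0 h
    · exact hF₀.ne_zero h
  have hdegD : ((X ^ q - X) ^ 2 : k[X]).natDegree = 2 * q := by
    rw [natDegree_pow, FiniteField.X_pow_card_sub_X_natDegree_eq k (by omega)]
  have hdegFG : F.natDegree = G.natDegree + 1 := by
    have := congrArg natDegree hFD
    rw [natDegree_mul hF0 hD0, natDegree_mul hG0 hF₀.ne_zero, hdegD, hdeg] at this
    omega
  have hWr : derivative F * G - F * derivative G ≠ 0 := by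
    intro hWr
    have := CA_wronskian_transfer hFD
    rw [hWr, mul_zero] at this
    rcases mul_eq_zero.1 this with h | h
    · exact hG0 (pow_eq_zero_iff (two_ne_zero)|>.1 h)
    · exact CA_wronskian_ne_zero q hq hqk hF₀ hdeg h
  obtain ⟨hsurj, hcard⟩ := hC k (W⁄k) hW (lam (K := k) ℓ W m n r) F G hcop (by omega) hWr
    (hS ℓ k W hW m n r F G hFG)
  refine ⟨hsurj, ?_⟩
  rw [CA_ht_eq ℓ k W hW hH hX hFG, hcard, hdegFG]
  congr 1
  omega

end Kernel

end

end Fermat.Agent.EFrob
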