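import Mathlib
import Fermat.Prelude.Def_FLTPrelim_Modularity
import Fermat.Prelude.Def_FLTPrelim_GaloisRep
import Fermat.Prelude.Def_FLTPrelim_Ramification
import Fermat.Prelude.Def_EllipticCurve_FrobeniusTrace

/-!
# P-EFROB: Frobenius on the torsion of an elliptic curve — shared definitions

Architect: helper6.  Goal of the pillar: for an integral Weierstrass curve `W`, a prime `ℓ` of
good reduction and a prime `p ≠ ℓ`, every Frobenius element `σ` at a place over `ℓ` acts on
`E[p](Qbar)` with characteristic polynomial `X² - a_ℓ X + ℓ`, where `a_ℓ = W.apOfModel ℓ` is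
defined by counting points of the reduction (this is how the Prelude defines modularity).

This file contains only definitions and a few trivial lemmas (no theorem is assumed anywhere).

Conventions of the pillar: the curve is ALWAYS `W : WeierstrassCurve ℤ` and is base-changed to
fields `K` through the canonical `ℤ`-algebra structure (`W⁄K`); every ring homomorphism of fields
is a `ℤ`-algebra homomorphism (`RingHom.toIntAlgHom`), so `Point.map` applies to all of them.

* `frob ℓ W : (W⁄K).Point →+ (W⁄K).Point`, the `ℓ`-power Frobenius on points (`CharP K ℓ`);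
* `lam ℓ W m n r Q = m • φ² Q + n • φ Q + r • Q`;
* `KK k W`, the function field of `W⁄k`; `gx`, `gy` the coordinate functions, `genPt` the generic
  point `(x, y)`;
* `IsXRep k W A F G`: the coprime pair `F, G : k[X]` represents the `x`-coordinate of the point
  `A` over the function field (`x(A) = F(x) / G(x)`, and `G = 0` iff `A = 0`).
-/

set_option autoImplicit false

namespace Fermat.Agent.EFrob

open WeierstrassCurve WeierstrassCurve.Affine Polynomial
open scoped Polynomial.Bivariate

noncomputable section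

/-- The `ℓ`-power Frobenius endomorphism of the group of points (the curve is defined over
`ℤ`). -/
def frob (ℓ : ℕ) [Fact ℓ.Prime] {K : Type*} [Field K] [CharP K ℓ] [DecidableEq K]
    (W : WeierstrassCurve ℤ) : (W⁄K).Point →+ (W⁄K).Point :=
  Point.map (W' := W) (frobenius K ℓ).toIntAlgHom

/-- `lam ℓ W m n r Q = m • φ² Q + n • φ Q + r • Q`. -/
def lam (ℓ : ℕ) [Fact ℓ.Prime] {K : Type*} [Field K] [CharP K ℓ] [DecidableEq K]
    (W : WeierstrassCurve ℤ) (m n r : ℤ) : (W⁄K).Point →+ (W⁄K).Point :=
  (zsmulAddGroupHom m).comp ((frob ℓ W).comp (frob ℓ W)) +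
    (zsmulAddGroupHom n).comp (frob ℓ W) + zsmulAddGroupHom r

lemma lam_apply (ℓ : ℕ) [Fact ℓ.Prime] {K : Type*} [Field K] [CharP K ℓ] [DecidableEq K]
    (W : WeierstrassCurve ℤ) (m n r : ℤ) (Q : (W⁄K).Point) :
    lam ℓ W m n r Q = m • frob ℓ W (frob ℓ W Q) + n • frob ℓ W Q + r • Q :=
  rfl

/-- Transport of points along an equality of curves. -/
def pointCongr {F : Type*} [Field F] [DecidableEq F] {W₁ W₂ : WeierstrassCurve F}
    (h : W₁ = W₂) : W₁.toAffine.Point ≃+ W₂.toAffine.Point :=
  h ▸ AddEquiv.refl _

lemma pointCongr_zero {F : Type*} [Field F] [DecidableEq F] {W₁ W₂ : WeierstrassCurve F}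
    (h : W₁ = W₂) : pointCongr h 0 = 0 := map_zero _

lemma pointCongr_some {F : Type*} [Field F] [DecidableEq F] {W₁ W₂ : WeierstrassCurve F}
    (h : W₁ = W₂) {x y : F} (hxy : W₁.toAffine.Nonsingular x y) :
    pointCongr h (Point.some x y hxy) = Point.some x y (h ▸ hxy) := by
  subst h
  rfl

section Generic

variable (k : Type) [Field k] (W : WeierstrassCurve ℤ)

/-- The function field of `W⁄k` (a type synonym of Mathlib's `FunctionField`, with its own
instances so that the `ℤ`-algebra structure is the canonical one of a ring). -/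
def KK : Type := (W⁄k).toAffine.FunctionField

instance instFieldKK : Field (KK k W) :=
  inferInstanceAs (Field (W⁄k).toAffine.FunctionField)

instance instAlgebraCoordKK : Algebra (W⁄k).toAffine.CoordinateRing (KK k W) :=
  inferInstanceAs (Algebra (W⁄k).toAffine.CoordinateRing (W⁄k).toAffine.FunctionField)

instance instIsFractionRingKK : IsFractionRing (W⁄k).toAffine.CoordinateRing (KK k W) :=
  inferInstanceAs (IsFractionRing (W⁄k).toAffine.CoordinateRing (W⁄k).toAffine.FunctionField)

instance instAlgebraKK : Algebra k (KK k W) :=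
  inferInstanceAs (Algebra k (W⁄k).toAffine.FunctionField)

instance instIsScalarTowerKK : IsScalarTower k (W⁄k).toAffine.CoordinateRing (KK k W) :=
  inferInstanceAs (IsScalarTower k (W⁄k).toAffine.CoordinateRing (W⁄k).toAffine.FunctionField)

instance instDecEqKK : DecidableEq (KK k W) := Classical.decEq _

instance instCharPKK (ℓ : ℕ) [CharP k ℓ] : CharP (KK k W) ℓ :=
  charP_of_injective_algebraMap (algebraMap k (KK k W)).injective ℓ

/-- The coordinate function `x` in the function field. -/
def gx : KK k W :=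
  algebraMap (W⁄k).toAffine.CoordinateRing (KK k W) (CoordinateRing.mk (W⁄k).toAffine (C X))

/-- The coordinate function `y` in the function field. -/
def gy : KK k W :=
  algebraMap (W⁄k).toAffine.CoordinateRing (KK k W) (CoordinateRing.mk (W⁄k).toAffine Y)

lemma algebraMap_KK (c : k) : algebraMap k (KK k W) c =
    algebraMap (W⁄k).toAffine.CoordinateRing (KK k W)
      (CoordinateRing.mk (W⁄k).toAffine (C (C c))) := by
  rw [IsScalarTower.algebraMap_apply k (W⁄k).toAffine.CoordinateRing (KK k W)]
  rfl

lemma coord_equation (V : Affine k) :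
    CoordinateRing.mk V Y ^ 2 + CoordinateRing.mk V (C (C V.a₁)) * CoordinateRing.mk V (C X) *
      CoordinateRing.mk V Y + CoordinateRing.mk V (C (C V.a₃)) * CoordinateRing.mk V Y =
    CoordinateRing.mk V (C X) ^ 3 + CoordinateRing.mk V (C (C V.a₂)) *
      CoordinateRing.mk V (C X) ^ 2 + CoordinateRing.mk V (C (C V.a₄)) *
      CoordinateRing.mk V (C X) + CoordinateRing.mk V (C (C V.a₆)) := by
  have h0 : CoordinateRing.mk V V.polynomial = 0 := AdjoinRoot.mk_self
  rw [← sub_eq_zero, ← h0]
  simp only [Affine.polynomial, map_sub, map_add, map_mul, map_pow]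
  ring

lemma algebraMap_int_KK (a : ℤ) : algebraMap ℤ (KK k W) a =
    algebraMap (W⁄k).toAffine.CoordinateRing (KK k W)
      (CoordinateRing.mk (W⁄k).toAffine (C (C (algebraMap ℤ k a)))) := by
  rw [← algebraMap_KK]
  simp

/-- The generic point lies on the curve. -/
lemma gen_equation : (W⁄(KK k W)).toAffine.Equation (gx k W) (gy k W) := by
  rw [equation_iff]
  have h := congrArg (algebraMap (W⁄k).toAffine.CoordinateRing (KK k W))
    (coord_equation k (W⁄k).toAffine)
  simp only [map_add, map_mul, map_pow] at h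
  have e1 : (W⁄(KK k W)).toAffine.a₁ = algebraMap ℤ (KK k W) W.a₁ := rfl
  have e2 : (W⁄(KK k W)).toAffine.a₂ = algebraMap ℤ (KK k W) W.a₂ := rfl
  have e3 : (W⁄(KK k W)).toAffine.a₃ = algebraMap ℤ (KK k W) W.a₃ := rfl
  have e4 : (W⁄(KK k W)).toAffine.a₄ = algebraMap ℤ (KK k W) W.a₄ := rfl
  have e6 : (W⁄(KK k W)).toAffine.a₆ = algebraMap ℤ (KK k W) W.a₆ := rfl
  rw [e1, e2, e3, e4, e6, algebraMap_int_KK, algebraMap_int_KK, algebraMap_int_KK,
    algebraMap_int_KK, algebraMap_int_KK]
  exact h

/-- Good reduction in the form used by the pillar: the discriminant does not vanish in `k`. -/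
def Good : Prop := (W⁄k).Δ ≠ 0

lemma good_KK (h : Good k W) : (W⁄(KK k W)).Δ ≠ 0 := by
  have h1 : (W⁄(KK k W)).Δ = algebraMap ℤ (KK k W) W.Δ := WeierstrassCurve.map_Δ W _
  have h2 : (W⁄k).Δ = algebraMap ℤ k W.Δ := WeierstrassCurve.map_Δ W _
  rw [h1, IsScalarTower.algebraMap_apply ℤ k (KK k W)]
  rw [Good, h2] at h
  exact (_root_.map_ne_zero _).mpr h

/-- The generic point `(x, y)` of `W` over the function field of `W⁄k`. -/
def genPt (h : Good k W) : (W⁄(KK k W)).Point :=
  Point.some (gx k W) (gy k W)
    ((equation_iff_nonsingular_of_Δ_ne_zero (good_KK k W h)).mp (gen_equation k W))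

/-- A coprime pair `F, G : k[X]` represents the `x`-coordinate of a point `A` over the function
field: `(F(x) : G(x)) = (x(A) : 1)`, resp. `(1 : 0)` if `A = 0`. -/
def IsXRep (A : (W⁄(KK k W)).Point) (F G : k[X]) : Prop :=
  IsCoprime F G ∧ ∃ c : KK k W, c ≠ 0 ∧
    aeval (gx k W) F = c * A.xRep 0 ∧ aeval (gx k W) G = c * A.xRep 1

end Generic

end

end Fermat.Agent.EFrob
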