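import Fermat.Agent.EFrob.Transfer
import Fermat.Agent.Tors.CardTorsion

/-!
# P-EFROB, task (T), second half: trace and determinant of Frobenius on `E[p](Qbar)`

`final : IfaceRed → IfaceCharpolyFF → IfaceFinal`.  The reduction homomorphism restricts to an
injective map `E[p](Qbar) → E[p](κ)` between sets of the same cardinality `p²`, hence to a
`ZMod p`-linear equivalence which intertwines a Frobenius element `σ` with the Frobenius of the
residue field; trace and determinant are invariant under conjugation.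
-/

set_option autoImplicit false

namespace Fermat.Agent.EFrob

open WeierstrassCurve WeierstrassCurve.Affine Polynomial

local notation "Qbar" => AlgebraicClosure ℚ

noncomputable section

/-! ## cardinality of the torsion in the `torsionBy` form -/

theorem T_card_torsionBy {k : Type} [Field k] [IsAlgClosed k] [DecidableEq k]
    (E : WeierstrassCurve k) (hΔ : E.Δ ≠ 0) (p : ℕ) (hp : (p : k) ≠ 0) :
    Nat.card (Submodule.torsionBy ℤ E.toAffine.Point p) = p ^ 2 := by
  rw [← Fermat.Agent.Tors.card_torsion E hΔ p hp]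
  refine Nat.card_congr (Equiv.subtypeEquivRight fun P => ?_)
  rw [Submodule.mem_torsionBy_iff, natCast_zsmul]

/-! ## the generic statement -/

section Generic

variable {K : Type} [Field K] [DecidableEq K] {V : ValuationSubring K}
  {κ : Type} [Field κ] [DecidableEq κ] [IsAlgClosed κ] {π : V →+* κ} {W : WeierstrassCurve ℤ}
variable (red : (W⁄K).Point →+ (W⁄κ).Point)
  (hred1 : ∀ (x y : K) (h : (W⁄K).toAffine.Nonsingular x y), x ∉ V →
    red (Point.some x y h) = 0)
  (hred2 : ∀ (x y : K) (h : (W⁄K).toAffine.Nonsingular x y) (hx : x ∈ V) (hy : y ∈ V),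
    ∃ h' : (W⁄κ).toAffine.Nonsingular (π ⟨x, hx⟩) (π ⟨y, hy⟩),
      red (Point.some x y h) = Point.some (π ⟨x, hx⟩) (π ⟨y, hy⟩) h')

include hred1 hred2 in
/-- **generic transfer of trace and determinant.** -/
theorem T_trace_det_generic (ℓ p : ℕ) [Fact ℓ.Prime] [Fact p.Prime] [CharP κ ℓ] (hne : ℓ ≠ p)
    (hgood : Good κ W) (hpV : (p : K) ∉ V.nonunits)
    (τ : K →ₐ[ℤ] K) (hτ : ∀ x : K, τ x ∈ V ↔ x ∈ V)
    (hτπ : ∀ (x : K) (hx : x ∈ V) (hx' : τ x ∈ V), π ⟨τ x, hx'⟩ = π ⟨x, hx⟩ ^ ℓ)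
    (a : ℤ)
    (hL : ∀ T : Module.End (ZMod p) (Submodule.torsionBy ℤ (W⁄κ).Point p),
      (∀ Q : Submodule.torsionBy ℤ (W⁄κ).Point p,
        ((T Q : Submodule.torsionBy ℤ (W⁄κ).Point p) : (W⁄κ).Point) =
          frob ℓ W (Q : (W⁄κ).Point)) →
      LinearMap.trace (ZMod p) _ T = (a : ZMod p) ∧ LinearMap.det T = (ℓ : ZMod p))
    {M₀ : Type} [AddCommGroup M₀] [Module (ZMod p) M₀] (c : M₀ →+ (W⁄K).Point)
    (hc : Function.Injective c) (hcp : ∀ x : M₀, p • c x = 0) (hcard : Nat.card M₀ = p ^ 2)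
    (S₀ : Module.End (ZMod p) M₀)
    (hS₀ : ∀ x : M₀, c (S₀ x) = Point.map (W' := W) τ (c x)) :
    LinearMap.trace (ZMod p) M₀ S₀ = (a : ZMod p) ∧ LinearMap.det S₀ = (ℓ : ZMod p) := by
  -- the restriction of the reduction map
  have hmem : ∀ x : M₀, red (c x) ∈ Submodule.torsionBy ℤ (W⁄κ).Point p := fun x => by
    rw [Submodule.mem_torsionBy_iff, natCast_zsmul, ← map_nsmul, hcp x, map_zero]
  let r : M₀ →+ Submodule.torsionBy ℤ (W⁄κ).Point p :=
    { toFun := fun x => ⟨red (c x), hmem x⟩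
      map_zero' := Subtype.ext (by
        show red (c 0) = 0
        rw [map_zero, map_zero])
      map_add' := fun x y => Subtype.ext (by
        show red (c (x + y)) = red (c x) + red (c y)
        rw [map_add, map_add]) }
  have hr : ∀ x : M₀, ((r x : Submodule.torsionBy ℤ (W⁄κ).Point p) : (W⁄κ).Point)
      = red (c x) := fun _ => rfl
  have hrinj : Function.Injective r := by
    intro x y hxy
    apply hc
    have h0 : red (c x - c y) = 0 := by
      rw [map_sub, sub_eq_zero, ← hr x, ← hr y, hxy]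
    obtain ⟨h1, h2, h3, h4, h6⟩ := T_coeff_mem V W
    have hp0 : p • (c x - c y) = 0 := by
      rw [smul_sub, hcp x, hcp y, sub_zero]
    have := Fermat.Agent.S05.eq_zero_of_nsmul_eq_zero_of_inE1 V h1 h2 h3 h4 h6 hpV
      (T_inE1_of_red_eq_zero red hred2 h0) hp0
    exact sub_eq_zero.mp this
  have hpκ : (p : κ) ≠ 0 := by
    intro h
    rw [CharP.cast_eq_zero_iff κ ℓ] at h
    exact hne ((Nat.prime_dvd_prime_iff_eq (Fact.out : ℓ.Prime) (Fact.out : p.Prime)).mp h)
  have hcard' : Nat.card (Submodule.torsionBy ℤ (W⁄κ).Point p) = p ^ 2 :=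
    T_card_torsionBy (W⁄κ) hgood p hpκ
  have hfin : Finite (Submodule.torsionBy ℤ (W⁄κ).Point p) :=
    Nat.finite_of_card_ne_zero (by
      rw [hcard']
      exact pow_ne_zero _ (Fact.out : p.Prime).ne_zero)
  have hbij : Function.Bijective r :=
    (Nat.bijective_iff_injective_and_card r).mpr ⟨hrinj, by rw [hcard, hcard']⟩
  let e' : M₀ ≃ₗ[ZMod p] Submodule.torsionBy ℤ (W⁄κ).Point p :=
    LinearEquiv.ofBijective (r.toZModLinearMap p) hbij
  have he' : ∀ x : M₀, e' x = r x := fun _ => rfl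
  have hT := hL (e'.conj S₀) (fun Q => by
    obtain ⟨x, rfl⟩ := e'.surjective Q
    rw [LinearEquiv.conj_apply_apply, LinearEquiv.symm_apply_apply, he', he', hr, hr, hS₀,
      T_red_map red hred1 hred2 ℓ τ hτ hτπ])
  rw [LinearMap.trace_conj'] at hT
  have hdet : LinearMap.det (e'.conj S₀) = LinearMap.det S₀ := LinearMap.det_conj S₀ e'
  rw [hdet] at hT
  exact hT

end Generic

/-! ## the case of `Qbar` -/

/-- **(T), second half.** -/
theorem final (hR : IfaceRed) (hL : IfaceCharpolyFF) : IfaceFinal := by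
  intro W ℓ p hℓ hp hne hgood A hA σ hσ
  let _ : DecidableEq (IsLocalRing.ResidueField A) := Classical.decEq _
  have : Fact ℓ.Prime := ⟨hℓ⟩
  have : Fact p.Prime := ⟨hp⟩
  have : CharP (IsLocalRing.ResidueField A) ℓ := T_charP_residueField A hℓ hA
  have : IsAlgClosed (IsLocalRing.ResidueField A) := T_isAlgClosed_residueField A
  have hΔA := T_Δ_notMem_nonunits A W hℓ hgood hA
  obtain ⟨red, hred1, hred2⟩ := hR Qbar A (IsLocalRing.ResidueField A) (IsLocalRing.residue A)
    (T_residue_eq_zero_iff A) W hΔA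
  have hgoodκ := T_good_of_charP W (IsLocalRing.ResidueField A) ℓ hgood
  have hLκ := hL ℓ p hne (IsLocalRing.ResidueField A) W hgoodκ
  -- the source module and its embedding into the points of `W⁄Qbar`
  let c : Submodule.torsionBy ℤ ((W.map (Int.castRingHom ℚ))⁄Qbar).Point p →+ (W⁄Qbar).Point :=
    (pointCongr (T_baseChange_eq W)).toAddMonoidHom.comp
      (Submodule.torsionBy ℤ ((W.map (Int.castRingHom ℚ))⁄Qbar).Point p).subtype.toAddMonoidHom
  have hcdef : ∀ x : Submodule.torsionBy ℤ ((W.map (Int.castRingHom ℚ))⁄Qbar).Point p,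
      c x = pointCongr (T_baseChange_eq W) (x : ((W.map (Int.castRingHom ℚ))⁄Qbar).Point) :=
    fun _ => rfl
  have hc : Function.Injective c := by
    intro x y hxy
    rw [hcdef, hcdef] at hxy
    exact Subtype.ext ((pointCongr (T_baseChange_eq W)).injective hxy)
  have hcp : ∀ x : Submodule.torsionBy ℤ ((W.map (Int.castRingHom ℚ))⁄Qbar).Point p,
      p • c x = 0 := by
    intro x
    have hx := x.2
    rw [Submodule.mem_torsionBy_iff, natCast_zsmul] at hx
    rw [hcdef, ← map_nsmul, hx, map_zero]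
  have hΔ : ((W.map (Int.castRingHom ℚ))⁄Qbar).Δ ≠ 0 := by
    rw [T_baseChange_eq W]
    intro h0
    exact hΔA (A.mem_nonunits_iff_or.mpr (Or.inl h0))
  have hp0 : (p : Qbar) ≠ 0 := Nat.cast_ne_zero.mpr hp.ne_zero
  have hcard : Nat.card (Submodule.torsionBy ℤ ((W.map (Int.castRingHom ℚ))⁄Qbar).Point p)
      = p ^ 2 := T_card_torsionBy ((W.map (Int.castRingHom ℚ))⁄Qbar) hΔ p hp0
  have hS₀ : ∀ x : Submodule.torsionBy ℤ ((W.map (Int.castRingHom ℚ))⁄Qbar).Point p,
      c (Point.galoisRepModuleEnd (K := Qbar) ℚ (W.map (Int.castRingHom ℚ)).toAffine p σ x)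
        = Point.map (W' := W) (σ : Qbar →+* Qbar).toIntAlgHom (c x) := by
    intro x
    rw [hcdef, hcdef, ← T_congr_smul]
    rfl
  have key := T_trace_det_generic (V := A) (π := IsLocalRing.residue A) red hred1 hred2 ℓ p hne
    hgoodκ (T_natCast_notMem_nonunits hℓ hp hne A hA)
    (σ : Qbar →+* Qbar).toIntAlgHom
    (T_apply_mem_iff_of_mem_decomp hσ.mem_decompositionSubgroup)
    (fun x hx _ => T_residue_apply_of_isFrobeniusAt hσ hx)
    (W.apOfModel ℓ) hLκ c hc hcp hcard
    (Point.galoisRepModuleEnd (K := Qbar) ℚ (W.map (Int.castRingHom ℚ)).toAffine p σ) hS₀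
  rw [Point.galoisTrace_def]
  exact key

end

end Fermat.Agent.EFrob
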