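import Fermat.Agent.EFrob.Skeleton
import Fermat.Agent.S05.Kernel
import Fermat.Agent.S05.H86SameRed

/-!
# P-EFROB, task (T): transfer from the residue field to `Qbar`

`finalRel : IfaceRed → IfaceCore → IfaceFinalRel`: the characteristic equation of Frobenius on
the points of the reduction over the residue field `κ` of a valuation subring `A` of `Qbar` over
`ℓ` gives the Eichler–Shimura relation `σ² - a_ℓ σ + ℓ = 0` on `E[p](Qbar)` for every Frobenius
element `σ` at `A`.

Steps: `κ` is algebraically closed of characteristic `ℓ`; the reduction homomorphism intertwines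
`σ` with the `ℓ`-power Frobenius; the kernel of reduction has no `p`-torsion (`S05/Kernel.lean`).
-/

set_option autoImplicit false

namespace Fermat.Agent.EFrob

open WeierstrassCurve WeierstrassCurve.Affine Polynomial

local notation "Qbar" => AlgebraicClosure ℚ

noncomputable section

/-! ## the residue field of a valuation subring of an algebraically closed field -/

section Residue

variable {L : Type*} [Field L] (A : ValuationSubring L)

/-- the residue field of a valuation subring of an algebraically closed field is algebraically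
closed. -/
theorem T_isAlgClosed_residueField [IsAlgClosed L] :
    IsAlgClosed (IsLocalRing.ResidueField A) := by
  refine IsAlgClosed.of_exists_root _ fun p hp hirr => ?_
  have hsurj : Function.Surjective (IsLocalRing.residue A) := IsLocalRing.residue_surjective
  have hlift : p ∈ Polynomial.lifts (IsLocalRing.residue A) :=
    (Polynomial.mem_lifts p).mpr (Polynomial.map_surjective _ hsurj p)
  obtain ⟨q, hq, hdeg, hmonic⟩ := Polynomial.lifts_and_natDegree_eq_and_monic hlift hp
  have hqdeg : (q.map (algebraMap A L)).degree ≠ 0 := by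
    rw [Polynomial.degree_map_eq_of_injective (IsFractionRing.injective A L)]
    have h1 : p.natDegree ≠ 0 := (Polynomial.natDegree_pos_iff_degree_pos.mpr
      (Polynomial.degree_pos_of_irreducible hirr)).ne'
    rw [Polynomial.degree_eq_natDegree hmonic.ne_zero, hdeg]
    exact_mod_cast h1
  obtain ⟨z, hz⟩ := IsAlgClosed.exists_root (q.map (algebraMap A L)) hqdeg
  have hint : IsIntegral A z := ⟨q, hmonic, by
    rw [← Polynomial.eval_map]; exact hz⟩
  obtain ⟨a, rfl⟩ := (IsIntegrallyClosed.isIntegral_iff (R := A) (K := L)).mp hint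
  refine ⟨IsLocalRing.residue A a, ?_⟩
  have h0 : q.eval a = 0 := by
    apply IsFractionRing.injective A L
    rw [map_zero, ← Polynomial.eval₂_at_apply, Polynomial.eval₂_eq_eval_map]
    exact hz
  rw [← hq, Polynomial.eval_map, Polynomial.eval₂_at_apply, h0, map_zero]

/-- the residue map vanishes exactly on the nonunits. -/
theorem T_residue_eq_zero_iff (v : A) :
    IsLocalRing.residue A v = 0 ↔ (v : L) ∈ A.nonunits := by
  rw [IsLocalRing.residue_eq_zero_iff, ValuationSubring.coe_mem_nonunits_iff]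

/-- the residue characteristic. -/
theorem T_charP_residueField {ℓ : ℕ} (hℓ : ℓ.Prime) (hA : A.LiesOverPrime ℓ) :
    CharP (IsLocalRing.ResidueField A) ℓ := by
  rw [CharP.charP_iff_prime_eq_zero hℓ]
  have h : ((ℓ : A) : L) ∈ A.nonunits := by
    have : ((ℓ : A) : L) = (ℓ : L) := by norm_cast
    rw [this]
    exact hA
  have h1 := (T_residue_eq_zero_iff A (ℓ : A)).mpr h
  rwa [map_natCast] at h1

/-- an integer is a nonunit of `A` iff it is divisible by the residue characteristic. -/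
theorem T_intCast_mem_nonunits_iff {ℓ : ℕ} (hℓ : ℓ.Prime) (hA : A.LiesOverPrime ℓ) (n : ℤ) :
    (n : L) ∈ A.nonunits ↔ (ℓ : ℤ) ∣ n := by
  have := T_charP_residueField A hℓ hA
  have : ((n : A) : L) = (n : L) := by norm_cast
  rw [← this, ← T_residue_eq_zero_iff, map_intCast, CharP.intCast_eq_zero_iff _ ℓ]

end Residue

/-! ## the decomposition group and Frobenius elements, elementwise -/

section Decomp

variable {L : Type*} [Field L] {A : ValuationSubring L} {K : Type*} [Field K] [Algebra K L]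

theorem T_apply_mem_of_mem_decomp {σ : L ≃ₐ[K] L} (hσ : σ ∈ A.decompositionSubgroup K)
    {x : L} (hx : x ∈ A) : σ x ∈ A :=
  ((⟨σ, hσ⟩ : A.decompositionSubgroup K) • (⟨x, hx⟩ : A)).2

theorem T_apply_mem_iff_of_mem_decomp {σ : L ≃ₐ[K] L} (hσ : σ ∈ A.decompositionSubgroup K)
    (x : L) : σ x ∈ A ↔ x ∈ A := by
  refine ⟨fun h => ?_, T_apply_mem_of_mem_decomp hσ⟩
  have h1 := T_apply_mem_of_mem_decomp (inv_mem hσ) h
  have h2 : (σ⁻¹ : L ≃ₐ[K] L) (σ x) = x := by
    show σ.symm (σ x) = x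
    exact σ.symm_apply_apply x
  rwa [h2] at h1

theorem T_residue_apply_of_isFrobeniusAt {σ : L ≃ₐ[K] L} {q : ℕ} (hσ : A.IsFrobeniusAt σ q)
    {x : L} (hx : x ∈ A) :
    IsLocalRing.residue A ⟨σ x, T_apply_mem_of_mem_decomp hσ.mem_decompositionSubgroup hx⟩
      = IsLocalRing.residue A ⟨x, hx⟩ ^ q := by
  have h := hσ.smul_residue_eq (IsLocalRing.residue A ⟨x, hx⟩)
  rw [← h]
  exact IsLocalRing.ResidueField.residue_smul
    (A.decompositionSubgroup K) (⟨σ, hσ.mem_decompositionSubgroup⟩ : A.decompositionSubgroup K)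
    (⟨x, hx⟩ : A)

end Decomp

/-! ## generic transfer along a reduction homomorphism -/

section Generic

variable {K : Type} [Field K] [DecidableEq K] (V : ValuationSubring K)
  {κ : Type} [Field κ] [DecidableEq κ] (π : V →+* κ) (W : WeierstrassCurve ℤ)

omit [DecidableEq K] in
theorem T_coeff_mem :
    (W⁄K).toAffine.a₁ ∈ V ∧ (W⁄K).toAffine.a₂ ∈ V ∧ (W⁄K).toAffine.a₃ ∈ V ∧
      (W⁄K).toAffine.a₄ ∈ V ∧ (W⁄K).toAffine.a₆ ∈ V := by
  have h : ∀ n : ℤ, algebraMap ℤ K n ∈ V := fun n => by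
    rw [eq_intCast]
    exact intCast_mem V n
  exact ⟨h _, h _, h _, h _, h _⟩

omit [DecidableEq K] in
theorem T_y_mem {x y : K} (h : (W⁄K).toAffine.Nonsingular x y) (hx : x ∈ V) : y ∈ V := by
  obtain ⟨h1, h2, h3, h4, h6⟩ := T_coeff_mem V W
  exact Fermat.Agent.S05.H86.y_mem_of_x_mem h1 h2 h3 h4 h6 h.1 hx

theorem T_good_of_charP (k : Type) [Field k] (ℓ : ℕ) [CharP k ℓ]
    (hgood : W.IsGoodPrimeFor ℓ) : Good k W := by
  have h1 : (W⁄k).Δ = algebraMap ℤ k W.Δ := WeierstrassCurve.map_Δ W _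
  rw [Good, h1, eq_intCast, Ne, CharP.intCast_eq_zero_iff _ ℓ]
  exact hgood

omit [DecidableEq K] in
theorem T_Δ_notMem_nonunits {ℓ : ℕ} (hℓ : ℓ.Prime) (hgood : W.IsGoodPrimeFor ℓ)
    (hV : V.LiesOverPrime ℓ) : (W⁄K).Δ ∉ V.nonunits := by
  have h1 : (W⁄K).Δ = algebraMap ℤ K W.Δ := WeierstrassCurve.map_Δ W _
  rw [h1, eq_intCast, T_intCast_mem_nonunits_iff V hℓ hV]
  exact hgood

variable {V π W}
variable (red : (W⁄K).Point →+ (W⁄κ).Point)
  (hred1 : ∀ (x y : K) (h : (W⁄K).toAffine.Nonsingular x y), x ∉ V →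
    red (Point.some x y h) = 0)
  (hred2 : ∀ (x y : K) (h : (W⁄K).toAffine.Nonsingular x y) (hx : x ∈ V) (hy : y ∈ V),
    ∃ h' : (W⁄κ).toAffine.Nonsingular (π ⟨x, hx⟩) (π ⟨y, hy⟩),
      red (Point.some x y h) = Point.some (π ⟨x, hx⟩) (π ⟨y, hy⟩) h')

include hred2 in
/-- the kernel of the reduction homomorphism consists of the points with non-integral
`x`-coordinate. -/
theorem T_inE1_of_red_eq_zero {P : (W⁄K).Point} (hP : red P = 0) :
    Fermat.Agent.S05.InE1 V P := by
  rcases P with _ | ⟨x, y, h⟩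
  · exact Or.inl rfl
  · refine Or.inr ⟨x, y, h, rfl, fun hx => ?_⟩
    obtain ⟨h', hr⟩ := hred2 x y h hx (T_y_mem V W h hx)
    rw [hP] at hr
    exact Point.some_ne_zero h' hr.symm

include hred1 hred2 in
/-- the reduction homomorphism intertwines a Frobenius lift with the Frobenius of the residue
field. -/
theorem T_red_map (ℓ : ℕ) [Fact ℓ.Prime] [CharP κ ℓ] (τ : K →ₐ[ℤ] K)
    (hτ : ∀ x : K, τ x ∈ V ↔ x ∈ V)
    (hτπ : ∀ (x : K) (hx : x ∈ V) (hx' : τ x ∈ V), π ⟨τ x, hx'⟩ = π ⟨x, hx⟩ ^ ℓ)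
    (P : (W⁄K).Point) :
    red (Point.map (W' := W) τ P) = frob ℓ W (red P) := by
  rcases P with _ | ⟨x, y, h⟩
  · show red (Point.map (W' := W) τ 0) = frob ℓ W (red 0)
    rw [map_zero, map_zero, map_zero]
  · rw [Point.map_some]
    by_cases hx : x ∈ V
    · have hy : y ∈ V := T_y_mem V W h hx
      have hx' : τ x ∈ V := (hτ x).mpr hx
      have hy' : τ y ∈ V := (hτ y).mpr hy
      obtain ⟨h1, hr1⟩ := hred2 x y h hx hy
      obtain ⟨h2, hr2⟩ := hred2 (τ x) (τ y) _ hx' hy'
      rw [hr1, hr2, frob, Point.map_some]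
      simp only [Point.some.injEq]
      refine ⟨?_, ?_⟩
      · rw [hτπ x hx hx']
        rfl
      · rw [hτπ y hy hy']
        rfl
    · have hx' : τ x ∉ V := fun h' => hx ((hτ x).mp h')
      rw [hred1 x y h hx, hred1 (τ x) (τ y) _ hx', map_zero]

include hred1 hred2 in
/-- **generic transfer**: the characteristic equation of Frobenius on the reduction gives the
relation on the prime-to-`ℓ` torsion upstairs. -/
theorem T_rel_of_core (ℓ : ℕ) [Fact ℓ.Prime] [CharP κ ℓ] (τ : K →ₐ[ℤ] K)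
    (hτ : ∀ x : K, τ x ∈ V ↔ x ∈ V)
    (hτπ : ∀ (x : K) (hx : x ∈ V) (hx' : τ x ∈ V), π ⟨τ x, hx'⟩ = π ⟨x, hx⟩ ^ ℓ)
    (a : ℤ) (hcore : ∀ P : (W⁄κ).Point, lam ℓ W 1 (-a) ℓ P = 0)
    {p : ℕ} (hp : (p : K) ∉ V.nonunits) (Q : (W⁄K).Point) (hQ : p • Q = 0) :
    Point.map (W' := W) τ (Point.map (W' := W) τ Q) - a • Point.map (W' := W) τ Q
      + (ℓ : ℤ) • Q = 0 := by
  set R : (W⁄K).Point := Point.map (W' := W) τ (Point.map (W' := W) τ Q)
    - a • Point.map (W' := W) τ Q + (ℓ : ℤ) • Q with hRdef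
  have hpR : p • R = 0 := by
    have h1 : p • Point.map (W' := W) τ Q = 0 := by
      rw [← map_nsmul, hQ, map_zero]
    have h2 : p • Point.map (W' := W) τ (Point.map (W' := W) τ Q) = 0 := by
      rw [← map_nsmul, h1, map_zero]
    rw [hRdef, smul_add, smul_sub, h2, smul_comm p a, h1, smul_comm p (ℓ : ℤ), hQ]
    simp
  have hredR : red R = 0 := by
    rw [hRdef, map_add, map_sub, map_zsmul, map_zsmul,
      T_red_map red hred1 hred2 ℓ τ hτ hτπ, T_red_map red hred1 hred2 ℓ τ hτ hτπ]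
    have h := hcore (red Q)
    rw [lam_apply, one_smul, neg_smul] at h
    rw [sub_eq_add_neg]
    exact h
  obtain ⟨h1, h2, h3, h4, h6⟩ := T_coeff_mem V W
  exact Fermat.Agent.S05.eq_zero_of_nsmul_eq_zero_of_inE1 V h1 h2 h3 h4 h6 hp
    (T_inE1_of_red_eq_zero red hred2 hredR) hpR

end Generic

/-! ## the case of `Qbar` -/

section QbarCase

variable (W : WeierstrassCurve ℤ)

/-- the two base changes of `W` to `Qbar` agree. -/
theorem T_baseChange_eq : (W.map (Int.castRingHom ℚ))⁄Qbar = W⁄Qbar := by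
  show (W.map (Int.castRingHom ℚ)).map (algebraMap ℚ Qbar) = W.map (algebraMap ℤ Qbar)
  rw [WeierstrassCurve.map_map]
  congr 1

/-- the Galois action on the points of `W_ℚ` over `Qbar` is `Point.map` on the points of `W`
over `Qbar`. -/
theorem T_congr_smul (σ : Qbar ≃ₐ[ℚ] Qbar) (Q : ((W.map (Int.castRingHom ℚ))⁄Qbar).Point) :
    pointCongr (T_baseChange_eq W) (σ • Q)
      = Point.map (W' := W) (σ : Qbar →+* Qbar).toIntAlgHom (pointCongr (T_baseChange_eq W) Q) := by
  rcases Q with _ | ⟨x, y, h⟩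
  · show pointCongr (T_baseChange_eq W) (σ • (0 : ((W.map (Int.castRingHom ℚ))⁄Qbar).Point))
      = Point.map (W' := W) (σ : Qbar →+* Qbar).toIntAlgHom (pointCongr (T_baseChange_eq W) 0)
    rw [Point.algEquiv_smul_def, map_zero, pointCongr_zero, map_zero]
  · rw [Point.algEquiv_smul_def, Point.map_some, pointCongr_some, pointCongr_some, Point.map_some]
    rfl

theorem T_natCast_notMem_nonunits {ℓ p : ℕ} (hℓ : ℓ.Prime) (hp : p.Prime) (hne : ℓ ≠ p)
    (A : ValuationSubring Qbar) (hA : A.LiesOverPrime ℓ) : (p : Qbar) ∉ A.nonunits := by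
  intro h
  have h1 : ((p : ℤ) : Qbar) ∈ A.nonunits := by exact_mod_cast h
  rw [T_intCast_mem_nonunits_iff A hℓ hA] at h1
  have h2 : ℓ ∣ p := by exact_mod_cast h1
  exact hne ((Nat.prime_dvd_prime_iff_eq hℓ hp).mp h2)

/-- **(T), first half.** -/
theorem finalRel (hR : IfaceRed) (hCore : IfaceCore) : IfaceFinalRel := by
  intro W ℓ p hℓ hp hne hgood A hA σ hσ Q hQ
  let _ : DecidableEq (IsLocalRing.ResidueField A) := Classical.decEq _
  have : Fact ℓ.Prime := ⟨hℓ⟩
  have : CharP (IsLocalRing.ResidueField A) ℓ := T_charP_residueField A hℓ hA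
  have : IsAlgClosed (IsLocalRing.ResidueField A) := T_isAlgClosed_residueField A
  obtain ⟨red, hred1, hred2⟩ := hR Qbar A (IsLocalRing.ResidueField A) (IsLocalRing.residue A)
    (T_residue_eq_zero_iff A) W (T_Δ_notMem_nonunits A W hℓ hgood hA)
  have hcore := hCore ℓ (IsLocalRing.ResidueField A) W
    (T_good_of_charP W (IsLocalRing.ResidueField A) ℓ hgood)
  have hQ' : p • pointCongr (T_baseChange_eq W) Q = 0 := by
    rw [← map_nsmul, ← natCast_zsmul, hQ, map_zero]
  have key := T_rel_of_core (V := A) (π := IsLocalRing.residue A) red hred1 hred2 ℓ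
    (σ : Qbar →+* Qbar).toIntAlgHom
    (T_apply_mem_iff_of_mem_decomp hσ.mem_decompositionSubgroup)
    (fun x hx _ => T_residue_apply_of_isFrobeniusAt hσ hx)
    (W.apOfModel ℓ) hcore (T_natCast_notMem_nonunits hℓ hp hne A hA)
    (pointCongr (T_baseChange_eq W) Q) hQ'
  apply (pointCongr (T_baseChange_eq W)).injective
  rw [map_zero, map_add, map_sub, map_zsmul, map_zsmul, T_congr_smul, T_congr_smul]
  exact key

end QbarCase

end

end Fermat.Agent.EFrob
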