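import Fermat.Agent.EFrob.CoreU
import Fermat.Agent.EFrob.CharpolyFF
import Fermat.Agent.EFrob.Transfer
import Fermat.Agent.EFrob.Final

/-!
# P-EFROB: main theorems (unconditional)

For an integral Weierstrass curve `W`, a prime `ℓ` of good reduction (`W.IsGoodPrimeFor ℓ`), a
prime `p ≠ ℓ`, a valuation subring `A` of `Qbar` over `ℓ` and a Frobenius element `σ` at `A`:

* `finalRelU`: `σ² Q - a_ℓ σ Q + ℓ Q = 0` for every `Q ∈ E[p](Qbar)`;
* `finalU`: the trace of `σ` on `E[p](Qbar)` is `a_ℓ` and its determinant is `ℓ` (in `ZMod p`),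

where `a_ℓ = W.apOfModel ℓ = ℓ + 1 - #W(𝔽_ℓ)` is the quantity used by the Prelude to define
modularity.  Also `charpolyFFU` (the same over an algebraically closed field of characteristic
`ℓ`), `coreU` (the relation on all points) and `hasse_bound` (in `CoreBound.lean`).
-/

set_option autoImplicit false

namespace Fermat.Agent.EFrob

open WeierstrassCurve WeierstrassCurve.Affine

local notation "Qbar" => AlgebraicClosure ℚ

/-- Trace and determinant of Frobenius on `E[p](k)`, `k` algebraically closed of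
characteristic `ℓ ≠ p`. -/
theorem charpolyFFU : IfaceCharpolyFF := charpolyFF coreU

/-- The Eichler–Shimura relation on `E[p](Qbar)` for Frobenius elements at good primes. -/
theorem finalRelU : IfaceFinalRel := finalRel red coreU

/-- **Main theorem of P-EFROB**: trace and determinant of Frobenius elements on `E[p](Qbar)`. -/
theorem finalU : IfaceFinal := final red charpolyFFU

/-- The trace of a Frobenius element at a good prime `ℓ ≠ p` on `E[p](Qbar)` is `a_ℓ`. -/
theorem galoisTrace_frobenius (W : WeierstrassCurve ℤ) {ℓ p : ℕ} (hℓ : ℓ.Prime) (hp : p.Prime)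
    (hne : ℓ ≠ p) (hgood : W.IsGoodPrimeFor ℓ) (A : ValuationSubring Qbar)
    (hA : A.LiesOverPrime ℓ) (σ : Qbar ≃ₐ[ℚ] Qbar) (hσ : A.IsFrobeniusAt σ ℓ) :
    Point.galoisTrace (K := Qbar) ℚ (W.map (Int.castRingHom ℚ)).toAffine p σ =
      ((W.apOfModel ℓ : ℤ) : ZMod p) :=
  (finalU W ℓ p hℓ hp hne hgood A hA σ hσ).1

/-- The determinant of a Frobenius element at a good prime `ℓ ≠ p` on `E[p](Qbar)` is `ℓ`. -/
theorem galoisDet_frobenius (W : WeierstrassCurve ℤ) {ℓ p : ℕ} (hℓ : ℓ.Prime) (hp : p.Prime)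
    (hne : ℓ ≠ p) (hgood : W.IsGoodPrimeFor ℓ) (A : ValuationSubring Qbar)
    (hA : A.LiesOverPrime ℓ) (σ : Qbar ≃ₐ[ℚ] Qbar) (hσ : A.IsFrobeniusAt σ ℓ) :
    LinearMap.det (Point.galoisRepModuleEnd (K := Qbar) ℚ
      (W.map (Int.castRingHom ℚ)).toAffine p σ) = (ℓ : ZMod p) :=
  (finalU W ℓ p hℓ hp hne hgood A hA σ hσ).2

end Fermat.Agent.EFrob
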