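import Mathlib

/-!
# P-EFROB, non-Eisenstein criterion: linear algebra

A monoid of endomorphisms of a `2`-dimensional vector space in which every element has a nonzero
fixed vector has a common eigenvector (`NE_common_eigenvector`).
-/

set_option autoImplicit false

namespace Fermat.Agent.EFrob

section

variable {F V : Type*} [Field F] [AddCommGroup V] [Module F V]

/-- A `2 × 2` linear system `M v = v` with a nonzero solution has `det (M - 1) = 0`. -/
lemma NE_det_of_fixed {a b c d x y : F} (h1 : a * x + b * y = x) (h2 : c * x + d * y = y)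
    (hxy : x ≠ 0 ∨ y ≠ 0) : (a - 1) * (d - 1) - b * c = 0 := by
  by_contra h
  have hx : ((a - 1) * (d - 1) - b * c) * x = 0 := by
    linear_combination (d - 1) * h1 - b * h2
  have hy : ((a - 1) * (d - 1) - b * c) * y = 0 := by
    linear_combination (a - 1) * h2 - c * h1
  rcases hxy with h' | h'
  · exact h' ((mul_eq_zero.1 hx).resolve_left h)
  · exact h' ((mul_eq_zero.1 hy).resolve_left h)

/-- A pair of vectors forming a basis, in elementary terms. -/
structure NE_Frame (F : Type*) {V : Type*} [Field F] [AddCommGroup V] [Module F V]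
    (e₁ e₂ : V) : Prop where
  span : ∀ v : V, ∃ x y : F, v = x • e₁ + y • e₂
  ind : ∀ x y : F, x • e₁ + y • e₂ = 0 → x = 0 ∧ y = 0

lemma NE_Frame.ext' {e₁ e₂ : V} (h : NE_Frame F e₁ e₂) {x y x' y' : F}
    (e : x • e₁ + y • e₂ = x' • e₁ + y' • e₂) : x = x' ∧ y = y' := by
  have h0 : (x - x') • e₁ + (y - y') • e₂ = 0 := by
    rw [sub_smul, sub_smul, sub_add_sub_comm, e, sub_self]
  obtain ⟨h1, h2⟩ := h.ind _ _ h0
  exact ⟨sub_eq_zero.1 h1, sub_eq_zero.1 h2⟩

lemma NE_frame_of_indep (h2 : Module.finrank F V = 2) {e₁ e₂ : V}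
    (hli : LinearIndependent F ![e₁, e₂]) : NE_Frame F e₁ e₂ := by
  haveI : Module.Finite F V := Module.finite_of_finrank_pos (by omega)
  refine ⟨fun v => ?_, fun x y h => LinearIndependent.pair_iff.1 hli x y h⟩
  let b := basisOfLinearIndependentOfCardEqFinrank hli (by simp [h2])
  have hb : ⇑b = ![e₁, e₂] := coe_basisOfLinearIndependentOfCardEqFinrank hli _
  refine ⟨b.repr v 0, b.repr v 1, ?_⟩
  have := b.sum_repr v
  rw [Fin.sum_univ_two, hb] at this
  simpa using this.symm

/-- The determinant condition in a frame. -/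
lemma NE_P {e₁ e₂ : V} (hfr : NE_Frame F e₁ e₂) {f : Module.End F V}
    (hf : ∃ v : V, v ≠ 0 ∧ f v = v) {a b c d : F}
    (h1 : f e₁ = a • e₁ + c • e₂) (h2 : f e₂ = b • e₁ + d • e₂) :
    (a - 1) * (d - 1) - b * c = 0 := by
  obtain ⟨v, hv0, hv⟩ := hf
  obtain ⟨x, y, rfl⟩ := hfr.span v
  have hxy : x ≠ 0 ∨ y ≠ 0 := by
    by_contra h
    push_neg at h
    apply hv0
    rw [h.1, h.2]
    simp
  have e : (a * x + b * y) • e₁ + (c * x + d * y) • e₂ = x • e₁ + y • e₂ := by
    rw [← hv, map_add, map_smul, map_smul, h1, h2]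
    module
  obtain ⟨e1, e2⟩ := hfr.ext' e
  exact NE_det_of_fixed e1 e2 hxy

/-- **Common eigenvector.**  A monoid of endomorphisms of a `2`-dimensional space in which every
element has a nonzero fixed vector has a common eigenvector. -/
theorem NE_common_eigenvector (h2 : Module.finrank F V = 2) (T : Submonoid (Module.End F V))
    (hfix : ∀ f ∈ T, ∃ v : V, v ≠ 0 ∧ f v = v) :
    ∃ v : V, v ≠ 0 ∧ ∀ f ∈ T, ∃ c : F, f v = c • v := by
  by_cases hT : ∀ f ∈ T, f = 1
  · haveI : Nontrivial V := Module.nontrivial_of_finrank_pos (R := F) (by omega)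
    obtain ⟨v, hv⟩ := exists_ne (0 : V)
    exact ⟨v, hv, fun f hf => ⟨1, by rw [hT f hf]; simp⟩⟩
  push_neg at hT
  obtain ⟨g, hg, hg1⟩ := hT
  obtain ⟨k, hk0, hgk⟩ := hfix g hg
  obtain ⟨w, hw⟩ : ∃ w, g w ≠ w := by
    by_contra h
    push_neg at h
    exact hg1 (LinearMap.ext h)
  obtain ⟨u, hu⟩ : ∃ u, u = g w - w := ⟨_, rfl⟩
  have hu0 : u ≠ 0 := by
    rw [hu]
    exact sub_ne_zero.2 hw
  have hgw : g w = w + u := by rw [hu]; abel
  by_cases hA : ∃ t : F, u = t • k
  · -- the unipotent case: `k` is a common eigenvector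
    obtain ⟨t, ht⟩ := hA
    have ht0 : t ≠ 0 := by
      rintro rfl
      rw [zero_smul] at ht
      exact hu0 ht
    have hfr : NE_Frame F k w := NE_frame_of_indep h2 (by
      rw [LinearIndependent.pair_iff]
      intro s r hsr
      have h1 : g (s • k + r • w) = 0 := by rw [hsr, map_zero]
      rw [map_add, map_smul, map_smul, hgk, hgw, smul_add, ← add_assoc, hsr, zero_add] at h1
      have hr : r = 0 := (smul_eq_zero.1 h1).resolve_right hu0
      rw [hr, zero_smul, add_zero] at hsr
      exact ⟨(smul_eq_zero.1 hsr).resolve_right hk0, hr⟩)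
    refine ⟨k, hk0, fun f hf => ?_⟩
    obtain ⟨a, c, hfk⟩ := hfr.span (f k)
    obtain ⟨b, d, hfw⟩ := hfr.span (f w)
    have hP : (a - 1) * (d - 1) - b * c = 0 := NE_P hfr (hfix f hf) hfk hfw
    have hgf : g * f ∈ T := T.mul_mem hg hf
    have hgfk : (g * f) k = (a + c * t) • k + c • w := by
      rw [Module.End.mul_apply, hfk, map_add, map_smul, map_smul, hgk, hgw, ht]
      module
    have hgfw : (g * f) w = (b + d * t) • k + d • w := by
      rw [Module.End.mul_apply, hfw, map_add, map_smul, map_smul, hgk, hgw, ht]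
      module
    have hP' := NE_P hfr (hfix _ hgf) hgfk hgfw
    have hc : c = 0 := by
      have h : c * t = 0 := by linear_combination hP - hP'
      exact (mul_eq_zero.1 h).resolve_right ht0
    exact ⟨a, by rw [hfk, hc, zero_smul, add_zero]⟩
  · -- the semisimple case: `k` or `u` is a common eigenvector
    push_neg at hA
    have hfr : NE_Frame F k u := NE_frame_of_indep h2 (by
      rw [LinearIndependent.pair_iff]
      intro s r hsr
      by_cases hr : r = 0
      · rw [hr, zero_smul, add_zero] at hsr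
        exact ⟨(smul_eq_zero.1 hsr).resolve_right hk0, hr⟩
      · exfalso
        apply hA (-(r⁻¹ * s))
        have h1 : r • u = -(s • k) := by
          rw [eq_neg_iff_add_eq_zero, add_comm]
          exact hsr
        have h2' : u = r⁻¹ • (r • u) := by rw [smul_smul, inv_mul_cancel₀ hr, one_smul]
        rw [h2', h1]
        module)
    -- `g u = δ u` with `δ ≠ 1`
    obtain ⟨x, y, hwxy⟩ := hfr.span w
    have hy : y • (g u - u) = u := by
      have h1 : g w - w = y • (g u - u) := by
        rw [hwxy, map_add, map_smul, map_smul, hgk]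
        module
      rw [← h1, ← hu]
    have hy0 : y ≠ 0 := by
      rintro rfl
      rw [zero_smul] at hy
      exact hu0 hy.symm
    have hgu : g u = (1 + y⁻¹) • u := by
      have h1 : g u - u = y⁻¹ • u := by
        rw [← hy, smul_smul, inv_mul_cancel₀ hy0, one_smul, hy]
      rw [add_smul, one_smul, ← h1]
      abel
    -- every element of `T` has the form `k ↦ k + c u`
    have hA1 : ∀ f ∈ T, ∀ a c : F, f k = a • k + c • u → a = 1 := by
      intro f hf a c hfk
      obtain ⟨b, d, hfu⟩ := hfr.span (f u)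
      have hP : (a - 1) * (d - 1) - b * c = 0 := NE_P hfr (hfix f hf) hfk hfu
      have hgf : g * f ∈ T := T.mul_mem hg hf
      have hgfk : (g * f) k = a • k + (c * (1 + y⁻¹)) • u := by
        rw [Module.End.mul_apply, hfk, map_add, map_smul, map_smul, hgk, hgu]
        module
      have hgfu : (g * f) u = b • k + (d * (1 + y⁻¹)) • u := by
        rw [Module.End.mul_apply, hfu, map_add, map_smul, map_smul, hgk, hgu]
        module
      have hP' := NE_P hfr (hfix _ hgf) hgfk hgfu
      have h : (a - 1) * y⁻¹ = 0 := by linear_combination hP' - (1 + y⁻¹) * hP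
      have := (mul_eq_zero.1 h).resolve_right (inv_ne_zero hy0)
      linear_combination this
    by_cases hC : ∀ f ∈ T, ∃ c' : F, f k = c' • k
    · exact ⟨k, hk0, hC⟩
    · push_neg at hC
      obtain ⟨f₂, hf₂, hf₂k⟩ := hC
      obtain ⟨a₂, c₂, hf₂k'⟩ := hfr.span (f₂ k)
      have ha₂ : a₂ = 1 := hA1 f₂ hf₂ a₂ c₂ hf₂k'
      have hc₂ : c₂ ≠ 0 := by
        rintro rfl
        apply hf₂k a₂
        rw [hf₂k', zero_smul, add_zero]
      refine ⟨u, hu0, fun f₁ hf₁ => ?_⟩
      obtain ⟨a₁, c₁, hf₁k⟩ := hfr.span (f₁ k)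
      obtain ⟨b₁, d₁, hf₁u⟩ := hfr.span (f₁ u)
      have h12 : f₁ * f₂ ∈ T := T.mul_mem hf₁ hf₂
      have h12k : (f₁ * f₂) k = (a₁ + c₂ * b₁) • k + (c₁ + c₂ * d₁) • u := by
        rw [Module.End.mul_apply, hf₂k', ha₂, map_add, map_smul, map_smul, hf₁k, hf₁u]
        module
      have ha₁ : a₁ = 1 := hA1 f₁ hf₁ a₁ c₁ hf₁k
      have h := hA1 _ h12 _ _ h12k
      have hb₁ : b₁ = 0 := by
        have : c₂ * b₁ = 0 := by linear_combination h - ha₁
        exact (mul_eq_zero.1 this).resolve_left hc₂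
      exact ⟨d₁, by rw [hf₁u, hb₁, zero_smul, zero_add]⟩

end

end Fermat.Agent.EFrob
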