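import Fermat.Agent.EFrob.Main
import Fermat.Agent.EFrob.NonEisAlg
import Fermat.Agent.Cheb.CompareFinal
import Fermat.Agent.S13.AsmGroups
import Fermat.Agent.Tors.Qbar
import Fermat.Agent.S05.VarChange
import Fermat.Prelude.Def_FLTPrelim_ModularRep

/-!
# P-EFROB: irreducible `E[p]` is not Eisenstein

If `E[p]` is an irreducible Galois module then the point counts of (an integral model of) `E`
are not congruent to `ℓ + 1` modulo `p` at all good primes outside a finite set: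
`exists_good_prime_not_eisenstein`.

Proof: otherwise every Frobenius element at such a prime has characteristic polynomial
`(X - 1)(X - ℓ)` on `E[p]` (P-EFROB), hence a nonzero fixed vector; by the weak Chebotarev
theorem every element of the Galois group is, on `E[p]`, a power of such a Frobenius element, so
it has a nonzero fixed vector as well; a group of automorphisms of a plane in which every element
has a nonzero fixed vector has a common eigenvector, i.e. there is a stable line.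
-/

set_option autoImplicit false

namespace Fermat.Agent.EFrob

open WeierstrassCurve WeierstrassCurve.Affine WeierstrassCurve.Affine.Point

local notation "Qbar" => AlgebraicClosure ℚ
local notation "Γℚ" => (AlgebraicClosure ℚ ≃ₐ[ℚ] AlgebraicClosure ℚ)

/-- `det (f - 1) = det f - tr f + 1` in dimension `2`. -/
lemma NE_det_sub_one {F V : Type*} [Field F] [AddCommGroup V] [Module F V]
    (h2 : Module.finrank F V = 2) (f : Module.End F V) :
    LinearMap.det (f - 1) = LinearMap.det f - LinearMap.trace F V f + 1 := by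
  haveI : Module.Finite F V := Module.finite_of_finrank_pos (by omega)
  let b := Module.finBasisOfFinrankEq F V h2
  rw [← LinearMap.det_toMatrix b (f - 1), ← LinearMap.det_toMatrix b f,
    LinearMap.trace_eq_matrix_trace F b f, map_sub, LinearMap.toMatrix_one,
    Matrix.det_fin_two, Matrix.det_fin_two, Matrix.trace_fin_two]
  simp only [Matrix.sub_apply, Matrix.one_apply_eq, Matrix.one_apply_ne, ne_eq,
    Fin.zero_eq_one_iff, Fin.one_eq_zero_iff, OfNat.ofNat_ne_one, not_false_eq_true, sub_zero]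
  ring

/-- If every element of the Galois group has a nonzero fixed vector in `E[p]` then `E[p]` is
reducible. -/
theorem NE_reducible_of_fixed (E : WeierstrassCurve ℚ) (hΔ : E.Δ ≠ 0) (p : ℕ) [Fact p.Prime]
    (hfix : ∀ τ : Γℚ, ∃ Q : Submodule.torsionBy ℤ (E⁄Qbar).Point p, Q ≠ 0 ∧ τ • Q = Q) :
    ¬ GaloisRepIsIrreducible (K := Qbar) ℚ E p := by
  intro hirr
  have h2 := Tors.finrank_torsionBy_qbar E hΔ p
  obtain ⟨v, hv0, hv⟩ := NE_common_eigenvector h2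
    (MonoidHom.mrange (galoisRepModuleEnd (K := Qbar) ℚ E p)) (by
      rintro f ⟨τ, rfl⟩
      obtain ⟨Q, hQ0, hQ⟩ := hfix τ
      exact ⟨Q, hQ0, hQ⟩)
  have hstable : IsGaloisStable ℚ (Submodule.span (ZMod p) {v}) := by
    intro σ x hx
    obtain ⟨a, rfl⟩ := Submodule.mem_span_singleton.1 hx
    obtain ⟨c, hc⟩ := hv (galoisRepModuleEnd (K := Qbar) ℚ E p σ) ⟨σ, rfl⟩
    rw [galoisRepModuleEnd_apply] at hc
    rw [smul_comm, hc, smul_smul]
    exact Submodule.smul_mem _ _ (Submodule.mem_span_singleton_self v)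
  rcases hirr.2 _ hstable with h | h
  · exact hv0 ((Submodule.span_singleton_eq_bot).1 h)
  · have h1 : Module.finrank (ZMod p) (Submodule.span (ZMod p) {v}) = 1 :=
      finrank_span_singleton hv0
    rw [h, finrank_top, h2] at h1
    omega

/-- A Frobenius element at a good prime `ℓ ≠ p` with `a_ℓ ≡ ℓ + 1 mod p` has a nonzero fixed
vector in `E[p]`. -/
theorem NE_fixed_of_frob (W : WeierstrassCurve ℤ) (hΔ : W.Δ ≠ 0) {ℓ p : ℕ} (hℓ : ℓ.Prime)
    (hp : p.Prime) (hne : ℓ ≠ p) (hgood : W.IsGoodPrimeFor ℓ)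
    (hcong : (p : ℤ) ∣ (W.apOfModel ℓ - (ℓ + 1)))
    (A : ValuationSubring Qbar) (hA : A.LiesOverPrime ℓ) (σ : Γℚ) (hσ : A.IsFrobeniusAt σ ℓ) :
    ∃ Q : Submodule.torsionBy ℤ ((W.map (Int.castRingHom ℚ))⁄Qbar).Point p,
      Q ≠ 0 ∧ σ • Q = Q := by
  haveI : Fact p.Prime := ⟨hp⟩
  have hΔ' : (W.map (Int.castRingHom ℚ)).Δ ≠ 0 := by
    rw [WeierstrassCurve.map_Δ]
    simpa using hΔ
  have h2 := Tors.finrank_torsionBy_qbar (W.map (Int.castRingHom ℚ)) hΔ' p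
  have htr := galoisTrace_frobenius W hℓ hp hne hgood A hA σ hσ
  have hdet := galoisDet_frobenius W hℓ hp hne hgood A hA σ hσ
  have ha : ((W.apOfModel ℓ : ℤ) : ZMod p) = (ℓ : ZMod p) + 1 := by
    have := (ZMod.intCast_zmod_eq_zero_iff_dvd _ p).2 hcong
    push_cast at this
    linear_combination this
  have hd : LinearMap.det (galoisRepModuleEnd (K := Qbar) ℚ
      (W.map (Int.castRingHom ℚ)).toAffine p σ - 1) = 0 := by
    rw [NE_det_sub_one h2, hdet, ← galoisTrace_def, htr, ha]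
    ring
  have hker := LinearMap.bot_lt_ker_of_det_eq_zero hd
  obtain ⟨Q, hQ, hQ0⟩ := Submodule.exists_mem_ne_zero_of_ne_bot hker.ne'
  refine ⟨Q, hQ0, ?_⟩
  have := LinearMap.mem_ker.1 hQ
  rw [LinearMap.sub_apply, galoisRepModuleEnd_apply, Module.End.one_apply, sub_eq_zero] at this
  exact this

/-- The Chebotarev step: if the Frobenius elements at the primes outside a finite set have a
nonzero fixed vector in `E[p]`, so has every element of the Galois group. -/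
theorem NE_fixed_all (E : WeierstrassCurve ℚ) (hΔ : E.Δ ≠ 0) (p : ℕ) [Fact p.Prime]
    (S : Finset ℕ)
    (hfrob : ∀ (ℓ : ℕ) (A : ValuationSubring Qbar) (σ : Γℚ), ℓ.Prime → ℓ ∉ S →
      A.LiesOverPrime ℓ → A.IsFrobeniusAt σ ℓ →
      ∃ Q : Submodule.torsionBy ℤ (E⁄Qbar).Point p, Q ≠ 0 ∧ σ • Q = Q) (τ : Γℚ) :
    ∃ Q : Submodule.torsionBy ℤ (E⁄Qbar).Point p, Q ≠ 0 ∧ τ • Q = Q := by
  haveI : Finite (S13.Tors E p) :=
    Tors.finite_torsionBy_qbar E hΔ p (Fact.out : p.Prime).ne_zero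
  obtain ⟨S₁, hS₁⟩ := S13.Asm.exists_finset_fix (W := E) (p := p)
  haveI : Algebra.IsAlgebraic ℚ Qbar := AlgebraicClosure.isAlgebraic ℚ
  haveI : IsAlgClosure ℚ Qbar := ⟨inferInstance, inferInstance⟩
  haveI : Normal ℚ Qbar := IsAlgClosure.normal ℚ Qbar
  let L₂ : IntermediateField ℚ Qbar := IntermediateField.adjoin ℚ (S₁ : Set Qbar)
  haveI hL₂fin : FiniteDimensional ℚ L₂ :=
    IntermediateField.finiteDimensional_adjoin (fun x _ => (Algebra.IsIntegral.isIntegral x))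
  let F : IntermediateField ℚ Qbar := IntermediateField.normalClosure ℚ L₂ Qbar
  haveI hFfin : FiniteDimensional ℚ F := normalClosure.is_finiteDimensional ℚ L₂ Qbar
  haveI hFnormal : Normal ℚ F := normalClosure.normal ℚ L₂ Qbar
  haveI hFgal : IsGalois ℚ F := ⟨⟩
  have hLF : L₂ ≤ F := IntermediateField.le_normalClosure L₂
  obtain ⟨ℓ, A, σ, k, hℓ, hℓS, hA, hσ, hfixL⟩ := Cheb.exists_frobenius_pow_mod F τ S
  obtain ⟨Q, hQ0, hQ⟩ := hfrob ℓ A σ hℓ hℓS hA hσ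
  refine ⟨Q, hQ0, ?_⟩
  have h1 : (τ⁻¹ * σ ^ k) ∈ MulAction.stabilizer Γℚ Q :=
    hS₁ _ (fun s hs => hfixL s (hLF (IntermediateField.subset_adjoin ℚ _ hs))) Q
  have h2 : σ ^ k ∈ MulAction.stabilizer Γℚ Q := pow_mem (MulAction.mem_stabilizer_iff.2 hQ) k
  have h3 : τ⁻¹ ∈ MulAction.stabilizer Γℚ Q := (Subgroup.mul_mem_cancel_right _ h2).1 h1
  exact MulAction.mem_stabilizer_iff.1 (inv_mem_iff.1 h3)

/-- Transport of fixed vectors along a variable change. -/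
theorem NE_transport (E : WeierstrassCurve ℚ) (C : VariableChange ℚ) (p : ℕ) (τ : Γℚ)
    (h : ∃ Q : Submodule.torsionBy ℤ ((C • E)⁄Qbar).Point p, Q ≠ 0 ∧ τ • Q = Q) :
    ∃ Q : Submodule.torsionBy ℤ (E⁄Qbar).Point p, Q ≠ 0 ∧ τ • Q = Q := by
  obtain ⟨Q, hQ0, hQ⟩ := h
  have hQ' : τ • (Q : ((C • E)⁄Qbar).Point) = Q := congrArg Subtype.val hQ
  refine ⟨⟨S05.vcPointBC E C (Q : ((C • E)⁄Qbar).Point), ?_⟩, ?_, ?_⟩
  · rw [Submodule.mem_torsionBy_iff, ← map_zsmul, (Submodule.mem_torsionBy_iff _ _).1 Q.2,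
      _root_.map_zero]
  · intro h0
    apply hQ0
    apply Subtype.ext
    apply S05.vcPointBC_injective E C
    have h1 : S05.vcPointBC (K := Qbar) E C (Q : ((C • E)⁄Qbar).Point) = 0 :=
      congrArg Subtype.val h0
    rw [h1]
    exact (_root_.map_zero (S05.vcPointBC (K := Qbar) E C)).symm
  · apply Subtype.ext
    change τ • (S05.vcPointBC E C (Q : ((C • E)⁄Qbar).Point)) = S05.vcPointBC E C _
    rw [algEquiv_smul_def, ← S05.vcPointBC_map, ← algEquiv_smul_def, hQ']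

/-- **Irreducible ⇒ not Eisenstein** (integral-model form).  If `E[p]` is irreducible, then for
every finite set `S₀` of primes there is a prime `ℓ ∉ S₀`, `ℓ ≠ p`, of good reduction with
`a_ℓ ≢ ℓ + 1 mod p`. -/
theorem exists_good_prime_not_eisenstein' (W : WeierstrassCurve ℤ) (hΔ : W.Δ ≠ 0) {p : ℕ}
    (hp : p.Prime) (hirr : W.ModRepIsIrreducible p) (S₀ : Finset ℕ) :
    ∃ ℓ : ℕ, ℓ.Prime ∧ W.IsGoodPrimeFor ℓ ∧ ℓ ∉ S₀ ∧ ℓ ≠ p ∧
      ¬ (p : ℤ) ∣ (W.apOfModel ℓ - (ℓ + 1)) := by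
  have : Fact p.Prime := ⟨hp⟩
  by_contra hcon
  push Not at hcon
  have hΔ' : (W.map (Int.castRingHom ℚ)).Δ ≠ 0 := by
    rw [WeierstrassCurve.map_Δ]
    simpa using hΔ
  apply NE_reducible_of_fixed (W.map (Int.castRingHom ℚ)) hΔ' p ?_ hirr
  apply NE_fixed_all (W.map (Int.castRingHom ℚ)) hΔ' p (S₀ ∪ {p} ∪ W.Δ.natAbs.primeFactors)
  intro ℓ A σ hℓ hℓS hA hσ
  simp only [Finset.mem_union, Finset.mem_singleton, Nat.mem_primeFactors, not_or, not_and,
    ne_eq, Int.natAbs_eq_zero] at hℓS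
  obtain ⟨⟨hℓS₀, hℓp⟩, hℓΔ⟩ := hℓS
  have hgood : W.IsGoodPrimeFor ℓ := by
    intro hdvd
    exact hℓΔ hℓ (Int.natCast_dvd.1 hdvd) hΔ
  exact NE_fixed_of_frob W hΔ hℓ hp hℓp hgood (hcon ℓ hℓ hgood hℓS₀ hℓp) A hA σ hσ

/-- **Irreducible ⇒ not Eisenstein** (the form used by level raising, binders as in the frozen
statement S41). -/
theorem exists_good_prime_not_eisenstein (E : WeierstrassCurve ℚ) [E.IsElliptic]
    {W : WeierstrassCurve ℤ} (hW : W.IsIntegralModelOf E) {p : ℕ} (hp : p.Prime)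
    (hirr : GaloisRepIsIrreducible (K := Qbar) ℚ E p) (S₀ : Finset ℕ) :
    ∃ ℓ : ℕ, ℓ.Prime ∧ W.IsGoodPrimeFor ℓ ∧ ℓ ∉ S₀ ∧ ℓ ≠ p ∧
      ¬ (p : ℤ) ∣ (W.apOfModel ℓ - (ℓ + 1)) := by
  have : Fact p.Prime := ⟨hp⟩
  obtain ⟨C, hC⟩ := hW
  have hΔE : E.Δ ≠ 0 := E.isUnit_Δ.ne_zero
  have hΔ' : (W.map (Int.castRingHom ℚ)).Δ ≠ 0 := by
    rw [← hC, WeierstrassCurve.variableChange_Δ]
    exact mul_ne_zero (pow_ne_zero _ (Units.ne_zero _)) hΔE
  have hΔ : W.Δ ≠ 0 := by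
    rintro h
    apply hΔ'
    rw [WeierstrassCurve.map_Δ, h, _root_.map_zero]
  by_contra hcon
  push Not at hcon
  apply NE_reducible_of_fixed E hΔE p ?_ hirr
  intro τ
  apply NE_transport E C p τ
  rw [hC]
  revert τ
  apply NE_fixed_all (W.map (Int.castRingHom ℚ)) hΔ' p (S₀ ∪ {p} ∪ W.Δ.natAbs.primeFactors)
  intro ℓ A σ hℓ hℓS hA hσ
  simp only [Finset.mem_union, Finset.mem_singleton, Nat.mem_primeFactors, not_or, not_and,
    ne_eq, Int.natAbs_eq_zero] at hℓS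
  obtain ⟨⟨hℓS₀, hℓp⟩, hℓΔ⟩ := hℓS
  have hgood : W.IsGoodPrimeFor ℓ := by
    intro hdvd
    exact hℓΔ hℓ (Int.natCast_dvd.1 hdvd) hΔ
  exact NE_fixed_of_frob W hΔ hℓ hp hℓp hgood (hcon ℓ hℓ hgood hℓS₀ hℓp) A hA σ hσ

/-- An integer outside `p ℤ` is not in a maximal ideal of `ℤ̄` containing `p`. -/
lemma NE_intCast_notMem {p : ℕ} (hp : p.Prime) {𝔪 : Ideal (integralClosure ℤ ℂ)}
    (hmax : 𝔪.IsMaximal) (hpm : (p : integralClosure ℤ ℂ) ∈ 𝔪) {n : ℤ} (hn : ¬ (p : ℤ) ∣ n) :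
    ((n : ℤ) : integralClosure ℤ ℂ) ∉ 𝔪 := by
  intro hmem
  have hcop : IsCoprime (p : ℤ) n :=
    (Nat.prime_iff_prime_int.1 hp).coprime_iff_not_dvd.2 hn
  obtain ⟨x, y, hxy⟩ := hcop
  apply hmax.ne_top
  rw [Ideal.eq_top_iff_one]
  have h1 : ((x : ℤ) : integralClosure ℤ ℂ) * (p : integralClosure ℤ ℂ) +
      ((y : ℤ) : integralClosure ℤ ℂ) * ((n : ℤ) : integralClosure ℤ ℂ) = 1 := by
    have := congrArg (fun z : ℤ => (z : integralClosure ℤ ℂ)) hxy
    simpa using this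
  rw [← h1]
  exact 𝔪.add_mem (𝔪.mul_mem_left _ hpm) (𝔪.mul_mem_left _ hmem)

/-- **Irreducible ⇒ the congruent eigensystem is not Eisenstein** (in the vocabulary of the
frozen statements on residual modularity / level raising): if a form `f` is congruent to `W`
modulo a maximal ideal `𝔪` over `p` at the good primes not dividing `N p`, and `E[p]` is
irreducible, then `a_ℓ(f) ≢ ℓ + 1 mod 𝔪` for some good prime `ℓ ∤ N p` outside any given finite
set. -/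
theorem exists_prime_not_eisenstein_mod (E : WeierstrassCurve ℚ) [E.IsElliptic]
    {W : WeierstrassCurve ℤ} (hW : W.IsIntegralModelOf E) {p N : ℕ} (hp : p.Prime) (hN : 0 < N)
    (hirr : GaloisRepIsIrreducible (K := Qbar) ℚ E p)
    (f : CuspForm (CongruenceSubgroup.Gamma0 N) 2) (𝔪 : Ideal (integralClosure ℤ ℂ))
    (hmax : 𝔪.IsMaximal) (hpm : (p : integralClosure ℤ ℂ) ∈ 𝔪)
    (hcong : ∀ ℓ : ℕ, ℓ.Prime → W.IsGoodPrimeFor ℓ → ¬ ℓ ∣ N → ℓ ≠ p →
      ∃ a : integralClosure ℤ ℂ, (a : ℂ) = ModularFormClass.qCoeff f ℓ ∧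
        a - ((W.apOfModel ℓ : ℤ) : integralClosure ℤ ℂ) ∈ 𝔪)
    (S₀ : Finset ℕ) :
    ∃ ℓ : ℕ, ℓ.Prime ∧ W.IsGoodPrimeFor ℓ ∧ ¬ ℓ ∣ N ∧ ℓ ∉ S₀ ∧ ℓ ≠ p ∧
      ∃ a : integralClosure ℤ ℂ, (a : ℂ) = ModularFormClass.qCoeff f ℓ ∧
        a - ((ℓ : integralClosure ℤ ℂ) + 1) ∉ 𝔪 := by
  obtain ⟨ℓ, hℓ, hgood, hℓS, hℓp, hne⟩ :=
    exists_good_prime_not_eisenstein E hW hp hirr (S₀ ∪ N.primeFactors)
  rw [Finset.mem_union, not_or] at hℓS
  have hℓN : ¬ ℓ ∣ N := fun h => hℓS.2 (Nat.mem_primeFactors.2 ⟨hℓ, h, hN.ne'⟩)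
  obtain ⟨a, ha, ham⟩ := hcong ℓ hℓ hgood hℓN hℓp
  refine ⟨ℓ, hℓ, hgood, hℓN, hℓS.1, hℓp, a, ha, fun hmem => ?_⟩
  apply NE_intCast_notMem hp hmax hpm hne
  have e : (((W.apOfModel ℓ - (ℓ + 1) : ℤ)) : integralClosure ℤ ℂ) =
      (a - ((ℓ : integralClosure ℤ ℂ) + 1)) -
        (a - ((W.apOfModel ℓ : ℤ) : integralClosure ℤ ℂ)) := by
    push_cast
    ring
  rw [e]
  exact 𝔪.sub_mem hmem ham

end Fermat.Agent.EFrob
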