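import Fermat.Agent.EFrob.CharpolyAsm
import Fermat.Agent.Tors.Bridge
import Fermat.Agent.Tors.Count

set_option autoImplicit false
set_option linter.unusedSectionVars false

namespace Fermat.Agent.EFrob

open WeierstrassCurve WeierstrassCurve.Affine Polynomial

noncomputable section

/-- Symmetric residues: every integer is congruent modulo `q` to `± m` with `2 m ≤ q`. -/
theorem L95_sym_residue (q : ℕ) (hq : 0 < q) (c : ℤ) :
    ∃ m : ℕ, 2 * m ≤ q ∧ ((q : ℤ) ∣ c - m ∨ (q : ℤ) ∣ c + m) := by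
  have hq' : (0 : ℤ) < q := by exact_mod_cast hq
  have h0 := Int.emod_nonneg c hq'.ne'
  have h1 := Int.emod_lt_of_pos c hq'
  have h2 : (q : ℤ) ∣ c - c % q := Int.dvd_self_sub_emod
  by_cases h : 2 * (c % q) ≤ q
  · refine ⟨(c % q).toNat, ?_, Or.inl ?_⟩
    · have : ((c % q).toNat : ℤ) = c % q := Int.toNat_of_nonneg h0
      omega
    · rw [Int.toNat_of_nonneg h0]; exact h2
  · refine ⟨(q - c % q).toNat, ?_, Or.inr ?_⟩
    · have : ((q - c % q).toNat : ℤ) = q - c % q := Int.toNat_of_nonneg (by omega)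
      omega
    · rw [Int.toNat_of_nonneg (by omega)]
      have : c + (q - c % q) = (c - c % q) + q := by ring
      rw [this]
      exact dvd_add h2 dvd_rfl

theorem L95_zsmul_of_dvd {A : Type*} [AddCommGroup A] {q : ℕ} {Q : A} (hQ : q • Q = 0)
    {c d : ℤ} (h : (q : ℤ) ∣ c - d) : c • Q = d • Q := by
  obtain ⟨t, ht⟩ := h
  have : c = d + q * t := by linarith
  rw [this, add_smul, mul_comm, mul_smul, natCast_zsmul, hQ, smul_zero, add_zero]


section Core

variable {F : Type*} [Field F] [IsAlgClosed F] [DecidableEq F] (E : WeierstrassCurve F)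

open Fermat.Agent.Tors in
/-- The polynomial `X_m - X ^ ℓ Z_m` does not vanish. -/
theorem L95_R_ne_zero (hΔ : E.Δ ≠ 0) (ℓ : ℕ) (hℓ : ℓ.Prime) (m : ℕ) :
    pX E m - X ^ ℓ * pZ E m ≠ 0 := by
  intro h0
  have hX : pX E m = X ^ ℓ * pZ E m := sub_eq_zero.mp h0
  have hXm : (pX E m).Monic := pX_monic E m
  have hZ0 : pZ E m ≠ 0 := by
    intro hz
    rw [hz, mul_zero] at hX
    exact hXm.ne_zero hX
  have hnoroot : ∀ x₀ : F, (pZ E m).eval x₀ ≠ 0 := by
    intro x₀ hz
    obtain ⟨y₀, h₀⟩ := count_exists_point E hΔ x₀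
    apply pX_pZ_not_both_zero E hΔ h₀ m
    refine ⟨?_, hz⟩
    rw [hX, eval_mul, hz, mul_zero]
  have hdeg : (pZ E m).natDegree = 0 := by
    by_contra hne
    have hd : (pZ E m).degree ≠ 0 := by
      intro hd0
      exact hne (natDegree_eq_zero_iff_degree_le_zero.mpr hd0.le)
    obtain ⟨x₀, hx₀⟩ := IsAlgClosed.exists_root _ hd
    exact hnoroot x₀ hx₀
  have h1 : (pX E m).natDegree = m ^ 2 := pX_natDegree E m
  have h2 : (X ^ ℓ * pZ E m).natDegree = ℓ := by
    rw [natDegree_X_pow_mul ℓ hZ0, hdeg, zero_add]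
  rw [hX, h2] at h1
  have hsq : m ∣ ℓ := ⟨m, by rw [h1, pow_two]⟩
  rcases (Nat.dvd_prime hℓ).mp hsq with h | h
  · rw [h] at h1
    exact hℓ.one_lt.ne' (by simpa using h1)
  · rw [h] at h1
    have : ℓ = 1 := by
      have hpos := hℓ.pos
      nlinarith
    exact hℓ.one_lt.ne' this

open Fermat.Agent.Tors in
theorem L95_R_natDegree_le (ℓ m : ℕ) : (pX E m - X ^ ℓ * pZ E m).natDegree ≤ ℓ + m ^ 2 := by
  refine (natDegree_sub_le _ _).trans (max_le ?_ ?_)
  · exact (pX_natDegree_le E m).trans (Nat.le_add_left _ _)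
  · refine natDegree_mul_le.trans ?_
    have h1 : (X ^ ℓ : F[X]).natDegree ≤ ℓ := natDegree_X_pow_le ℓ
    have h2 := pZ_natDegree_le E m
    omega

open Fermat.Agent.Tors in
/-- If a map `ψ` raising `x`-coordinates to the `ℓ`-th power agrees with multiplication by an
integer on the `q`-torsion, then `q ^ 2 ≤ 4 ℓ + 2`. -/
theorem L95_bound_core (hΔ : E.Δ ≠ 0) (ℓ : ℕ) (hℓ : ℓ.Prime) (q : ℕ) (hq : (q : F) ≠ 0)
    (ψ : E.toAffine.Point → E.toAffine.Point)
    (hψ : ∀ (x y : F) (h : E.toAffine.Nonsingular x y),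
      ∃ (y' : F) (h' : E.toAffine.Nonsingular (x ^ ℓ) y'),
        ψ (Point.some x y h) = Point.some (x ^ ℓ) y' h')
    (c : ℤ) (hc : ∀ Q : E.toAffine.Point, q • Q = 0 → ψ Q = c • Q) :
    q ^ 2 ≤ 4 * ℓ + 2 := by
  classical
  have hq0 : 0 < q := by
    rcases Nat.eq_zero_or_pos q with rfl | h
    · simp at hq
    · exact h
  obtain ⟨m, hm, hcm⟩ := L95_sym_residue q hq0 c
  -- the key polynomial identity at torsion points
  have key : ∀ (x y : F) (h : E.toAffine.Nonsingular x y),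
      q • (Point.some x y h : E.toAffine.Point) = 0 →
      (pX E m - X ^ ℓ * pZ E m).eval x = 0 := by
    intro x y h hQ
    obtain ⟨y', h', hψQ⟩ := hψ x y h
    have h1 := hc _ hQ
    rw [hψQ] at h1
    have h2 : ∃ (y'' : F) (h'' : E.toAffine.Nonsingular (x ^ ℓ) y''),
        m • (Point.some x y h : E.toAffine.Point) = Point.some (x ^ ℓ) y'' h'' := by
      rcases hcm with hd | hd
      · refine ⟨y', h', ?_⟩
        rw [h1, L95_zsmul_of_dvd hQ hd, natCast_zsmul]
      · have hd' : (q : ℤ) ∣ c - (-(m : ℤ)) := by simpa using hd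
        have h3 := L95_zsmul_of_dvd hQ hd'
        rw [neg_smul, natCast_zsmul] at h3
        rw [h3] at h1
        have h4 : m • (Point.some x y h : E.toAffine.Point) = -(Point.some (x ^ ℓ) y' h') := by
          rw [h1, neg_neg]
        rw [Point.neg_some] at h4
        exact ⟨_, _, h4⟩
    obtain ⟨y'', h'', hm2⟩ := h2
    have h5 := (pX_eq_mul_pZ E hΔ h m h'' hm2).1
    simp only [eval_sub, eval_mul, eval_pow, eval_X]
    rw [h5, sub_self]
  -- counting
  have hR := L95_R_ne_zero E hΔ ℓ hℓ m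
  have hcard := card_torsion E hΔ q hq
  have hfin : Finite {P : E.toAffine.Point // q • P = 0} := by
    apply Nat.finite_of_card_ne_zero
    rw [hcard]
    exact pow_ne_zero 2 hq0.ne'
  have hSfin : {P : E.toAffine.Point | q • P = 0}.Finite :=
    Set.finite_coe_iff.mp (show Finite ↥{P : E.toAffine.Point | q • P = 0} from hfin)
  set s : Finset E.toAffine.Point := hSfin.toFinset.erase 0 with hs
  have hscard : s.card + 1 = q ^ 2 := by
    have h0 : (0 : E.toAffine.Point) ∈ hSfin.toFinset := by simp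
    rw [hs, Finset.card_erase_add_one h0, ← hcard]
    exact (Nat.card_eq_card_finite_toFinset hSfin).symm
  have hmaps : ∀ P ∈ s, count_x E P ∈ (pX E m - X ^ ℓ * pZ E m).roots.toFinset := by
    intro P hP
    rw [hs, Finset.mem_erase, Set.Finite.mem_toFinset] at hP
    obtain ⟨hP0, hPq⟩ := hP
    rw [Multiset.mem_toFinset, mem_roots hR]
    cases P with
    | zero => exact absurd rfl hP0
    | some x y h => exact key x y h hPq
  have hfib : ∀ b ∈ (pX E m - X ^ ℓ * pZ E m).roots.toFinset,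
      (s.filter (fun P => count_x E P = b)).card ≤ 2 := by
    intro b _
    by_cases hne : (s.filter (fun P => count_x E P = b)).Nonempty
    · obtain ⟨P₀, hP₀⟩ := hne
      rw [Finset.mem_filter] at hP₀
      have hP₀0 : P₀ ≠ 0 := (Finset.mem_erase.mp hP₀.1).1
      refine (Finset.card_le_card (t := {P₀, -P₀}) ?_).trans Finset.card_le_two
      intro P hP
      rw [Finset.mem_filter] at hP
      have hP0 : P ≠ 0 := (Finset.mem_erase.mp hP.1).1
      rcases count_eq_or_eq_neg E hP0 hP₀0 (hP.2.trans hP₀.2.symm) with h | h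
      · simp [h]
      · simp [h]
    · rw [Finset.not_nonempty_iff_eq_empty.mp hne]
      simp
  have h1 := Finset.card_le_mul_card_image_of_maps_to hmaps 2 hfib
  have h2 : (pX E m - X ^ ℓ * pZ E m).roots.toFinset.card ≤ ℓ + m ^ 2 :=
    (Multiset.toFinset_card_le _).trans ((card_roots' _).trans (L95_R_natDegree_le E ℓ m))
  have h3 : 4 * m ^ 2 ≤ q ^ 2 := by nlinarith
  nlinarith

end Core


/-- **The geometric bound of (L).** -/
theorem L95_scalarBound : L95_ScalarBound := by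
  intro ℓ p _ _ hne k _ _ _ _ W hW
  have hℓ : ℓ.Prime := Fact.out
  have hp : p.Prime := Fact.out
  refine ⟨4 * ℓ + 2, fun n c' hfrob => ?_⟩
  have hpk := L95_natCast_ne_zero ℓ p hne k
  have hq : (((p ^ n : ℕ)) : k) ≠ 0 := by
    rw [Nat.cast_pow]
    exact pow_ne_zero n hpk
  have hψ : ∀ (x y : k) (h : (W⁄k).toAffine.Nonsingular x y),
      ∃ (y' : k) (h' : (W⁄k).toAffine.Nonsingular (x ^ ℓ) y'),
        frob ℓ W (Point.some x y h) = Point.some (x ^ ℓ) y' h' :=
    fun x y h => ⟨_, _, rfl⟩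
  have hb := L95_bound_core (W⁄k) hW ℓ hℓ (p ^ n) hq (frob ℓ W) hψ c' hfrob
  have h1 : n < 2 ^ n := Nat.lt_two_pow_self
  have h2 : 2 ^ n ≤ p ^ n := Nat.pow_le_pow_left hp.two_le n
  have h3 : p ^ n ≤ (p ^ n) ^ 2 := Nat.le_self_pow (by norm_num) _
  omega

/-- **(L)** `IfaceCore ⇒ IfaceCharpolyFF`. -/
theorem L95_charpolyFF (hCore : IfaceCore) : IfaceCharpolyFF :=
  L95_charpolyFF_of L95_scalarBound hCore

end

end Fermat.Agent.EFrob
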