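import Fermat.Agent.EFrob.Defs

/-!
# P-EFROB: frozen interfaces

Architect: helper6.  Every declaration here is a `def ... : Prop` (a frozen interface); nothing is
assumed.  Work packages deliver `theorem <name> : <Iface>` (possibly with other interfaces as
hypotheses, as stated in the task table `efrob_tasks`).

DAG (→ = "is used by"):
  IfaceAddSub → IfaceParallelogram ┐
  IfaceXRat, IfaceFrobFormula      ├→ IfaceCore → IfaceCharpolyFF ┐
  IfaceRed → IfaceSpec, IfaceCount ┘                              ├→ IfaceFinal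
  IfaceRed, IfaceResidue ─────────────────────────────────────────┘
-/

set_option autoImplicit false

namespace Fermat.Agent.EFrob

open WeierstrassCurve WeierstrassCurve.Affine Polynomial

local notation "Qbar" => AlgebraicClosure ℚ

noncomputable section

/-! ## (V) validity of Mathlib's `addSubMap` -/

/-- **(V)** `WeierstrassCurve.addSubMap` does what it claims: it sends the coordinate vector
`sym2x P Q ~ (x(P) x(Q) : x(P) + x(Q) : 1)` to a nonzero multiple of
`sym2x (P + Q) (P - Q)`. -/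
def IfaceAddSub : Prop :=
  ∀ (F : Type) [Field F] [DecidableEq F] (W : WeierstrassCurve F), W.Δ ≠ 0 →
    ∀ P Q : W.toAffine.Point, ∃ c : F, c ≠ 0 ∧
      ∀ i : Fin 3, MvPolynomial.eval (P.sym2x Q) (W.addSubMap i) = c * (P + Q).sym2x (P - Q) i

/-! ## (R) the reduction homomorphism -/

/-- **(R)** Good reduction: for a valuation subring `V` of `K` with a ring homomorphism
`π : V → κ` onto/into a field whose kernel is the maximal ideal, and an integral curve `W` whose
discriminant is a unit of `V`, reduction of points is a group homomorphism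
`(W⁄K).Point →+ (W⁄κ).Point`. -/
def IfaceRed : Prop :=
  ∀ (K : Type) [Field K] [DecidableEq K] (V : ValuationSubring K)
    (κ : Type) [Field κ] [DecidableEq κ] (π : V →+* κ),
    (∀ v : V, π v = 0 ↔ (v : K) ∈ V.nonunits) →
    ∀ W : WeierstrassCurve ℤ, (W⁄K).Δ ∉ V.nonunits →
    ∃ red : (W⁄K).Point →+ (W⁄κ).Point,
      (∀ (x y : K) (h : (W⁄K).toAffine.Nonsingular x y), x ∉ V → red (Point.some x y h) = 0) ∧
      (∀ (x y : K) (h : (W⁄K).toAffine.Nonsingular x y) (hx : x ∈ V) (hy : y ∈ V),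
        ∃ h' : (W⁄κ).toAffine.Nonsingular (π ⟨x, hx⟩) (π ⟨y, hy⟩),
          red (Point.some x y h) = Point.some (π ⟨x, hx⟩) (π ⟨y, hy⟩) h')

/-! ## the generic point and heights -/

/-- **(H)** The parallelogram law for the degree of the `x`-coordinate. -/
def IfaceParallelogram : Prop :=
  ∀ (k : Type) [Field k] (W : WeierstrassCurve ℤ), Good k W →
    ∀ (A B : (W⁄(KK k W)).Point) (a₁ a₂ b₁ b₂ c₁ c₂ e₁ e₂ : k[X]),
      IsXRep k W A a₁ a₂ → IsXRep k W B b₁ b₂ →
      IsXRep k W (A + B) c₁ c₂ → IsXRep k W (A - B) e₁ e₂ →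
      max c₁.natDegree c₂.natDegree + max e₁.natDegree e₂.natDegree =
        2 * max a₁.natDegree a₂.natDegree + 2 * max b₁.natDegree b₂.natDegree

/-- **(X)** Every point `m φ² G + n φ G + r G` of the Frobenius lattice of the generic point has
a rational `x`-coordinate. -/
def IfaceXRat : Prop :=
  ∀ (ℓ : ℕ) [Fact ℓ.Prime] (k : Type) [Field k] [CharP k ℓ] (W : WeierstrassCurve ℤ)
    (hW : Good k W) (m n r : ℤ),
    ∃ F G : k[X], IsXRep k W (lam ℓ W m n r (genPt k W hW)) F G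

/-- **(F)** The explicit (unreduced) formula for `x(φ_q G ∓ G)`: it is `F₀(x) / (x ^ q - x) ^ 2`
with `F₀` monic of degree `2 q + 1` (`q = ℓ` for `φ ± 1`, `q = ℓ ^ 2` for `φ² - 1`). -/
def IfaceFrobFormula : Prop :=
  ∀ (ℓ : ℕ) [Fact ℓ.Prime] (k : Type) [Field k] [CharP k ℓ] (W : WeierstrassCurve ℤ)
    (hW : Good k W),
    (∀ ε : ℤ, ε = 1 ∨ ε = -1 → ∃ F₀ : k[X], F₀.Monic ∧ F₀.natDegree = 2 * ℓ + 1 ∧
      ∃ (x₃ y₃ : KK k W) (h : (W⁄(KK k W)).toAffine.Nonsingular x₃ y₃),
        lam ℓ W 0 1 ε (genPt k W hW) = Point.some x₃ y₃ h ∧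
          x₃ * (gx k W ^ ℓ - gx k W) ^ 2 = aeval (gx k W) F₀) ∧
    (∃ F₀ : k[X], F₀.Monic ∧ F₀.natDegree = 2 * ℓ ^ 2 + 1 ∧
      ∃ (x₃ y₃ : KK k W) (h : (W⁄(KK k W)).toAffine.Nonsingular x₃ y₃),
        lam ℓ W 1 0 (-1) (genPt k W hW) = Point.some x₃ y₃ h ∧
          x₃ * (gx k W ^ (ℓ ^ 2) - gx k W) ^ 2 = aeval (gx k W) F₀)

/-- **(S)** Specialisation: a representation of the `x`-coordinate of `ψ(G)`,
`ψ = m φ² + n φ + r`, over the function field is valid at every affine point of `E(k)`. -/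
def IfaceSpec : Prop :=
  ∀ (ℓ : ℕ) [Fact ℓ.Prime] (k : Type) [Field k] [IsAlgClosed k] [CharP k ℓ] [DecidableEq k]
    (W : WeierstrassCurve ℤ) (hW : Good k W) (m n r : ℤ) (F G : k[X]),
    IsXRep k W (lam ℓ W m n r (genPt k W hW)) F G →
    ∀ (x y : k) (h : (W⁄k).toAffine.Nonsingular x y), ∃ c : k, c ≠ 0 ∧
      F.eval x = c * (lam ℓ W m n r (Point.some x y h)).xRep 0 ∧
      G.eval x = c * (lam ℓ W m n r (Point.some x y h)).xRep 1

/-! ## counting -/

/-- **(C)** The fibre count: a separable endomorphism with an `x`-only formula `F / G` of degree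
`d = deg F > deg G` is surjective with kernel of order `d`. -/
def IfaceCount : Prop :=
  ∀ (k : Type) [Field k] [IsAlgClosed k] [DecidableEq k] (E : WeierstrassCurve k), E.Δ ≠ 0 →
    ∀ (ψ : E.toAffine.Point →+ E.toAffine.Point) (F G : k[X]),
      IsCoprime F G → G.natDegree < F.natDegree →
      derivative F * G - F * derivative G ≠ 0 →
      (∀ (x y : k) (h : E.toAffine.Nonsingular x y), ∃ c : k, c ≠ 0 ∧
        F.eval x = c * (ψ (Point.some x y h)).xRep 0 ∧
        G.eval x = c * (ψ (Point.some x y h)).xRep 1) →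
      Function.Surjective ψ ∧ Nat.card ψ.ker = F.natDegree

/-- **(K)** The points fixed by Frobenius are the points of the reduction over `ZMod ℓ`. -/
def IfaceFixed : Prop :=
  ∀ (ℓ : ℕ) [Fact ℓ.Prime] (k : Type) [Field k] [CharP k ℓ] [DecidableEq k]
    (W : WeierstrassCurve ℤ),
    Nat.card (lam (K := k) ℓ W 0 1 (-1)).ker = (W.reductionMod ℓ).card

/-! ## the core -/

/-- **(CORE)** The characteristic equation of Frobenius on all points over an algebraically
closed field of characteristic `ℓ`: `φ² - a_ℓ φ + ℓ = 0`, with `a_ℓ = W.apOfModel ℓ`. -/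
def IfaceCore : Prop :=
  ∀ (ℓ : ℕ) [Fact ℓ.Prime] (k : Type) [Field k] [IsAlgClosed k] [CharP k ℓ] [DecidableEq k]
    (W : WeierstrassCurve ℤ), Good k W →
    ∀ P : (W⁄k).Point, lam ℓ W 1 (-(W.apOfModel ℓ)) ℓ P = 0

/-- **(L)** Trace and determinant of Frobenius on the `p`-torsion over an algebraically closed
field of characteristic `ℓ ≠ p`, in elementwise form: there is a basis-free description
"`φ` acts on `E[p]` with characteristic polynomial `X² - a_ℓ X + ℓ`": for every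
`ZMod p`-linear endomorphism `T` of `E[p]` which agrees with `φ`, trace and determinant are
as expected. -/
def IfaceCharpolyFF : Prop :=
  ∀ (ℓ p : ℕ) [Fact ℓ.Prime] [Fact p.Prime], ℓ ≠ p →
    ∀ (k : Type) [Field k] [IsAlgClosed k] [CharP k ℓ] [DecidableEq k]
      (W : WeierstrassCurve ℤ), Good k W →
      ∀ T : Module.End (ZMod p) (Submodule.torsionBy ℤ (W⁄k).Point p),
        (∀ Q : Submodule.torsionBy ℤ (W⁄k).Point p,
          ((T Q : Submodule.torsionBy ℤ (W⁄k).Point p) : (W⁄k).Point) =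
            frob ℓ W (Q : (W⁄k).Point)) →
        LinearMap.trace (ZMod p) _ T = ((W.apOfModel ℓ : ℤ) : ZMod p) ∧
          LinearMap.det T = (ℓ : ZMod p)

/-! ## the final interfaces over `Qbar` -/

/-- **(FINAL-rel)** The Eichler–Shimura relation on `E[p](Qbar)` for every Frobenius element at a
good prime `ℓ ≠ p`. -/
def IfaceFinalRel : Prop :=
  ∀ (W : WeierstrassCurve ℤ) (ℓ p : ℕ), ℓ.Prime → p.Prime → ℓ ≠ p → W.IsGoodPrimeFor ℓ →
    ∀ A : ValuationSubring Qbar, A.LiesOverPrime ℓ →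
    ∀ σ : Qbar ≃ₐ[ℚ] Qbar, A.IsFrobeniusAt σ ℓ →
    ∀ Q : ((W.map (Int.castRingHom ℚ))⁄Qbar).Point, (p : ℤ) • Q = 0 →
      σ • σ • Q - (W.apOfModel ℓ) • σ • Q + (ℓ : ℤ) • Q = 0

/-- **(FINAL)** Trace and determinant of a Frobenius element at a good prime `ℓ ≠ p` on
`E[p](Qbar)`: `tr = a_ℓ`, `det = ℓ` in `ZMod p`. -/
def IfaceFinal : Prop :=
  ∀ (W : WeierstrassCurve ℤ) (ℓ p : ℕ), ℓ.Prime → p.Prime → ℓ ≠ p → W.IsGoodPrimeFor ℓ →
    ∀ A : ValuationSubring Qbar, A.LiesOverPrime ℓ →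
    ∀ σ : Qbar ≃ₐ[ℚ] Qbar, A.IsFrobeniusAt σ ℓ →
      Point.galoisTrace (K := Qbar) ℚ (W.map (Int.castRingHom ℚ)).toAffine p σ =
          ((W.apOfModel ℓ : ℤ) : ZMod p) ∧
        LinearMap.det (Point.galoisRepModuleEnd (K := Qbar) ℚ
          (W.map (Int.castRingHom ℚ)).toAffine p σ) = (ℓ : ZMod p)

end

end Fermat.Agent.EFrob
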