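import Fermat.Agent.EFrob.Skeleton

/-!
# P-EFROB, task T (front part): the residue field of a valuation subring of `Qbar`

For a valuation subring `A` of an algebraically closed field `L`:

* `TR_isAlgClosed` : the residue field `κ` of `A` is algebraically closed;
* `TR_residue_eq_zero_iff` : the residue map `π : A → κ` vanishes exactly on the nonunits
  (this is the hypothesis on `π` in `IfaceRed`);
* `TR_charP` : if `A` lies over the prime `ℓ` then `κ` has characteristic `ℓ`;
* `TR_good`, `TR_Δ_not_mem_nonunits` : good reduction of `W` at `ℓ` gives `Good κ W` and the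
  discriminant of `W⁄L` is a unit of `A`.
-/

set_option autoImplicit false

namespace Fermat.Agent.EFrob

open WeierstrassCurve WeierstrassCurve.Affine Polynomial

noncomputable section

section General

variable {L : Type*} [Field L] (A : ValuationSubring L)

/-- the residue map vanishes exactly on the nonunits. -/
theorem TR_residue_eq_zero_iff (v : A) :
    IsLocalRing.residue A v = 0 ↔ (v : L) ∈ A.nonunits := by
  rw [IsLocalRing.residue_eq_zero_iff, ValuationSubring.coe_mem_nonunits_iff]

/-- the residue field of a valuation subring of an algebraically closed field is algebraically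
closed. -/
theorem TR_isAlgClosed [IsAlgClosed L] : IsAlgClosed (IsLocalRing.ResidueField A) := by
  apply IsAlgClosed.of_exists_root
  intro p hp hirr
  have hsurj : Function.Surjective (IsLocalRing.residue A) := IsLocalRing.residue_surjective
  have hlift : p ∈ lifts (IsLocalRing.residue A) :=
    (Polynomial.mem_lifts p).2 (Polynomial.map_surjective _ hsurj p)
  obtain ⟨P, hPmap, hPdeg, hPmon⟩ := lifts_and_natDegree_eq_and_monic hlift hp
  have hpdeg : p.natDegree ≠ 0 := by
    have h1 := degree_pos_of_irreducible hirr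
    have h2 := natDegree_pos_iff_degree_pos.mpr h1
    omega
  have hinj : Function.Injective (algebraMap A L) := Subtype.val_injective
  have hmon' : (P.map (algebraMap A L)).Monic := hPmon.map _
  have hdeg : (P.map (algebraMap A L)).degree ≠ 0 := by
    rw [degree_eq_natDegree hmon'.ne_zero, hPmon.natDegree_map, hPdeg]
    exact_mod_cast hpdeg
  obtain ⟨z, hz⟩ := IsAlgClosed.exists_root (P.map (algebraMap A L)) hdeg
  have hint : IsIntegral A z := ⟨P, hPmon, by rw [eval₂_eq_eval_map]; exact hz⟩
  obtain ⟨a, ha⟩ := IsIntegrallyClosed.isIntegral_iff.mp hint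
  refine ⟨IsLocalRing.residue A a, ?_⟩
  have hPa : P.eval a = 0 := by
    apply hinj
    have h1 : (P.map (algebraMap A L)).eval z = 0 := hz
    rw [← ha, eval_map, eval₂_at_apply] at h1
    rw [h1, map_zero]
  rw [← hPmap, eval_map, eval₂_at_apply, hPa, map_zero]

/-- if `A` lies over `ℓ` then the residue field has characteristic `ℓ`. -/
theorem TR_charP {ℓ : ℕ} (hℓ : ℓ.Prime) (hA : A.LiesOverPrime ℓ) :
    CharP (IsLocalRing.ResidueField A) ℓ := by
  rw [CharP.charP_iff_prime_eq_zero hℓ]
  have h1 : ((ℓ : A) : L) ∈ A.nonunits := by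
    have : ((ℓ : A) : L) = (ℓ : L) := by simp
    rw [this]
    exact hA
  have h2 := (TR_residue_eq_zero_iff A (ℓ : A)).mpr h1
  rwa [map_natCast] at h2

end General

section Curve

variable {L : Type} [Field L] (A : ValuationSubring L) (W : WeierstrassCurve ℤ)

/-- good reduction at `ℓ` gives good reduction over the residue field of a place over `ℓ`. -/
theorem TR_good {ℓ : ℕ} (hℓ : ℓ.Prime) (hA : A.LiesOverPrime ℓ) (hW : W.IsGoodPrimeFor ℓ) :
    Good (IsLocalRing.ResidueField A) W := by
  have hchar := TR_charP A hℓ hA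
  rw [Good]
  intro h0
  apply hW
  have h2 := (WeierstrassCurve.map_Δ W _).symm.trans h0
  have h3 : ((W.Δ : ℤ) : IsLocalRing.ResidueField A) = 0 := (eq_intCast _ _).symm.trans h2
  exact (CharP.intCast_eq_zero_iff (IsLocalRing.ResidueField A) ℓ W.Δ).mp h3

/-- good reduction at `ℓ`: the discriminant of `W⁄L` is a unit of a place over `ℓ`. -/
theorem TR_Δ_notMem_nonunits {ℓ : ℕ} (hℓ : ℓ.Prime) (hA : A.LiesOverPrime ℓ)
    (hW : W.IsGoodPrimeFor ℓ) : (W⁄L).Δ ∉ A.nonunits := by
  have hchar := TR_charP A hℓ hA
  have h2 : (W⁄L).Δ = algebraMap ℤ L W.Δ := WeierstrassCurve.map_Δ W _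
  rw [h2]
  intro hmem
  apply hW
  have h3 : (((W.Δ : ℤ) : A) : L) ∈ A.nonunits := by
    have : (((W.Δ : ℤ) : A) : L) = algebraMap ℤ L W.Δ := by simp
    rw [this]
    exact hmem
  have h4 := (TR_residue_eq_zero_iff A ((W.Δ : ℤ) : A)).mpr h3
  rw [map_intCast] at h4
  exact (CharP.intCast_eq_zero_iff (IsLocalRing.ResidueField A) ℓ W.Δ).mp h4

end Curve

end

end Fermat.Agent.EFrob
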