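import Fermat.Agent.EFrob.Skeleton

/-!
# P-EFROB: the coordinate function `x` is transcendental

Shared basic lemmas about the function field `KK k W`: evaluation of polynomials at `gx` is the
composite `k[X] → CoordinateRing → KK` and is injective.
-/

set_option autoImplicit false

namespace Fermat.Agent.EFrob

open WeierstrassCurve WeierstrassCurve.Affine Polynomial
open scoped Polynomial.Bivariate

noncomputable section

variable (k : Type) [Field k] (W : WeierstrassCurve ℤ)

/-- Evaluation at `gx` is the composite `k[X] → CoordinateRing → KK`. -/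
lemma aeval_gx (F : k[X]) : aeval (gx k W) F =
    algebraMap (W⁄k).toAffine.CoordinateRing (KK k W)
      (CoordinateRing.mk (W⁄k).toAffine (C F)) := by
  induction F using Polynomial.induction_on' with
  | add p q hp hq => rw [map_add, hp, hq, C_add, map_add, map_add]
  | monomial n a =>
    rw [← C_mul_X_pow_eq_monomial, map_mul, map_pow, aeval_C, aeval_X, algebraMap_KK, gx,
      C_mul, C_pow, map_mul, map_pow, map_mul, map_pow]

/-- `gx` is transcendental over `k`: evaluation at `gx` is injective. -/
lemma aeval_gx_injective : Function.Injective (aeval (gx k W) : k[X] → KK k W) := by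
  intro F G h
  rw [aeval_gx, aeval_gx] at h
  have h1 := IsFractionRing.injective (W⁄k).toAffine.CoordinateRing (KK k W) h
  have h2 : algebraMap k[X] (W⁄k).toAffine.CoordinateRing F =
      algebraMap k[X] (W⁄k).toAffine.CoordinateRing G := h1
  exact FaithfulSMul.algebraMap_injective k[X] (W⁄k).toAffine.CoordinateRing h2

lemma aeval_gx_eq_zero_iff (F : k[X]) : aeval (gx k W) F = 0 ↔ F = 0 := by
  constructor
  · intro h
    apply aeval_gx_injective k W
    rw [h, map_zero]
  · rintro rfl
    exact map_zero _

/-- `gx ^ n ≠ gx` for `n ≥ 2`. -/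
lemma gx_pow_ne (n : ℕ) (hn : 2 ≤ n) : gx k W ^ n ≠ gx k W := by
  intro h
  have h1 : aeval (gx k W) (X ^ n - X : k[X]) = 0 := by
    rw [map_sub, map_pow, aeval_X, h, sub_self]
  rw [aeval_gx_eq_zero_iff] at h1
  have h2 := congrArg (fun p : k[X] => p.coeff n) h1
  simp only [coeff_sub, coeff_X_pow, coeff_X, coeff_zero, if_true] at h2
  rw [if_neg (by omega)] at h2
  simp at h2

/-- The generic point is represented by `(X, 1)`. -/
lemma isXRep_genPt (hW : Good k W) : IsXRep k W (genPt k W hW) X 1 := by
  refine ⟨isCoprime_one_right, 1, one_ne_zero, ?_, ?_⟩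
  · rw [aeval_X, one_mul]
    rfl
  · rw [map_one, one_mul]
    rfl

/-- The zero point is represented by `(1, 0)`. -/
lemma isXRep_zero : IsXRep k W 0 1 0 := by
  refine ⟨isCoprime_one_left, 1, one_ne_zero, ?_, ?_⟩
  · rw [map_one, one_mul]
    rfl
  · rw [map_zero, one_mul]
    rfl

end

end Fermat.Agent.EFrob
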